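/-
GATE-F (S40) / TOP, file 1 (helper13, gate lead): the LOGICAL SKELETON of GRAPH v1 (board 5791),
as pure `ZMod p`-linear algebra.  No geometry here: every geometric node of the graph enters as one
field of the structure `Chain`.

Dictionary (M = p M', A | p, V = Kum_p(F_M)):
* `Y₀`     : the copy of `ρ̄ = E[p]` in `V[𝔪₀]`                              (S0, GF-SETUP)
* `M₀`     : the admissible-unit classes `M0mod` (= `kerRed ⊓ kerRed₂`, GATE-B B10' N2)
* `trop`   : the tropical vector `m_s`, `Vf = ker trop`                       (GF-TROP, landed)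
* `not_le` : [SS]   `Y₀ ⊄ M⁰`                                                (GF-SS)
* `econst` : (F2)   `e_s m_s(x)` is independent of `s` on `Y₀`               (S1+S2+S3+S4:
             GF-SHAPE, GF-EPEU, GF-NORMDEPTH, GF-KCOVER)
* `T`, `a`, `c` : one non-Eisenstein Hecke operator `T_ℓ₀`, `a = a_ℓ₀(W)`, `c = ℓ₀ + 1`
* `trop_T` : (EIS)  TROP-HECKE on `e`-constant vectors: `m(T x) = c • m(x)`   (GF-EIS)
* `K₁ K₂`  : `kerRed`, `kerRed₂`;  `k12` : `K₁ ⊓ K₂ ≤ M⁰`                    (GF-K12 = B10' N2)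
* `end₁ end₂` : (END) a class of `Y₀ ∩ V^f` outside `K_i` gives the goal      (GF-D1..D4)

`Chain.goal` : the goal holds.
-/
import Mathlib

set_option autoImplicit false

namespace Fermat.Agent.GF.Top.Skeleton

variable {p : ℕ} [Fact p.Prime] {V : Type*} [AddCommGroup V] [Module (ZMod p) V] {ι : Type*}

/-- a vector `m : ι → ZMod p` is `e`-constant: `e s * m s` does not depend on `s`. -/
def EConst (e : ι → ZMod p) (m : ι → ZMod p) : Prop := ∃ c, ∀ s, e s * m s = c

/-- **The chain of GRAPH v1** for one submodule `Y₀` and one goal. -/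
structure Chain (Goal : Prop) (Y₀ : Submodule (ZMod p) V) (M₀ K₁ K₂ : AddSubgroup V)
    (trop : V →+ (ι → ZMod p)) (e : ι → ZMod p) (T : Module.End (ZMod p) V) (a c : ZMod p) :
    Prop where
  /-- [SS] -/
  not_le : ¬ ((Y₀ : Set V) ⊆ M₀)
  /-- (F2) -/
  econst : ∀ x ∈ Y₀, EConst e (trop x)
  /-- `T = a` on `Y₀` -/
  eig : ∀ x ∈ Y₀, T x = a • x
  /-- non-Eisenstein -/
  ne : a ≠ c
  /-- (EIS) TROP-HECKE on `e`-constant vectors -/
  trop_T : ∀ x : V, EConst e (trop x) → trop (T x) = c • trop x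
  /-- GF-K12 -/
  k12 : ∀ x : V, x ∈ K₁ → x ∈ K₂ → x ∈ M₀
  /-- (END), component 1 -/
  end₁ : ∀ x ∈ Y₀, trop x = 0 → x ∉ K₁ → Goal
  /-- (END), component 2 (through `W`) -/
  end₂ : ∀ x ∈ Y₀, trop x = 0 → x ∉ K₂ → Goal

namespace Chain

variable {Goal : Prop} {Y₀ : Submodule (ZMod p) V} {M₀ K₁ K₂ : AddSubgroup V}
  {trop : V →+ (ι → ZMod p)} {e : ι → ZMod p} {T : Module.End (ZMod p) V} {a c : ZMod p}

/-- (S5) the tropical vector vanishes on `Y₀`. -/
theorem trop_eq_zero (h : Chain Goal Y₀ M₀ K₁ K₂ trop e T a c) {x : V} (hx : x ∈ Y₀) :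
    trop x = 0 := by
  have h1 : trop (T x) = c • trop x := h.trop_T x (h.econst x hx)
  have h2 : trop (T x) = a • trop x := by
    rw [h.eig x hx]
    have : trop (a • x) = a • trop x := by
      have hlin : ∀ (n : ℕ), trop ((n : ZMod p) • x) = (n : ZMod p) • trop x := by
        intro n
        rw [Nat.cast_smul_eq_nsmul, Nat.cast_smul_eq_nsmul, map_nsmul]
      obtain ⟨n, rfl⟩ : ∃ n : ℕ, (n : ZMod p) = a := ⟨a.val, ZMod.natCast_zmod_val a⟩
      exact hlin n
    exact this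
  have h3 : (a - c) • trop x = 0 := by rw [sub_smul, ← h1, ← h2, sub_self]
  have hne : a - c ≠ 0 := sub_ne_zero.mpr h.ne
  have := congrArg (fun v => (a - c)⁻¹ • v) h3
  simpa [smul_smul, inv_mul_cancel₀ hne] using this

/-- **GRAPH v1, S0–S6**: the goal. -/
theorem goal (h : Chain Goal Y₀ M₀ K₁ K₂ trop e T a c) : Goal := by
  obtain ⟨x, hx, hxM⟩ := Set.not_subset.mp h.not_le
  have ht : trop x = 0 := h.trop_eq_zero hx
  by_cases h1 : x ∈ K₁
  · by_cases h2 : x ∈ K₂
    · exact absurd (h.k12 x h1 h2) hxM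
    · exact h.end₂ x hx ht h2
  · exact h.end₁ x hx ht h1

end Chain

end Fermat.Agent.GF.Top.Skeleton
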