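/-
GATE-F (S40) / TOP, file 2 (helper13, gate lead): the FROZEN statement S40 from ONE binder
`Provider` = "for every input of S40 which is NOT residually modular of level `M / p` there is a
chain of GRAPH v1 (`GF/Top/Skeleton.Chain`) whose goal is level `M / p`".

The by_contra hypothesis is given to the provider because S0 (GF-SETUP) uses it once:
`α_*, β_*` kill `Y₀` (else the eigensystem occurs in `Kum_p(F_{M'})` and DS lifting gives level `M'`),
i.e. `Y₀ ≤ Knew`, which NORMDEPTH needs.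

`s40_of_provider : Provider → (frozen S40)`; the statement below is `Fermat/Statements/S40.lean`
verbatim (binders copied from `Fermat/Templates/S40.lean.txt`).
-/
import Fermat.Agent.GF.Top.Skeleton
import Fermat.Prelude.Def_FLTPrelim_ModularRep

set_option autoImplicit false

open WeierstrassCurve

namespace Fermat.Agent.GF.Top.S40Top

open Fermat.Agent.GF.Top.Skeleton

/-- **The provider binder**: the whole graph S0–S6 below the skeleton. -/
def Provider : Prop :=
  ∀ (W : WeierstrassCurve ℤ) (_ : W.Δ ≠ 0) (p : ℕ) [Fact p.Prime] (_ : p ≠ 2)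
    (_ : W.IsGoodPrimeFor p) (_ : W.ModRepIsIrreducible p)
    (M : ℕ) (_ : 0 < M) (_ : p ∣ M) (_ : ¬ p ^ 2 ∣ M)
    (_ : W.IsResiduallyModularOfLevel p M) (_ : ¬ W.IsResiduallyModularOfLevel p (M / p)),
    ∃ (V : Type) (_ : AddCommGroup V) (_ : Module (ZMod p) V) (ι : Type)
      (Y₀ : Submodule (ZMod p) V) (M₀ K₁ K₂ : AddSubgroup V) (trop : V →+ (ι → ZMod p))
      (e : ι → ZMod p) (T : Module.End (ZMod p) V) (a c : ZMod p),
      Chain (W.IsResiduallyModularOfLevel p (M / p)) Y₀ M₀ K₁ K₂ trop e T a c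

/-- **Frozen S40 from the provider.** -/
theorem s40_of_provider (h : Provider)
    (W : WeierstrassCurve ℤ) (hΔ : W.Δ ≠ 0)
    {p : ℕ} (hp : p.Prime) (hp2 : p ≠ 2)
    (hgood : W.IsGoodPrimeFor p)
    (hirr : W.ModRepIsIrreducible p)
    {M : ℕ} (hM : 0 < M) (hpM : p ∣ M) (hp2M : ¬ p ^ 2 ∣ M)
    (hmod : W.IsResiduallyModularOfLevel p M) :
    W.IsResiduallyModularOfLevel p (M / p) := by
  have : Fact p.Prime := ⟨hp⟩
  by_contra hnot
  obtain ⟨V, _, _, ι, Y₀, M₀, K₁, K₂, trop, e, T, a, c, hc⟩ :=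
    h W hΔ p hp2 hgood hirr M hM hpM hp2M hmod hnot
  exact hnot hc.goal

end Fermat.Agent.GF.Top.S40Top
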