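/-
GATE-F (S40) / TOP, file 3 (helper61, GF-PROVIDER): `S40Top.Provider` from the CONCRETE fields.

For the inputs of S40 written as `M = M' * p` (`p ∤ M'`), GF-SETUP (`GF/Setup/S0.lean`) gives the
plane `Y₀ = C.Y0 ⊆ Q = eigQ ⊆ V = Kum_p(F_{M' p})` and a non-Eisenstein prime `ℓ₀`.  With
* `A | p` a valuation subring of `ℚ̄`, `P : ι → Place` the nodes of the modular nodal frame,
* `M₀ := M0Kum (M' p) A _ p`           (helper96 `GF/Shape/Plug.lean`),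
* `K₁ := kerRed`, `K₂ := kerRed₂`       (`GK/UqKronecker`, `GK/UqKroneckerU`),
* `trop := trop1FN (M' p) A P`          (helper86 `GF/Trop/Modular.lean`),
* `T := kumTl (M' p) p ℓ₀`, `a := a_ℓ₀(W)`, `c := ℓ₀ + 1`,
the fields `eig`, `ne` (S0) and `k12` (helper71 `GB/B10/KerM0Bridge`) of `Skeleton.Chain` are
discharged here; the other five are the structure `FieldsAt` = the exact target of
GF-SS (`not_le`), GF-F2-ASM (`econst`), GF-EIS (`trop_T`), GF-END-ASM (`end₁`, `end₂`).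

`provider_of_fields : (∀ inputs + S0 data, ∃ A ι P e, FieldsAt …) → S40Top.Provider`.
-/
import Mathlib
import Fermat.Agent.GF.Top.S40Top
import Fermat.Agent.GF.Setup.S0
import Fermat.Agent.GF.Shape.Plug
import Fermat.Agent.GF.Trop.Modular
import Fermat.Agent.GB.B10.KerM0Bridge

set_option autoImplicit false
set_option linter.unusedSectionVars false

noncomputable section

namespace Fermat.Agent.GF.Top.ProviderInst

open AlgebraicCurve ModularCurve IsLocalRing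
open Fermat.Agent.S24 Fermat.Agent.S24_helper62 Fermat.Agent.RRh45 Fermat.Agent.RR
open Fermat.Agent.GJ.J1 Fermat.Agent.GJ.J1.Val
open Fermat.Agent.GK.MultiVal Fermat.Agent.GK.BallTwo Fermat.Agent.GK.NodalGraded
open Fermat.Agent.GS.Nodal.LSR2 Fermat.Agent.GS.Nodal.Inst Fermat.Agent.GS.Nodal.ROfSurj2
open Fermat.Agent.GJ Fermat.Agent.GJ.KumGroup Fermat.Agent.GJ.Kum.KumType
open Fermat.Agent.GK.UQ Fermat.Agent.GK.New Fermat.Agent.GK.AL Fermat.Agent.GK.UqKronecker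
open Fermat.Agent.GB.A.A6.ECDet Fermat.Agent.GB.A.A6.EigQ
open Fermat.Agent.GF.Setup.Plane Fermat.Agent.GF.Setup.S0
open Fermat.Agent.GF.Shape.Plug Fermat.Agent.GF.Trop
open Fermat.Agent.GF.Top.Skeleton Fermat.Agent.GF.Top.S40Top

attribute [local instance] finiteResidues_FN hasPrincipalDivisors_FN nonempty_place_FN
  isAlgClosed_res finiteResidues_Fres hasPrincipalDivisors_Fres nonempty_place_Fres

/-- **The five concrete fields GATE-F still owes** (at level `M' p`, `A | p`, nodes `P`, thickness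
vector `e`). -/
structure FieldsAt (W : WeierstrassCurve ℤ) (p : ℕ) [Fact p.Prime] (M' : ℕ) [NeZero M']
    (hpM' : ¬ p ∣ M') (C : Copy W p (M' * p)) {ℓ₀ : ℕ} (hℓ₀ : ℓ₀.Prime) (hℓ₀M : ¬ ℓ₀ ∣ M' * p)
    (A : ValuationSubring Kbar) {ι : Type} [Fintype ι]
    (P : ι → Place (ResidueField A) (FresBar (M' * p) A)) (e : ι → ZMod p) : Prop where
  /-- [SS] (GF-SS) -/
  not_le : ¬ ((C.Y0 : Set (Additive (Kum Kb (FK (M' * p)) p))) ⊆
      M0Kum (M' * p) A (exactDvd hpM') p)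
  /-- (F2) (GF-F2-ASM) -/
  econst : ∀ x ∈ C.Y0, EConst e (trop1FN (q := p) (M' * p) A P x)
  /-- TROP-HECKE (GF-EIS) -/
  trop_T : ∀ x : Additive (Kum Kb (FK (M' * p)) p),
    EConst e (trop1FN (q := p) (M' * p) A P x) →
      trop1FN (q := p) (M' * p) A P (kumTl (M' * p) p hℓ₀ hℓ₀M x)
        = (((ℓ₀ : ℕ) : ZMod p) + 1) • trop1FN (q := p) (M' * p) A P x
  /-- (END), first component (GF-END-ASM) -/
  end₁ : ∀ x ∈ C.Y0, trop1FN (q := p) (M' * p) A P x = 0 → x ∉ kerRed (M' * p) A p →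
    W.IsResiduallyModularOfLevel p M'
  /-- (END), second component (GF-END-ASM) -/
  end₂ : ∀ x ∈ C.Y0, trop1FN (q := p) (M' * p) A P x = 0 →
    x ∉ kerRed₂ (exactDvd hpM') A p → W.IsResiduallyModularOfLevel p M'

/-- **the chain from the concrete fields** -/
theorem chain_of_fieldsAt (W : WeierstrassCurve ℤ) (hΔ : W.Δ ≠ 0) (p : ℕ) [Fact p.Prime]
    (M' : ℕ) [NeZero M'] (hpM' : ¬ p ∣ M') (C : Copy W p (M' * p))
    (hC : C.Y0 ≤ eigQ (M' * p) p (Sset W (M' * p) p) (hMS W (M' * p) p) (aW W))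
    {ℓ₀ : ℕ} (hℓ₀ : ℓ₀.Prime) (hℓ₀S : ℓ₀ ∉ Sset W (M' * p) p)
    (hne : ((aW W ℓ₀ : ℤ) : ZMod p) ≠ ((ℓ₀ : ℕ) : ZMod p) + 1)
    (A : ValuationSubring Kbar) (hA : A.LiesOverPrime p) {ι : Type} [Fintype ι]
    (P : ι → Place (ResidueField A) (FresBar (M' * p) A)) (e : ι → ZMod p)
    (F : FieldsAt W p M' hpM' C hℓ₀ (good_of_notMem hΔ hℓ₀ hℓ₀S).2.1 A P e) :
    Chain (W.IsResiduallyModularOfLevel p M') C.Y0 (M0Kum (M' * p) A (exactDvd hpM') p)
      (kerRed (M' * p) A p) (kerRed₂ (exactDvd hpM') A p) (trop1FN (q := p) (M' * p) A P) e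
      (kumTl (M' * p) p hℓ₀ (good_of_notMem hΔ hℓ₀ hℓ₀S).2.1)
      ((aW W ℓ₀ : ℤ) : ZMod p) (((ℓ₀ : ℕ) : ZMod p) + 1) where
  not_le := F.not_le
  econst := F.econst
  eig := fun x hx => C.kumTl_eq hC hx hℓ₀ hℓ₀S _
  ne := hne
  trop_T := F.trop_T
  k12 := fun x h1 h2 => by
    rw [mem_M0Kum, kumJ_apply, Fermat.Agent.GH.S32.KumEquivariant.coe_kumTorsionBy]
    exact Fermat.Agent.GB.B10.KerM0Bridge.mem_M0mod_of_mem_kerRed_inf hA h1 h2
  end₁ := F.end₁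
  end₂ := F.end₂

/-- **`S40Top.Provider` from the concrete fields.**  The hypothesis hands the field-provider
everything S0 knows: the plane `C` with `Y₀ ≤ eigQ`, the non-Eisenstein prime `ℓ₀`, and `hnot`
(through `S0.knew`: `α_*`, `β_*` kill `eigQ ⊇ Y₀`). -/
theorem provider_of_fields
    (H : ∀ (W : WeierstrassCurve ℤ) (hΔ : W.Δ ≠ 0) (p : ℕ) [Fact p.Prime] (_ : p ≠ 2)
      (_ : W.IsGoodPrimeFor p) (_ : W.ModRepIsIrreducible p)
      (M' : ℕ) [NeZero M'] (hpM' : ¬ p ∣ M')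
      (_ : W.IsResiduallyModularOfLevel p (M' * p))
      (_ : ¬ W.IsResiduallyModularOfLevel p M')
      (C : Copy W p (M' * p))
      (_ : C.Y0 ≤ eigQ (M' * p) p (Sset W (M' * p) p) (hMS W (M' * p) p) (aW W))
      (ℓ₀ : ℕ) (hℓ₀ : ℓ₀.Prime) (hℓ₀S : ℓ₀ ∉ Sset W (M' * p) p)
      (_ : ((aW W ℓ₀ : ℤ) : ZMod p) ≠ ((ℓ₀ : ℕ) : ZMod p) + 1),
      ∃ (A : ValuationSubring Kbar) (_ : A.LiesOverPrime p) (ι : Type) (_ : Fintype ι)
        (P : ι → Place (ResidueField A) (FresBar (M' * p) A)) (e : ι → ZMod p),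
        FieldsAt W p M' hpM' C hℓ₀ (good_of_notMem hΔ hℓ₀ hℓ₀S).2.1 A P e) :
    Provider := by
  intro W hΔ p _ hp2 hgood hirr M hM hpM hp2M hmod hnot
  have hp : p.Prime := Fact.out
  obtain ⟨M', rfl⟩ : ∃ M', M = M' * p := ⟨M / p, (Nat.div_mul_cancel hpM).symm⟩
  have hM'0 : M' ≠ 0 := by
    rintro rfl
    simp at hM
  have : NeZero M' := ⟨hM'0⟩
  have hpM' : ¬ p ∣ M' := by
    intro h
    apply hp2M
    rw [pow_two]
    exact Nat.mul_dvd_mul h dvd_rfl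
  rw [Nat.mul_div_cancel M' hp.pos] at hnot ⊢
  obtain ⟨C, hC⟩ := exists_setup W hΔ hp2 hirr hmod
  obtain ⟨ℓ₀, hℓ₀, hℓ₀S, hne⟩ := exists_nonEis W hΔ hp2 hirr (M' * p) (p := p)
  obtain ⟨A, hA, ι, _, P, e, F⟩ :=
    H W hΔ p hp2 hgood hirr M' hpM' hmod hnot C hC ℓ₀ hℓ₀ hℓ₀S hne
  exact ⟨_, inferInstance, inferInstance, ι, _, _, _, _, _, e, _, _, _,
    chain_of_fieldsAt W hΔ p M' hpM' C hC hℓ₀ hℓ₀S hne A hA P e F⟩

end Fermat.Agent.GF.Top.ProviderInst
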