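/-
GATE-F / TOP, file 4 (helper61): the FROZEN statement S44 (level lowering at `p` for the Frey
curve) from the MULTIPLICATIVE, PEU RAMIFIÉE, `5 ≤ p` case of the Mazur–Ribet statement.

`Core44` : `W/ℤ` semistable, `Δ ≠ 0`, `5 ≤ p` prime, `p ∣ Δ` (multiplicative reduction at `p`),
`p ∣ v_p(Δ)` (peu ramifiée), `W[p]` irreducible, `p ∥ M`, residually modular of level `M`
⟹ residually modular of level `M / p`.   (A sub-case of the frozen S39; `p = 3` excluded.)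

`s44_of_core44 : Core44 → (frozen S44)`: for a Frey package with `p ∣ N`, `N` a conductor level,
`p ∣ a b c`, hence the semistable model `freyCurveInt` has `256 Δ = (a b c)^{2p}`: multiplicative
at `p` with `v_p(Δ) = 2 p v_p(a b c)`.  Model change (`GB/Top/ModelChange`) moves
`ModularRepOfLevel` to `freyCurveInt` and back.
-/
import Mathlib
import Fermat.Agent.GB.Top.S43Frey
import Fermat.Agent.GB.Top.ModelChange
import Fermat.Prelude.Def_WeierstrassCurve_PeuRamifiee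

set_option autoImplicit false

open WeierstrassCurve WeierstrassCurve.Affine WeierstrassCurve.Affine.Point

namespace Fermat.Agent.GF.Top.S44Top

open Fermat.Agent.GB.Top.S43Frey

/-- **The multiplicative peu ramifiée case of Mazur–Ribet, `5 ≤ p`.** -/
def Core44 : Prop :=
  ∀ (W : WeierstrassCurve ℤ) (_ : W.Δ ≠ 0) (p : ℕ) (_ : p.Prime) (_ : 5 ≤ p)
    (_ : W.IsSemistableModel) (_ : (p : ℤ) ∣ W.Δ)
    (_ : (W.map (Int.castRingHom ℚ)).IsPeuRamifieeAt p p)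
    (_ : W.ModRepIsIrreducible p)
    (M : ℕ) (_ : 0 < M) (_ : p ∣ M) (_ : ¬ p ^ 2 ∣ M)
    (_ : W.IsResiduallyModularOfLevel p M), W.IsResiduallyModularOfLevel p (M / p)

section FreyAtP

variable (P : FreyPackage)

/-- `256 Δ = (a b c)^{2p}` -/
theorem freyCurveInt_Δ_abc : 256 * P.freyCurveInt.Δ = (P.a * P.b * P.c) ^ (2 * P.p) := by
  rw [freyCurveInt_Δ, P.hFLT]
  ring

theorem not_dvd_256 : ¬ (P.p : ℤ) ∣ 256 := by
  intro h
  have hp : Prime (P.p : ℤ) := Nat.prime_iff_prime_int.mp P.pp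
  have h256 : (256 : ℤ) = 2 ^ 8 := by norm_num
  rw [h256] at h
  have h2 := hp.dvd_of_dvd_pow h
  have h3 : P.p ∣ 2 := by exact_mod_cast h2
  have h4 := Nat.le_of_dvd (by norm_num) h3
  have := P.hp5
  omega

/-- `p ∣ a b c ⟹ p ∣ Δ`: multiplicative reduction at `p`. -/
theorem p_dvd_Δ (h : (P.p : ℤ) ∣ P.a * P.b * P.c) : (P.p : ℤ) ∣ P.freyCurveInt.Δ := by
  have hp : Prime (P.p : ℤ) := Nat.prime_iff_prime_int.mp P.pp
  have h1 : (P.p : ℤ) ∣ 256 * P.freyCurveInt.Δ := by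
    rw [freyCurveInt_Δ_abc]
    exact dvd_pow h (by have := P.hp5; omega)
  exact (hp.dvd_or_dvd h1).resolve_left (not_dvd_256 P)

/-- the Frey curve is peu ramifiée at `p`: `p ∣ v_p(Δ)`. -/
theorem isPeuRamifieeAt : (P.freyCurveInt.map (Int.castRingHom ℚ)).IsPeuRamifieeAt P.p P.p := by
  have : Fact P.p.Prime := ⟨P.pp⟩
  unfold WeierstrassCurve.IsPeuRamifieeAt
  rw [WeierstrassCurve.map_Δ, eq_intCast]
  have hΔ : ((P.freyCurveInt.Δ : ℤ) : ℚ) ≠ 0 := by exact_mod_cast freyCurveInt_Δ_ne_zero P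
  have habc : ((P.a * P.b * P.c : ℤ) : ℚ) ≠ 0 := by
    exact_mod_cast mul_ne_zero (mul_ne_zero P.ha0 P.hb0) P.hc0
  have hrel : ((256 : ℤ) : ℚ) * ((P.freyCurveInt.Δ : ℤ) : ℚ)
      = ((P.a * P.b * P.c : ℤ) : ℚ) ^ (2 * P.p) := by
    exact_mod_cast freyCurveInt_Δ_abc P
  have h1 : padicValRat P.p (((256 : ℤ) : ℚ) * ((P.freyCurveInt.Δ : ℤ) : ℚ))
      = padicValRat P.p ((256 : ℤ) : ℚ) + padicValRat P.p ((P.freyCurveInt.Δ : ℤ) : ℚ) :=
    padicValRat.mul (by norm_num) hΔ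
  have h2 : padicValRat P.p ((256 : ℤ) : ℚ) = 0 := by
    rw [padicValRat.of_int, padicValInt.eq_zero_of_not_dvd (not_dvd_256 P), Nat.cast_zero]
  rw [hrel, padicValRat.pow, h2, zero_add] at h1
  rw [← h1]
  push_cast
  exact ⟨2 * padicValRat P.p ((P.a : ℚ) * (P.b : ℚ) * (P.c : ℚ)), by ring⟩

end FreyAtP

/-- **Frozen S44 from `Core44`.** -/
theorem s44_of_core44 (hcore : Core44) (P : FreyPackage) {N : ℕ}
    (hcond : P.IsConductorLevel N) (hpN : P.p ∣ N)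
    (hirr : GaloisRepIsIrreducible (K := AlgebraicClosure ℚ) ℚ P.freyCurve P.p)
    (hmod : P.ModularRepOfLevel N) :
    ∃ M : ℕ, M ∣ N ∧ ¬ P.p ∣ M ∧ P.ModularRepOfLevel M := by
  have habc : (P.p : ℤ) ∣ P.a * P.b * P.c := hcond.p_dvd_abc hpN
  have hp2N : ¬ P.p ^ 2 ∣ N := hcond.sq_not_dvd P.pp
  have hres := frey_res_of_mod Fermat.Agent.GB.Top.ModelChangeProof.modelChange P hmod
  have hlow := hcore P.freyCurveInt (freyCurveInt_Δ_ne_zero P) P.p P.pp P.hp5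
    (freyCurveInt_isSemistableModel P) (p_dvd_Δ P habc) (isPeuRamifieeAt P) (frey_irr P hirr)
    N hcond.pos hpN hp2N hres
  refine ⟨N / P.p, Nat.div_dvd_of_dvd hpN, ?_, frey_mod_of_res P hlow⟩
  intro h
  apply hp2N
  obtain ⟨k, hk⟩ := h
  refine ⟨k, ?_⟩
  have h1 : N = P.p * (N / P.p) := (Nat.mul_div_cancel' hpN).symm
  rw [h1, hk]
  ring

end Fermat.Agent.GF.Top.S44Top
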