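/-
GATE-F / TOP, file 6 (helper61, asked by helper13 GRAPH v2 §1): the skeleton with the two fields
`econst`, `trop_T` of `Skeleton.Chain` replaced by the single field `trop_zero`
(the EIS statement of helper77 is an eigenvector statement, so `F2 + EIS` deliver
`trop x = 0` on `Y₀` directly).  Mathlib only.
-/
import Mathlib

set_option autoImplicit false

namespace Fermat.Agent.GF.Top.SkeletonZ

variable {p : ℕ} [Fact p.Prime] {V : Type*} [AddCommGroup V] [Module (ZMod p) V] {ι : Type*}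

/-- **The chain of GRAPH v2.** -/
structure ChainZ (Goal : Prop) (Y₀ : Submodule (ZMod p) V) (M₀ K₁ K₂ : AddSubgroup V)
    (trop : V →+ (ι → ZMod p)) : Prop where
  /-- [SS] -/
  not_le : ¬ ((Y₀ : Set V) ⊆ M₀)
  /-- (F2) + (EIS) -/
  trop_zero : ∀ x ∈ Y₀, trop x = 0
  /-- GF-K12 -/
  k12 : ∀ x : V, x ∈ K₁ → x ∈ K₂ → x ∈ M₀
  /-- (END), component 1 -/
  end₁ : ∀ x ∈ Y₀, trop x = 0 → x ∉ K₁ → Goal
  /-- (END), component 2 (through `W`) -/
  end₂ : ∀ x ∈ Y₀, trop x = 0 → x ∉ K₂ → Goal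

/-- **GRAPH v2**: the goal. -/
theorem ChainZ.goal {Goal : Prop} {Y₀ : Submodule (ZMod p) V} {M₀ K₁ K₂ : AddSubgroup V}
    {trop : V →+ (ι → ZMod p)} (h : ChainZ Goal Y₀ M₀ K₁ K₂ trop) : Goal := by
  obtain ⟨x, hx, hxM⟩ := Set.not_subset.mp h.not_le
  have ht : trop x = 0 := h.trop_zero x hx
  by_cases h1 : x ∈ K₁
  · by_cases h2 : x ∈ K₂
    · exact absurd (h.k12 x h1 h2) hxM
    · exact h.end₂ x hx ht h2
  · exact h.end₁ x hx ht h1

end Fermat.Agent.GF.Top.SkeletonZ
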