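/-
GATE-F / TOP, file 7 (helper61, asked by helper13 GRAPH v2 §1): **the frozen S44 from the concrete
fields `FieldsAtZ`**, quantified over EVERY valuation subring `A | p` and EVERY nodal frame
`(ι, P, Q)` of `F_{M' p}` at `A` (`FrameFacts` + `NodalHyp` of `GS/Nodal/Inst`), so that the four
field owners cannot diverge on the choice of the nodes: each proves his field for an arbitrary
frame, the integrator picks one (`exists_liesOverPrime`, `exists_nodalHyp_of_exactDvd`).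

`FieldsAtZ W p M' hpM' C A P` :
* `not_le`    : `¬ Y₀ ⊆ M0Kum`                                   (GF-SS: U-DEPTH + (K0) + SS-ASM)
* `trop_zero` : `∀ x ∈ Y₀, trop1FN x = 0`                         (F2-ASM + GF-EIS)
* `end₁ end₂` : a class of `Y₀` with `trop = 0` outside `kerRed` / `kerRed₂` gives level `M'`
                                                                  (GF-END-ASM)
`k12` is discharged (helper71 `GB/B10/KerM0Bridge`).

`core44_of_fieldsZ`, `s44_of_fieldsZ`.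
-/
import Mathlib
import Fermat.Agent.GF.Top.SkeletonZ
import Fermat.Agent.GF.Top.ProviderInst
import Fermat.Agent.GF.Top.S44Top
import Fermat.Agent.GS.Nodal.Inst.Level

set_option autoImplicit false
set_option linter.unusedSectionVars false

noncomputable section

namespace Fermat.Agent.GF.Top.Provider44Z

open AlgebraicCurve IntermediateField Module IsLocalRing ModularCurve
open Fermat.Agent.S24 Fermat.Agent.S24_helper62 Fermat.Agent.RRh45 Fermat.Agent.RR
open Fermat.Agent.GJ.J1 Fermat.Agent.GJ.J1.Val Fermat.Agent.GJ.J1.InstGen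
open Fermat.Agent.GK.MultiVal Fermat.Agent.GK.BallTwo Fermat.Agent.GK.NodalGraded
open Fermat.Agent.GS.Nodal.LSR2 Fermat.Agent.GS.Nodal.Inst Fermat.Agent.GS.Nodal.ROfSurj2
open Fermat.Agent.GJ Fermat.Agent.GJ.KumGroup Fermat.Agent.GJ.Kum.KumType
open Fermat.Agent.GK.UQ Fermat.Agent.GK.New Fermat.Agent.GK.AL Fermat.Agent.GK.UqKronecker
open Fermat.Agent.GB.A.A6.ECDet Fermat.Agent.GB.A.A6.EigQ
open Fermat.Agent.GF.Setup.Plane Fermat.Agent.GF.Setup.S0
open Fermat.Agent.GF.Shape.Plug Fermat.Agent.GF.Trop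
open Fermat.Agent.GF.Top.SkeletonZ Fermat.Agent.GF.Top.S44Top

attribute [local instance] finiteResidues_FN hasPrincipalDivisors_FN nonempty_place_FN
  isAlgClosed_res finiteResidues_Fres hasPrincipalDivisors_Fres nonempty_place_Fres

/-- **The concrete fields of GRAPH v2** (level `M' p`, `A | p`, nodes `P`). -/
structure FieldsAtZ (W : WeierstrassCurve ℤ) (p : ℕ) [Fact p.Prime] (M' : ℕ) [NeZero M']
    (hpM' : ¬ p ∣ M') (C : Copy W p (M' * p)) (A : ValuationSubring Kbar) {ι : Type} [Fintype ι]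
    (P : ι → Place (ResidueField A) (FresBar (M' * p) A)) : Prop where
  /-- [SS] -/
  not_le : ¬ ((C.Y0 : Set (Additive (Kum Kb (FK (M' * p)) p))) ⊆
      M0Kum (M' * p) A (exactDvd hpM') p)
  /-- (F2) + (EIS) -/
  trop_zero : ∀ x ∈ C.Y0, trop1FN (q := p) (M' * p) A P x = 0
  /-- (END), first component -/
  end₁ : ∀ x ∈ C.Y0, trop1FN (q := p) (M' * p) A P x = 0 → x ∉ kerRed (M' * p) A p →
    W.IsResiduallyModularOfLevel p M'
  /-- (END), second component -/
  end₂ : ∀ x ∈ C.Y0, trop1FN (q := p) (M' * p) A P x = 0 →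
    x ∉ kerRed₂ (exactDvd hpM') A p → W.IsResiduallyModularOfLevel p M'

/-- **the chain from the concrete fields** -/
theorem chainZ_of_fieldsAtZ (W : WeierstrassCurve ℤ) (p : ℕ) [Fact p.Prime]
    (M' : ℕ) [NeZero M'] (hpM' : ¬ p ∣ M') (C : Copy W p (M' * p))
    (A : ValuationSubring Kbar) (hA : A.LiesOverPrime p) {ι : Type} [Fintype ι]
    (P : ι → Place (ResidueField A) (FresBar (M' * p) A))
    (F : FieldsAtZ W p M' hpM' C A P) :
    ChainZ (W.IsResiduallyModularOfLevel p M') C.Y0 (M0Kum (M' * p) A (exactDvd hpM') p)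
      (kerRed (M' * p) A p) (kerRed₂ (exactDvd hpM') A p) (trop1FN (q := p) (M' * p) A P) where
  not_le := F.not_le
  trop_zero := F.trop_zero
  k12 := fun x h1 h2 => by
    rw [mem_M0Kum, kumJ_apply, Fermat.Agent.GH.S32.KumEquivariant.coe_kumTorsionBy]
    exact Fermat.Agent.GB.B10.KerM0Bridge.mem_M0mod_of_mem_kerRed_inf hA h1 h2
  end₁ := F.end₁
  end₂ := F.end₂

/-- the hypothesis of `core44_of_fieldsZ`: the fields, for EVERY `A | p` and EVERY nodal frame. -/
def FieldsZ : Prop :=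
  ∀ (W : WeierstrassCurve ℤ) (_ : W.Δ ≠ 0) (p : ℕ) [Fact p.Prime] (_ : 5 ≤ p)
    (_ : W.IsSemistableModel) (_ : (p : ℤ) ∣ W.Δ)
    (_ : (W.map (Int.castRingHom ℚ)).IsPeuRamifieeAt p p)
    (_ : W.ModRepIsIrreducible p)
    (M' : ℕ) [NeZero M'] (hpM' : ¬ p ∣ M')
    (_ : W.IsResiduallyModularOfLevel p (M' * p))
    (_ : ¬ W.IsResiduallyModularOfLevel p M')
    (C : Copy W p (M' * p))
    (_ : C.Y0 ≤ eigQ (M' * p) p (Sset W (M' * p) p) (hMS W (M' * p) p) (aW W))
    (ℓ₀ : ℕ) (_ : ℓ₀.Prime) (_ : ℓ₀ ∉ Sset W (M' * p) p)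
    (_ : ((aW W ℓ₀ : ℤ) : ZMod p) ≠ ((ℓ₀ : ℕ) : ZMod p) + 1)
    (A : ValuationSubring Kbar) (_ : A.LiesOverPrime p) (ι : Type) [Fintype ι]
    (P Q : ι → Place (ResidueField A) (FresBar (M' * p) A)) (c : ℤ) (n₀ : ℕ)
    (_ : FrameFacts (M' * p) A (exactDvd hpM') P Q)
    (_ : NodalHyp (redCompatFN (M' * p) A (exactDvd hpM')) P Q (CS (M' * p) (exactDvd hpM'))
      (Dτ (M' * p) A p) (Dτ (M' * p) A p) (genusRR Kbar (FN (M' * p))) c n₀),
    FieldsAtZ W p M' hpM' C A P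

/-- **`Core44` from the concrete fields of GRAPH v2.** -/
theorem core44_of_fieldsZ (H : FieldsZ) : Core44 := by
  intro W hΔ p hp hp5 hss hmult hpeu hirr M hM hpM hp2M hmod
  have : Fact p.Prime := ⟨hp⟩
  have hp2 : p ≠ 2 := by omega
  by_contra hnot
  obtain ⟨M', rfl⟩ : ∃ M', M = M' * p := ⟨M / p, (Nat.div_mul_cancel hpM).symm⟩
  have hM'0 : M' ≠ 0 := by
    rintro rfl
    simp at hM
  have : NeZero M' := ⟨hM'0⟩
  have hpM' : ¬ p ∣ M' := by
    intro h
    apply hp2M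
    rw [pow_two]
    exact Nat.mul_dvd_mul h dvd_rfl
  rw [Nat.mul_div_cancel M' hp.pos] at hnot
  obtain ⟨C, hC⟩ := exists_setup W hΔ hp2 hirr hmod
  obtain ⟨ℓ₀, hℓ₀, hℓ₀S, hne⟩ := exists_nonEis W hΔ hp2 hirr (M' * p) (p := p)
  obtain ⟨A, hA⟩ := Fermat.Agent.Common_helper32.exists_liesOverPrime p hp
  obtain ⟨ι, _, P, Q, c, n₀, FF, NH⟩ :=
    exists_nodalHyp_of_exactDvd (M' * p) p A (exactDvd hpM') hA (by omega) (by omega)
  have F := H W hΔ p hp5 hss hmult hpeu hirr M' hpM' hmod hnot C hC ℓ₀ hℓ₀ hℓ₀S hne A hA ι P Q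
    c n₀ FF NH
  exact hnot (chainZ_of_fieldsAtZ W p M' hpM' C A hA P F).goal

/-- **Frozen S44 from the concrete fields of GRAPH v2.** -/
theorem s44_of_fieldsZ (H : FieldsZ) (P : FreyPackage) {N : ℕ}
    (hcond : P.IsConductorLevel N) (hpN : P.p ∣ N)
    (hirr : WeierstrassCurve.Affine.Point.GaloisRepIsIrreducible (K := AlgebraicClosure ℚ) ℚ
      P.freyCurve P.p)
    (hmod : P.ModularRepOfLevel N) :
    ∃ M : ℕ, M ∣ N ∧ ¬ P.p ∣ M ∧ P.ModularRepOfLevel M :=
  s44_of_core44 (core44_of_fieldsZ H) P hcond hpN hirr hmod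

end Fermat.Agent.GF.Top.Provider44Z
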