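/-
GATE-F / TOP, file 9 (helper61; RULING-2 §1 of helper13, board 6195): **`Core44` with the extra
input `hord`** = the frozen `IsOrdinaryAt` shape of `W[p]` at `p` (the E-side ordinary line:
for every `A | p` a `D_A`-stable line `L = 𝔽_p ∙ b 0` with `(σ − 1) W[p] ⊆ L` for `σ ∈ I_A`),
and the frozen S44 from it: for the Frey curve with `p ∣ abc` the line is on main
(`GB/ResOrd/Frey.frey_isOrdinaryAt_of_det`, elementary, no Tate curve), the determinant binder
from `ECDet.det_rho` + `Shape/Cyc.exists_inertia_cyc_ne_one`.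

So the field `not_le` ([SS]) of the provider depends on NOTHING of GF-ETATE:
`not_le ⟸ hord + strong HasCE` (helper69 GF-SS-ORD / helper85 OrdCE).

* `OrdAt W p` : the frozen shape, for every `(hcard₁, hker)`;
* `OrdAt.exists_line` : the weak form consumed by helper85's `not_subset_M0Kum_of_copy`:
  `∃ L ≠ ⊤`, `D_A`-stable (hence `I_A`-stable), `(ρ̄(σ) − 1) W[p] ⊆ L` for `σ ∈ I_A`, `finrank L = 1`;
* `Core44O`, `frey_ordAt`, `s44_of_core44O : Core44O → (frozen S44)`.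
-/
import Mathlib
import Fermat.Agent.GF.Top.S44Top
import Fermat.Agent.GB.ResOrd.Frey
import Fermat.Agent.GB.A.A6.ECDet
import Fermat.Agent.GF.Shape.Cyc

set_option autoImplicit false

open WeierstrassCurve WeierstrassCurve.Affine WeierstrassCurve.Affine.Point

namespace Fermat.Agent.GF.Top.S44TopOrd

open Fermat.Agent.GB.Top.S43Frey Fermat.Agent.GB.A.A6.ECDet Fermat.Agent.GF.Top.S44Top
open Fermat.Agent.Common_helper32

/-- **the E-side ordinary line at `p`, frozen shape** (`GaloisRepAdic.IsOrdinaryAt` of the residual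
representation of `W[p]`), for every choice of the two proof arguments of
`residualGaloisRepOf`. -/
def OrdAt (W : WeierstrassCurve ℤ) (p : ℕ) [Fact p.Prime] : Prop :=
  ∀ (hcard₁ : Nat.card (Tp W p) = p ^ 2) (hker : GaloisFactorsThroughFiniteLevel (rho W p)),
    (GaloisRepAdic.ofResidualGaloisRep
      ((W.map (Int.castRingHom ℚ)).residualGaloisRepOf p hcard₁ hker)).IsOrdinaryAt p

/-- the weak form of `OrdAt` in GF vocabulary (`Tp`, `rho`). -/
theorem OrdAt.exists_line {W : WeierstrassCurve ℤ} {p : ℕ} [Fact p.Prime] (hord : OrdAt W p)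
    (hcard₁ : Nat.card (Tp W p) = p ^ 2) (A : ValuationSubring Qb) (hA : A.LiesOverPrime p) :
    ∃ L : Submodule (ZMod p) (Tp W p), L ≠ ⊤ ∧ Module.finrank (ZMod p) L = 1 ∧
      (∀ σ ∈ A.decompositionSubgroup ℚ, ∀ x ∈ L, rho W p σ x ∈ L) ∧
      (∀ σ ∈ A.inertiaSubgroupIn ℚ, ∀ x ∈ L, rho W p σ x ∈ L) ∧
      (∀ σ ∈ A.inertiaSubgroupIn ℚ, ∀ x : Tp W p, rho W p σ x - x ∈ L) := by
  obtain ⟨L, ⟨b, hb⟩, hD, hI⟩ := hord hcard₁ (finiteLevel_rho hcard₁) A hA
  change Submodule (ZMod p) (Tp W p) at L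
  change Module.Basis (Fin 2) (ZMod p) (Tp W p) at b
  have hfr : Module.finrank (ZMod p) L = 1 := by
    rw [hb]
    exact finrank_span_singleton (b.ne_zero 0)
  have hne : L ≠ ⊤ := by
    intro h
    have h2 : Module.finrank (ZMod p) (Tp W p) = 2 := by
      rw [Module.finrank_eq_card_basis b]
      simp
    rw [h, finrank_top, h2] at hfr
    omega
  refine ⟨L, hne, hfr, hD, fun σ hσ x hx => hD σ ?_ x hx, hI⟩
  -- `I_A ⊆ D_A`
  obtain ⟨τ, _, rfl⟩ := hσ
  exact τ.2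

/-- **The multiplicative peu ramifiée case of Mazur–Ribet, `5 ≤ p`, with the E-side ordinary
line as an input.** -/
def Core44O : Prop :=
  ∀ (W : WeierstrassCurve ℤ) (_ : W.Δ ≠ 0) (p : ℕ) (hp : p.Prime) (_ : 5 ≤ p)
    (_ : W.IsSemistableModel) (_ : (p : ℤ) ∣ W.Δ)
    (_ : (W.map (Int.castRingHom ℚ)).IsPeuRamifieeAt p p)
    (_ : W.ModRepIsIrreducible p)
    (_ : @OrdAt W p ⟨hp⟩)
    (M : ℕ) (_ : 0 < M) (_ : p ∣ M) (_ : ¬ p ^ 2 ∣ M)
    (_ : W.IsResiduallyModularOfLevel p M), W.IsResiduallyModularOfLevel p (M / p)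

/-- `Core44 ⟹ Core44O` (forget the line). -/
theorem core44O_of_core44 (h : Core44) : Core44O :=
  fun W hΔ p hp hp5 hss hmult hpeu hirr _ M hM hpM hp2M hmod =>
    h W hΔ p hp hp5 hss hmult hpeu hirr M hM hpM hp2M hmod

/-- **The Frey curve is ordinary at `p ∣ abc`** (frozen shape, elementary: `GB/ResOrd/Frey`). -/
theorem frey_ordAt (P : FreyPackage) (habc : (P.p : ℤ) ∣ P.a * P.b * P.c)
    (hirr : P.freyCurveInt.ModRepIsIrreducible P.p) :
    @OrdAt P.freyCurveInt P.p ⟨P.pp⟩ := by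
  have : Fact P.p.Prime := ⟨P.pp⟩
  intro hcard₁ hker
  have hp2 : P.p ≠ 2 := by have := P.hp5; omega
  refine Fermat.Agent.GB.ResOrd.Frey.frey_isOrdinaryAt_of_det P habc _ (freyCurve_eq_map P).symm
    hcard₁ hker fun A hA => ?_
  obtain ⟨σ, hσ, hne⟩ := Fermat.Agent.GF.Shape.Cyc.exists_inertia_cyc_ne_one hp2 A hA
  refine ⟨σ, hσ, ?_⟩
  have hdet := det_rho (W := P.freyCurveInt) (p := P.p) (freyCurveInt_Δ_ne_zero P) hcard₁ hirr σ
  intro h1
  apply hne
  rw [← hdet]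
  exact h1

/-- **Frozen S44 from `Core44O`.** -/
theorem s44_of_core44O (hcore : Core44O) (P : FreyPackage) {N : ℕ}
    (hcond : P.IsConductorLevel N) (hpN : P.p ∣ N)
    (hirr : GaloisRepIsIrreducible (K := AlgebraicClosure ℚ) ℚ P.freyCurve P.p)
    (hmod : P.ModularRepOfLevel N) :
    ∃ M : ℕ, M ∣ N ∧ ¬ P.p ∣ M ∧ P.ModularRepOfLevel M := by
  have habc : (P.p : ℤ) ∣ P.a * P.b * P.c := hcond.p_dvd_abc hpN
  have hp2N : ¬ P.p ^ 2 ∣ N := hcond.sq_not_dvd P.pp
  have hres := frey_res_of_mod Fermat.Agent.GB.Top.ModelChangeProof.modelChange P hmod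
  have hlow := hcore P.freyCurveInt (freyCurveInt_Δ_ne_zero P) P.p P.pp P.hp5
    (freyCurveInt_isSemistableModel P) (p_dvd_Δ P habc) (isPeuRamifieeAt P) (frey_irr P hirr)
    (frey_ordAt P habc (frey_irr P hirr)) N hcond.pos hpN hp2N hres
  refine ⟨N / P.p, Nat.div_dvd_of_dvd hpN, ?_, frey_mod_of_res P hlow⟩
  intro h
  apply hp2N
  obtain ⟨k, hk⟩ := h
  refine ⟨k, ?_⟩
  have h1 : N = P.p * (N / P.p) := (Nat.mul_div_cancel' hpN).symm
  rw [h1, hk]
  ring

end Fermat.Agent.GF.Top.S44TopOrd
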