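/-
GATE-F / TOP, file 10 (helper61; RULING-2 §1 + SEAM end₂ of helper13, board 6195 / 6204):
**the frozen S44 from THREE concrete fields over ARBITRARY copies**, with the E-side ordinary line
`hord : OrdAt W p` among the binders.

`FieldsAtO W p M' hpM' C A P` :
* `not_le`    : `¬ Y₀ ⊆ M0Kum`                    ([SS] = GF-SS-ORD: `hord` + strong HasCE)
* `trop_zero` : `∀ x ∈ Y₀, trop1FN x = 0`          (F2-ASM + GF-EIS)
* `end₁`      : `x ∈ Y₀`, `trop1FN x = 0`, `x ∉ kerRed` ⟹ level `M'`      (GF-END-ASM)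

NO `end₂`: `FieldsO` quantifies over EVERY copy `C` with `C.Y0 ≤ eigQ`, and the second component
for `C` is the first component for the copy `W_p ∘ C` (`CompW.compW`):
`x ∈ C.Y0 ∖ kerRed₂ ⟹ W_p x ∈ (W_p ∘ C).Y0 ∖ kerRed`, `trop1 (W_p x) = 0` by `trop_zero` for
`W_p ∘ C`.

`fieldsAtZ_of_fieldsAtO`, `core44O_of_fieldsO`, `s44_of_fieldsO`.
-/
import Mathlib
import Fermat.Agent.GF.Top.Provider44Z
import Fermat.Agent.GF.Top.S44TopOrd
import Fermat.Agent.GF.Top.CompW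

set_option autoImplicit false
set_option linter.unusedSectionVars false

noncomputable section

namespace Fermat.Agent.GF.Top.Provider44O

open AlgebraicCurve IntermediateField Module IsLocalRing ModularCurve
open Fermat.Agent.S24 Fermat.Agent.S24_helper62 Fermat.Agent.RRh45 Fermat.Agent.RR
open Fermat.Agent.GJ.J1 Fermat.Agent.GJ.J1.Val Fermat.Agent.GJ.J1.InstGen
open Fermat.Agent.GK.MultiVal Fermat.Agent.GK.BallTwo Fermat.Agent.GK.NodalGraded
open Fermat.Agent.GS.Nodal.LSR2 Fermat.Agent.GS.Nodal.Inst Fermat.Agent.GS.Nodal.ROfSurj2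
open Fermat.Agent.GJ Fermat.Agent.GJ.KumGroup Fermat.Agent.GJ.Kum.KumType
open Fermat.Agent.GK.UQ Fermat.Agent.GK.New Fermat.Agent.GK.AL Fermat.Agent.GK.UqKronecker
open Fermat.Agent.GB.A.A6.ECDet Fermat.Agent.GB.A.A6.EigQ
open Fermat.Agent.GF.Setup.Plane Fermat.Agent.GF.Setup.S0
open Fermat.Agent.GF.Shape.Plug Fermat.Agent.GF.Trop
open Fermat.Agent.GF.Top.SkeletonZ Fermat.Agent.GF.Top.S44Top Fermat.Agent.GF.Top.S44TopOrd
open Fermat.Agent.GF.Top.Provider44Z Fermat.Agent.GF.Top.CompW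

attribute [local instance] finiteResidues_FN hasPrincipalDivisors_FN nonempty_place_FN
  isAlgClosed_res finiteResidues_Fres hasPrincipalDivisors_Fres nonempty_place_Fres

/-- **The three concrete fields** (level `M' p`, `A | p`, nodes `P`), for ONE copy `C`. -/
structure FieldsAtO (W : WeierstrassCurve ℤ) (p : ℕ) [Fact p.Prime] (M' : ℕ) [NeZero M']
    (hpM' : ¬ p ∣ M') (C : Copy W p (M' * p)) (A : ValuationSubring Kbar) {ι : Type} [Fintype ι]
    (P : ι → Place (ResidueField A) (FresBar (M' * p) A)) : Prop where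
  /-- [SS] -/
  not_le : ¬ ((C.Y0 : Set (Additive (Kum Kb (FK (M' * p)) p))) ⊆
      M0Kum (M' * p) A (exactDvd hpM') p)
  /-- (F2) + (EIS) -/
  trop_zero : ∀ x ∈ C.Y0, trop1FN (q := p) (M' * p) A P x = 0
  /-- (END), first component -/
  end₁ : ∀ x ∈ C.Y0, trop1FN (q := p) (M' * p) A P x = 0 → x ∉ kerRed (M' * p) A p →
    W.IsResiduallyModularOfLevel p M'

/-- **`end₂` for `C` from `trop_zero` and `end₁` for `W_p ∘ C`.** -/
theorem fieldsAtZ_of_fieldsAtO (W : WeierstrassCurve ℤ) (p : ℕ) [Fact p.Prime]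
    (M' : ℕ) [NeZero M'] (hpM' : ¬ p ∣ M') (C : Copy W p (M' * p))
    (A : ValuationSubring Kbar) {ι : Type} [Fintype ι]
    (P : ι → Place (ResidueField A) (FresBar (M' * p) A))
    (F : FieldsAtO W p M' hpM' C A P)
    (F' : FieldsAtO W p M' hpM' (compW C (exactDvd hpM')) A P) :
    FieldsAtZ W p M' hpM' C A P where
  not_le := F.not_le
  trop_zero := F.trop_zero
  end₁ := F.end₁
  end₂ := fun _ hx _ hx2 =>
    F'.end₁ _ (mem_compW_Y0 C (exactDvd hpM') hx)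
      (F'.trop_zero _ (mem_compW_Y0 C (exactDvd hpM') hx))
      (notMem_kerRed_compW (exactDvd hpM') A hx2)

/-- the hypothesis of `core44O_of_fieldsO`: the three fields, for EVERY copy `C ⊆ eigQ`, EVERY
`A | p` and EVERY nodal frame; the E-side ordinary line `hord` is among the binders. -/
def FieldsO : Prop :=
  ∀ (W : WeierstrassCurve ℤ) (_ : W.Δ ≠ 0) (p : ℕ) [Fact p.Prime] (_ : 5 ≤ p)
    (_ : W.IsSemistableModel) (_ : (p : ℤ) ∣ W.Δ)
    (_ : (W.map (Int.castRingHom ℚ)).IsPeuRamifieeAt p p)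
    (_ : W.ModRepIsIrreducible p)
    (_ : OrdAt W p)
    (M' : ℕ) [NeZero M'] (hpM' : ¬ p ∣ M')
    (_ : W.IsResiduallyModularOfLevel p (M' * p))
    (_ : ¬ W.IsResiduallyModularOfLevel p M')
    (C : Copy W p (M' * p))
    (_ : C.Y0 ≤ eigQ (M' * p) p (Sset W (M' * p) p) (hMS W (M' * p) p) (aW W))
    (ℓ₀ : ℕ) (_ : ℓ₀.Prime) (_ : ℓ₀ ∉ Sset W (M' * p) p)
    (_ : ((aW W ℓ₀ : ℤ) : ZMod p) ≠ ((ℓ₀ : ℕ) : ZMod p) + 1)
    (A : ValuationSubring Kbar) (_ : A.LiesOverPrime p) (ι : Type) [Fintype ι]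
    (P Q : ι → Place (ResidueField A) (FresBar (M' * p) A)) (c : ℤ) (n₀ : ℕ)
    (_ : FrameFacts (M' * p) A (exactDvd hpM') P Q)
    (_ : NodalHyp (redCompatFN (M' * p) A (exactDvd hpM')) P Q (CS (M' * p) (exactDvd hpM'))
      (Dτ (M' * p) A p) (Dτ (M' * p) A p) (genusRR Kbar (FN (M' * p))) c n₀),
    FieldsAtO W p M' hpM' C A P

/-- **`Core44O` from the three concrete fields.** -/
theorem core44O_of_fieldsO (H : FieldsO) : Core44O := by
  intro W hΔ p hp hp5 hss hmult hpeu hirr hord M hM hpM hp2M hmod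
  have : Fact p.Prime := ⟨hp⟩
  have hp2 : p ≠ 2 := by omega
  by_contra hnot
  obtain ⟨M', rfl⟩ : ∃ M', M = M' * p := ⟨M / p, (Nat.div_mul_cancel hpM).symm⟩
  have hM'0 : M' ≠ 0 := by
    rintro rfl
    simp at hM
  have : NeZero M' := ⟨hM'0⟩
  have hpM' : ¬ p ∣ M' := by
    intro h
    apply hp2M
    rw [pow_two]
    exact Nat.mul_dvd_mul h dvd_rfl
  rw [Nat.mul_div_cancel M' hp.pos] at hnot
  obtain ⟨C, hC⟩ := exists_setup W hΔ hp2 hirr hmod
  obtain ⟨ℓ₀, hℓ₀, hℓ₀S, hne⟩ := exists_nonEis W hΔ hp2 hirr (M' * p) (p := p)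
  obtain ⟨A, hA⟩ := Fermat.Agent.Common_helper32.exists_liesOverPrime p hp
  obtain ⟨ι, _, P, Q, c, n₀, FF, NH⟩ :=
    exists_nodalHyp_of_exactDvd (M' * p) p A (exactDvd hpM') hA (by omega) (by omega)
  have hpS' : ∀ r : ℕ, r.Prime → r ∣ p → r ∈ Sset W (M' * p) p := fun r hr hrp => by
    rw [(Nat.prime_dvd_prime_iff_eq hr hp).mp hrp]
    exact hpS W (M' * p) p
  have hC' := compW_le_eigQ C (exactDvd hpM') hpS' hC
  have F := H W hΔ p hp5 hss hmult hpeu hirr hord M' hpM' hmod hnot C hC ℓ₀ hℓ₀ hℓ₀S hne A hA ι P Q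
    c n₀ FF NH
  have F' := H W hΔ p hp5 hss hmult hpeu hirr hord M' hpM' hmod hnot (compW C (exactDvd hpM')) hC'
    ℓ₀ hℓ₀ hℓ₀S hne A hA ι P Q c n₀ FF NH
  exact hnot (chainZ_of_fieldsAtZ W p M' hpM' C A hA P
    (fieldsAtZ_of_fieldsAtO W p M' hpM' C A P F F')).goal

/-- **Frozen S44 from the three concrete fields.** -/
theorem s44_of_fieldsO (H : FieldsO) (P : FreyPackage) {N : ℕ}
    (hcond : P.IsConductorLevel N) (hpN : P.p ∣ N)
    (hirr : WeierstrassCurve.Affine.Point.GaloisRepIsIrreducible (K := AlgebraicClosure ℚ) ℚ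
      P.freyCurve P.p)
    (hmod : P.ModularRepOfLevel N) :
    ∃ M : ℕ, M ∣ N ∧ ¬ P.p ∣ M ∧ P.ModularRepOfLevel M :=
  s44_of_core44O (core44O_of_fieldsO H) P hcond hpN hirr hmod

end Fermat.Agent.GF.Top.Provider44O
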