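/-
GATE-F / GF-INTEGRATOR, file 7 (helper61, RULING-9 (4)): **the FINAL INSTANTIATION in hypothesis
form** — `Integrate5.NLAllFourSupplyK Dcl` (hence frozen S44) from

* `(P) PerPlaceStmt` : helper62's per-place theorem `NlAllOfHyps.nlAll_of_hyps` VERBATIM
  (`h hA hp5 h4 T hσ hASK ⊢ NLAll T h`, variable level `L`);
* `(S) ASKSupplyK Dcl` : the level-`M' p` supply `∀ c₀, ASK T (exactDvd hpM') c₀` for the datum `T`
  of the `F2PlugK.DeepSupplyK` context (helper3 / helper48 / helper40).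

`nlAllFour_of_parts` : `(P) → (S) → NLAllFourSupplyK Dcl` (`T' := upFour T hp5`,
`hσ' := HypUp.sigmaRelFour`, `hASK' := ASKBridge.askN_upFour_all`, `4 ∣ M' p · 2 · 2`);
`s44_of_parts : (P) → (S) clauseF → (frozen S44)`;
`askSupplyK Dcl : ASKSupplyK Dcl` — **(S) CLOSED** (helper40 `ASRep/ASKSupply.ask_of_lineData`);
**`s44_of_perPlace : (P) → (frozen S44)`** — S44 from helper62's per-place theorem ALONE.
-/
import Mathlib
import Fermat.Agent.GF.Top.Integrate5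
import Fermat.Agent.GF.KCover.AuxLevel.ASKBridge
import Fermat.Agent.GF.KCover.AuxLevel.HypUp
import Fermat.Agent.GF.KCover.ASRep.ASKSupply

set_option autoImplicit false
set_option linter.unusedSectionVars false
set_option linter.unusedVariables false

noncomputable section

namespace Fermat.Agent.GF.Top.Integrate7

open AlgebraicCurve IntermediateField Module IsLocalRing ModularCurve
open Fermat.Agent.Common_helper32
open Fermat.Agent.S24 Fermat.Agent.S24_helper62 Fermat.Agent.RRh45 Fermat.Agent.RR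
open Fermat.Agent.GJ.J1 Fermat.Agent.GJ.J1.Val Fermat.Agent.GJ.J1.InstGen
open Fermat.Agent.GK.MultiVal Fermat.Agent.GK.BallTwo Fermat.Agent.GK.NodalGraded
open Fermat.Agent.GS.Nodal.LSR2 Fermat.Agent.GS.Nodal.Inst Fermat.Agent.GS.Nodal.ROfSurj2
open Fermat.Agent.GJ Fermat.Agent.GJ.KumGroup Fermat.Agent.GJ.Kum.KumType
open Fermat.Agent.GJ.CycChar Fermat.Agent.GB.A.A6.ECDet
open Fermat.Agent.GK.UQ Fermat.Agent.GK.New Fermat.Agent.GK.AL Fermat.Agent.GK.UqKronecker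
open Fermat.Agent.GK.SS
open Fermat.Agent.GL.Eta Fermat.Agent.GK.CuspSep
open Fermat.Agent.GB.A.A6.EigQ
open Fermat.Agent.GF.Setup.Plane Fermat.Agent.GF.Setup.S0 Fermat.Agent.GF.Shape.Sub
open Fermat.Agent.GF.Shape.Plug Fermat.Agent.GF.Trop Fermat.Agent.GF.Peu Fermat.Agent.GF.ETate
open Fermat.Agent.GF.Top.S44TopOrd
open Fermat.Agent.GF.Top.Provider44T Fermat.Agent.GF.Top.Provider44D
open Fermat.Agent.GF.KCover Fermat.Agent.GF.F2Asm.Inst Fermat.Agent.GF.F2Asm.NRAsm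
open Fermat.Agent.GF.F2Asm.OmegaProj
open Fermat.Agent.GF.F2Asm.UsInst Fermat.Agent.GF.F2Asm.EtaUnit Fermat.Agent.GF.F2Asm.EtaUnitW
open Fermat.Agent.GF.KCover.Field Fermat.Agent.GF.KCover.Field.Disc
open Fermat.Agent.GF.KCover.Field.WDataOf Fermat.Agent.GF.KCover.Node.OrdRedExt
open Fermat.Agent.GF.KCover.Field.WDataFinal Fermat.Agent.GF.F2Asm.F2Plug
open Fermat.Agent.GF.F2Asm.F2PlugK Fermat.Agent.GF.Eis.ClauseF
open Fermat.Agent.GF.KCover.AuxLevel Fermat.Agent.GF.KCover.AuxLevel.TameUp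
open Fermat.Agent.GF.KCover.Int.TameLift
open Fermat.Agent.GF.KCover.NodeMod.ASKDef
open Fermat.Agent.GF.Top.Integrate5
open Fermat.Agent.GB.A.Desc Fermat.Agent.GB.A.FP

attribute [local instance] finiteResidues_FN hasPrincipalDivisors_FN nonempty_place_FN
  isAlgClosed_res finiteResidues_Fres hasPrincipalDivisors_Fres nonempty_place_Fres

/-- **(P)** helper62's per-place theorem `NlAllOfHyps.nlAll_of_hyps`, as a Prop. -/
def PerPlaceStmt : Prop :=
  ∀ {L : ℕ} [NeZero L] {p : ℕ} [Fact p.Prime] {A : ValuationSubring Kb} {ζ : Kb}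
    (h : ExactDvd p L) (hA : A.LiesOverPrime p) (hp5 : 5 ≤ p) (h4 : 4 ∣ L)
    (T : TameDatum L p A ζ) (hσ : SigmaRel T)
    (hASK : ∀ c₀ : IsLocalRing.ResidueField A, ASK T h c₀),
    NLAll T h

/-- **(S)** the level-`M' p` supply of the AS + Krull input, for the `T` of the context. -/
def ASKSupplyK (Dcl : FrameClause) : Prop :=
  ∀ (W : WeierstrassCurve ℤ) (_ : W.Δ ≠ 0) (p : ℕ) [Fact p.Prime] (_ : 5 ≤ p)
    (_ : W.IsSemistableModel) (_ : (p : ℤ) ∣ W.Δ)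
    (_ : (W.map (Int.castRingHom ℚ)).IsPeuRamifieeAt p p)
    (_ : W.ModRepIsIrreducible p)
    (_ : OrdAt W p)
    (M' : ℕ) [NeZero M'] (hpM' : ¬ p ∣ M')
    (_ : ¬ W.IsResiduallyModularOfLevel p M')
    (C : Copy W p (M' * p))
    (_ : C.Y0 ≤ eigQ (M' * p) p (Sset W (M' * p) p) (hMS W (M' * p) p) (aW W))
    (A : ValuationSubring Kbar) (hA : A.LiesOverPrime p) (_ : A = padicPlace p)
    (ι : Type) [Fintype ι]
    (P Q : ι → Place (ResidueField A) (FresBar (M' * p) A)) (c : ℤ) (n₀ : ℕ)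
    (_ : FrameFacts (M' * p) A (exactDvd hpM') P Q)
    (_ : NodalHyp (redCompatFN (M' * p) A (exactDvd hpM')) P Q (CS (M' * p) (exactDvd hpM'))
      (Dτ (M' * p) A p) (Dτ (M' * p) A p) (genusRR Kbar (FN (M' * p))) c n₀)
    (_ : Dcl p M' hpM' A ι P Q)
    (ζ : Kb) (_ : KummerUnit W p A ζ)
    (D : LineData (gal (M' * p) p) (A.inertiaSubgroupIn ℚ) C.Y0
      (M0Kum (M' * p) A (exactDvd hpM') p) (fun σ => ((cyc p σ : (ZMod p)ˣ) : ZMod p)))
    (T : TameDatum (M' * p) p A ζ)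
    (_ : (Additive.ofMul (Kum.mk T.g) : Additive (Kum Kb (FK (M' * p)) p)) =
      (-1 : ZMod p) • D.w₀)
    (_ : (qEmb (M' * p) T.g₀).leadingCoeff = 1)
    (_ : ∀ σ ∈ A.inertiaSubgroupIn ℚ, ∃ h : FK (M' * p), h ≠ 0 ∧
        (∀ τ ∈ A.inertiaSubgroupIn ℚ, cyc p τ = 1 →
          arithmeticRingAut (modularFunctionFieldFull (M' * p)) τ h = h) ∧
        arithmeticRingAut (modularFunctionFieldFull (M' * p)) σ T.g₀ =
          T.g₀ ^ rep (cyc p σ) * h ^ p)
    (c₀ : IsLocalRing.ResidueField A),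
    ASK T (exactDvd hpM') c₀

theorem four_dvd_mul_two_two (M : ℕ) : 4 ∣ M * 2 * 2 := ⟨M, by ring⟩

/-- **the FINAL INSTANTIATION**: `(P) → (S) → NLAllFourSupplyK Dcl`. -/
theorem nlAllFour_of_parts (Dcl : FrameClause) (hP : PerPlaceStmt) (hS : ASKSupplyK Dcl) :
    NLAllFourSupplyK Dcl := by
  intro W hΔ p _ hp5 hss hmult hpeu hirr hord M' _ hpM' hnot C hC A hA hAp ι _ P Q c n₀ FF NH hd ζ
    hKU D T hg hlc hσ
  have hp2 : p ≠ 2 := ne_two_of_five_le hp5
  exact hP (exactDvd_mul_two (exactDvd_mul_two (exactDvd hpM') hp2) hp2) hA hp5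
    (four_dvd_mul_two_two (M' * p)) (upFour T hp5)
    (Fermat.Agent.GF.KCover.AuxLevel.HypUp.sigmaRelFour T hp5 hσ)
    (Fermat.Agent.GF.KCover.AuxLevel.ASKBridge.askN_upFour_all hp5
      (exactDvd_mul_two (exactDvd hpM') hp2)
      (exactDvd_mul_two (exactDvd_mul_two (exactDvd hpM') hp2) hp2)
      (fun c₀ => hS W hΔ p hp5 hss hmult hpeu hirr hord M' hpM' hnot C hC A hA hAp ι P Q c n₀ FF NH
        hd ζ hKU D T hg hlc hσ c₀))

/-- **Frozen S44 from (P) and (S) on helper77's `clauseF` frames.** -/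
theorem s44_of_parts (hP : PerPlaceStmt) (hS : ASKSupplyK clauseF) (P : FreyPackage) {N : ℕ}
    (hcond : P.IsConductorLevel N) (hpN : P.p ∣ N)
    (hirr : WeierstrassCurve.Affine.Point.GaloisRepIsIrreducible (K := AlgebraicClosure ℚ) ℚ
      P.freyCurve P.p)
    (hmod : P.ModularRepOfLevel N) :
    ∃ M : ℕ, M ∣ N ∧ ¬ P.p ∣ M ∧ P.ModularRepOfLevel M :=
  s44_of_nlAllFour (nlAllFour_of_parts clauseF hP hS) P hcond hpN hirr hmod

/-- **(S) CLOSED** (helper40 `ASRep/ASKSupply.ask_of_lineData`). -/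
theorem askSupplyK (Dcl : FrameClause) : ASKSupplyK Dcl := by
  intro W hΔ p _ hp5 hss hmult hpeu hirr hord M' _ hpM' hnot C hC A hA hAp ι _ P Q c n₀ FF NH hd ζ
    hKU D T hg hlc hσ c₀
  have hp2 : p ≠ 2 := ne_two_of_five_le hp5
  exact Fermat.Agent.GF.KCover.ASRep.ASKSupply.ask_of_lineData W hpM' hA hp2 hnot C hC FF NH T hlc
    le_rfl D (-1) hg c₀

/-- `NLAllFourSupplyK Dcl` from the per-place theorem alone. -/
theorem nlAllFour_of_perPlace (Dcl : FrameClause) (hP : PerPlaceStmt) : NLAllFourSupplyK Dcl :=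
  nlAllFour_of_parts Dcl hP (askSupplyK Dcl)

/-- **Frozen S44 from helper62's per-place theorem `nlAll_of_hyps` ALONE.** -/
theorem s44_of_perPlace (hP : PerPlaceStmt) (P : FreyPackage) {N : ℕ}
    (hcond : P.IsConductorLevel N) (hpN : P.p ∣ N)
    (hirr : WeierstrassCurve.Affine.Point.GaloisRepIsIrreducible (K := AlgebraicClosure ℚ) ℚ
      P.freyCurve P.p)
    (hmod : P.ModularRepOfLevel N) :
    ∃ M : ℕ, M ∣ N ∧ ¬ P.p ∣ M ∧ P.ModularRepOfLevel M :=
  s44_of_parts hP (askSupplyK clauseF) P hcond hpN hirr hmod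

end Fermat.Agent.GF.Top.Integrate7
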