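/-
GATE-F / TOP, file 11 (helper61; ASSIGNMENTS-3 §1 of helper13, board 6281): **the integrator picks
`A := padicPlace p`** (the place at which GF-ETATE delivers `KummerUnit W p (padicPlace p) ζ`), so
that the transport of the E-side to every `A | p` (ETATE-E5) is not needed.

`FieldsOp` : the binder list of `Provider44O.FieldsO` with ONE more binder
`(_ : A = padicPlace p)` right after `(_ : A.LiesOverPrime p)`.  A field theorem proved for every
`A | p` ignores the extra binder; the E-side owner `subst`s it.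

`fieldsOp_of_fieldsO`, `core44O_of_fieldsOp`, `s44_of_fieldsOp : FieldsOp → (frozen S44)`.
-/
import Mathlib
import Fermat.Agent.GF.Top.Provider44O
import Fermat.Agent.GP.Loc.PadicPlace

set_option autoImplicit false
set_option linter.unusedSectionVars false

noncomputable section

namespace Fermat.Agent.GF.Top.Provider44Op

open AlgebraicCurve IntermediateField Module IsLocalRing ModularCurve
open Fermat.Agent.S24 Fermat.Agent.S24_helper62 Fermat.Agent.RRh45 Fermat.Agent.RR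
open Fermat.Agent.GJ.J1 Fermat.Agent.GJ.J1.Val Fermat.Agent.GJ.J1.InstGen
open Fermat.Agent.GK.MultiVal Fermat.Agent.GK.BallTwo Fermat.Agent.GK.NodalGraded
open Fermat.Agent.GS.Nodal.LSR2 Fermat.Agent.GS.Nodal.Inst Fermat.Agent.GS.Nodal.ROfSurj2
open Fermat.Agent.GJ Fermat.Agent.GJ.KumGroup Fermat.Agent.GJ.Kum.KumType
open Fermat.Agent.GK.UQ Fermat.Agent.GK.New Fermat.Agent.GK.AL Fermat.Agent.GK.UqKronecker
open Fermat.Agent.GB.A.A6.ECDet Fermat.Agent.GB.A.A6.EigQ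
open Fermat.Agent.GF.Setup.Plane Fermat.Agent.GF.Setup.S0
open Fermat.Agent.GF.Shape.Plug Fermat.Agent.GF.Trop
open Fermat.Agent.GF.Top.SkeletonZ Fermat.Agent.GF.Top.S44Top Fermat.Agent.GF.Top.S44TopOrd
open Fermat.Agent.GF.Top.Provider44Z Fermat.Agent.GF.Top.CompW Fermat.Agent.GF.Top.Provider44O

attribute [local instance] finiteResidues_FN hasPrincipalDivisors_FN nonempty_place_FN
  isAlgClosed_res finiteResidues_Fres hasPrincipalDivisors_Fres nonempty_place_Fres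

/-- the three fields, for EVERY copy `C ⊆ eigQ` and EVERY nodal frame, at `A = padicPlace p`. -/
def FieldsOp : Prop :=
  ∀ (W : WeierstrassCurve ℤ) (_ : W.Δ ≠ 0) (p : ℕ) [Fact p.Prime] (_ : 5 ≤ p)
    (_ : W.IsSemistableModel) (_ : (p : ℤ) ∣ W.Δ)
    (_ : (W.map (Int.castRingHom ℚ)).IsPeuRamifieeAt p p)
    (_ : W.ModRepIsIrreducible p)
    (_ : OrdAt W p)
    (M' : ℕ) [NeZero M'] (hpM' : ¬ p ∣ M')
    (_ : W.IsResiduallyModularOfLevel p (M' * p))
    (_ : ¬ W.IsResiduallyModularOfLevel p M')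
    (C : Copy W p (M' * p))
    (_ : C.Y0 ≤ eigQ (M' * p) p (Sset W (M' * p) p) (hMS W (M' * p) p) (aW W))
    (ℓ₀ : ℕ) (_ : ℓ₀.Prime) (_ : ℓ₀ ∉ Sset W (M' * p) p)
    (_ : ((aW W ℓ₀ : ℤ) : ZMod p) ≠ ((ℓ₀ : ℕ) : ZMod p) + 1)
    (A : ValuationSubring Kbar) (_ : A.LiesOverPrime p) (_ : A = padicPlace p)
    (ι : Type) [Fintype ι]
    (P Q : ι → Place (ResidueField A) (FresBar (M' * p) A)) (c : ℤ) (n₀ : ℕ)
    (_ : FrameFacts (M' * p) A (exactDvd hpM') P Q)
    (_ : NodalHyp (redCompatFN (M' * p) A (exactDvd hpM')) P Q (CS (M' * p) (exactDvd hpM'))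
      (Dτ (M' * p) A p) (Dτ (M' * p) A p) (genusRR Kbar (FN (M' * p))) c n₀),
    FieldsAtO W p M' hpM' C A P

theorem fieldsOp_of_fieldsO (H : FieldsO) : FieldsOp :=
  fun W hΔ p _ hp5 hss hmult hpeu hirr hord M' _ hpM' hmod hnot C hC ℓ₀ hℓ₀ hℓ₀S hne A hA _ ι _ P Q
    c n₀ FF NH =>
    H W hΔ p hp5 hss hmult hpeu hirr hord M' hpM' hmod hnot C hC ℓ₀ hℓ₀ hℓ₀S hne A hA ι P Q
      c n₀ FF NH

/-- **`Core44O` from the three concrete fields at `padicPlace p`.** -/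
theorem core44O_of_fieldsOp (H : FieldsOp) : Core44O := by
  intro W hΔ p hp hp5 hss hmult hpeu hirr hord M hM hpM hp2M hmod
  have : Fact p.Prime := ⟨hp⟩
  have hp2 : p ≠ 2 := by omega
  by_contra hnot
  obtain ⟨M', rfl⟩ : ∃ M', M = M' * p := ⟨M / p, (Nat.div_mul_cancel hpM).symm⟩
  have hM'0 : M' ≠ 0 := by
    rintro rfl
    simp at hM
  have : NeZero M' := ⟨hM'0⟩
  have hpM' : ¬ p ∣ M' := by
    intro h
    apply hp2M
    rw [pow_two]
    exact Nat.mul_dvd_mul h dvd_rfl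
  rw [Nat.mul_div_cancel M' hp.pos] at hnot
  obtain ⟨C, hC⟩ := exists_setup W hΔ hp2 hirr hmod
  obtain ⟨ℓ₀, hℓ₀, hℓ₀S, hne⟩ := exists_nonEis W hΔ hp2 hirr (M' * p) (p := p)
  obtain ⟨A, hAp⟩ : ∃ A : ValuationSubring Kbar, A = padicPlace p := ⟨_, rfl⟩
  have hA : A.LiesOverPrime p := by
    rw [hAp]
    exact Fermat.Agent.GP.Loc.PadicPlace.padicPlace_liesOverPrime p
  obtain ⟨ι, _, P, Q, c, n₀, FF, NH⟩ :=
    exists_nodalHyp_of_exactDvd (M' * p) p A (exactDvd hpM') hA (by omega) (by omega)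
  have hpS' : ∀ r : ℕ, r.Prime → r ∣ p → r ∈ Sset W (M' * p) p := fun r hr hrp => by
    rw [(Nat.prime_dvd_prime_iff_eq hr hp).mp hrp]
    exact hpS W (M' * p) p
  have hC' := compW_le_eigQ C (exactDvd hpM') hpS' hC
  have F := H W hΔ p hp5 hss hmult hpeu hirr hord M' hpM' hmod hnot C hC ℓ₀ hℓ₀ hℓ₀S hne A hA hAp
    ι P Q c n₀ FF NH
  have F' := H W hΔ p hp5 hss hmult hpeu hirr hord M' hpM' hmod hnot (compW C (exactDvd hpM')) hC'
    ℓ₀ hℓ₀ hℓ₀S hne A hA hAp ι P Q c n₀ FF NH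
  exact hnot (chainZ_of_fieldsAtZ W p M' hpM' C A hA P
    (fieldsAtZ_of_fieldsAtO W p M' hpM' C A P F F')).goal

/-- **Frozen S44 from the three concrete fields at `padicPlace p`.** -/
theorem s44_of_fieldsOp (H : FieldsOp) (P : FreyPackage) {N : ℕ}
    (hcond : P.IsConductorLevel N) (hpN : P.p ∣ N)
    (hirr : WeierstrassCurve.Affine.Point.GaloisRepIsIrreducible (K := AlgebraicClosure ℚ) ℚ
      P.freyCurve P.p)
    (hmod : P.ModularRepOfLevel N) :
    ∃ M : ℕ, M ∣ N ∧ ¬ P.p ∣ M ∧ P.ModularRepOfLevel M :=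
  s44_of_core44O (core44O_of_fieldsOp H) P hcond hpN hirr hmod

end Fermat.Agent.GF.Top.Provider44Op
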