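/-
GATE-F / TOP, file 12 (helper61): **the field `not_le` ([SS]) DISCHARGED** by helper69's
`GF/SS/OfOrdinary.not_le_of_isOrdinaryAt` from the binder `hord : OrdAt W p` — the target of the
gate shrinks to TWO fields over arbitrary copies `C ⊆ eigQ` and arbitrary nodal frames at
`A = padicPlace p`:

`FieldsAtP W p M' hpM' C A P` :
* `trop_zero` : `∀ x ∈ Y₀, trop1FN x = 0`                              (F2-ASM + GF-EIS + ETATE)
* `end₁`      : `x ∈ Y₀`, `trop1FN x = 0`, `x ∉ kerRed` ⟹ level `M'`   (GF-END-ASM)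

`FieldsP` = the binder list of `Provider44Op.FieldsOp`, conclusion `FieldsAtP`.
`fieldsOp_of_fieldsP`, `s44_of_fieldsP : FieldsP → (frozen S44)`.
-/
import Mathlib
import Fermat.Agent.GF.Top.Provider44Op
import Fermat.Agent.GF.SS.OfOrdinary

set_option autoImplicit false
set_option linter.unusedSectionVars false

noncomputable section

namespace Fermat.Agent.GF.Top.Provider44P

open AlgebraicCurve IntermediateField Module IsLocalRing ModularCurve
open Fermat.Agent.S24 Fermat.Agent.S24_helper62 Fermat.Agent.RRh45 Fermat.Agent.RR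
open Fermat.Agent.GJ.J1 Fermat.Agent.GJ.J1.Val Fermat.Agent.GJ.J1.InstGen
open Fermat.Agent.GK.MultiVal Fermat.Agent.GK.BallTwo Fermat.Agent.GK.NodalGraded
open Fermat.Agent.GS.Nodal.LSR2 Fermat.Agent.GS.Nodal.Inst Fermat.Agent.GS.Nodal.ROfSurj2
open Fermat.Agent.GJ Fermat.Agent.GJ.KumGroup Fermat.Agent.GJ.Kum.KumType
open Fermat.Agent.GK.UQ Fermat.Agent.GK.New Fermat.Agent.GK.AL Fermat.Agent.GK.UqKronecker
open Fermat.Agent.GB.A.A6.ECDet Fermat.Agent.GB.A.A6.EigQ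
open Fermat.Agent.GF.Setup.Plane Fermat.Agent.GF.Setup.S0
open Fermat.Agent.GF.Shape.Plug Fermat.Agent.GF.Trop
open Fermat.Agent.GF.Top.SkeletonZ Fermat.Agent.GF.Top.S44Top Fermat.Agent.GF.Top.S44TopOrd
open Fermat.Agent.GF.Top.Provider44Z Fermat.Agent.GF.Top.CompW Fermat.Agent.GF.Top.Provider44O
open Fermat.Agent.GF.Top.Provider44Op

attribute [local instance] finiteResidues_FN hasPrincipalDivisors_FN nonempty_place_FN
  isAlgClosed_res finiteResidues_Fres hasPrincipalDivisors_Fres nonempty_place_Fres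

/-- **[SS] from `hord`** (helper69 GF-SS-ORD), in the binder shape of the provider. -/
theorem not_le_of_ordAt {W : WeierstrassCurve ℤ} (hΔ : W.Δ ≠ 0) {p : ℕ} [Fact p.Prime]
    (hp5 : 5 ≤ p) (hord : OrdAt W p) {M' : ℕ} [NeZero M'] (hpM' : ¬ p ∣ M')
    (C : Copy W p (M' * p)) (A : ValuationSubring Kbar) (hA : A.LiesOverPrime p) :
    ¬ ((C.Y0 : Set (Additive (Kum Kb (FK (M' * p)) p))) ⊆
      M0Kum (M' * p) A (exactDvd hpM') p) := by
  have hcard₁ : Nat.card (Tp W p) = p ^ 2 := hcard_of W hΔ p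
  exact Fermat.Agent.GF.SS.OfOrdinary.not_le_of_isOrdinaryAt C (exactDvd hpM') (by omega)
    (by omega) A hA hcard₁ (finiteLevel_rho hcard₁) (hord hcard₁ (finiteLevel_rho hcard₁))

/-- **The two remaining concrete fields** (level `M' p`, `A | p`, nodes `P`), for ONE copy `C`. -/
structure FieldsAtP (W : WeierstrassCurve ℤ) (p : ℕ) [Fact p.Prime] (M' : ℕ) [NeZero M']
    (hpM' : ¬ p ∣ M') (C : Copy W p (M' * p)) (A : ValuationSubring Kbar) {ι : Type} [Fintype ι]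
    (P : ι → Place (ResidueField A) (FresBar (M' * p) A)) : Prop where
  /-- (F2) + (EIS) -/
  trop_zero : ∀ x ∈ C.Y0, trop1FN (q := p) (M' * p) A P x = 0
  /-- (END), first component -/
  end₁ : ∀ x ∈ C.Y0, trop1FN (q := p) (M' * p) A P x = 0 → x ∉ kerRed (M' * p) A p →
    W.IsResiduallyModularOfLevel p M'

/-- the two fields, for EVERY copy `C ⊆ eigQ` and EVERY nodal frame, at `A = padicPlace p`. -/
def FieldsP : Prop :=
  ∀ (W : WeierstrassCurve ℤ) (_ : W.Δ ≠ 0) (p : ℕ) [Fact p.Prime] (_ : 5 ≤ p)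
    (_ : W.IsSemistableModel) (_ : (p : ℤ) ∣ W.Δ)
    (_ : (W.map (Int.castRingHom ℚ)).IsPeuRamifieeAt p p)
    (_ : W.ModRepIsIrreducible p)
    (_ : OrdAt W p)
    (M' : ℕ) [NeZero M'] (hpM' : ¬ p ∣ M')
    (_ : W.IsResiduallyModularOfLevel p (M' * p))
    (_ : ¬ W.IsResiduallyModularOfLevel p M')
    (C : Copy W p (M' * p))
    (_ : C.Y0 ≤ eigQ (M' * p) p (Sset W (M' * p) p) (hMS W (M' * p) p) (aW W))
    (ℓ₀ : ℕ) (_ : ℓ₀.Prime) (_ : ℓ₀ ∉ Sset W (M' * p) p)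
    (_ : ((aW W ℓ₀ : ℤ) : ZMod p) ≠ ((ℓ₀ : ℕ) : ZMod p) + 1)
    (A : ValuationSubring Kbar) (_ : A.LiesOverPrime p) (_ : A = padicPlace p)
    (ι : Type) [Fintype ι]
    (P Q : ι → Place (ResidueField A) (FresBar (M' * p) A)) (c : ℤ) (n₀ : ℕ)
    (_ : FrameFacts (M' * p) A (exactDvd hpM') P Q)
    (_ : NodalHyp (redCompatFN (M' * p) A (exactDvd hpM')) P Q (CS (M' * p) (exactDvd hpM'))
      (Dτ (M' * p) A p) (Dτ (M' * p) A p) (genusRR Kbar (FN (M' * p))) c n₀),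
    FieldsAtP W p M' hpM' C A P

theorem fieldsOp_of_fieldsP (H : FieldsP) : FieldsOp :=
  fun W hΔ p _ hp5 hss hmult hpeu hirr hord M' _ hpM' hmod hnot C hC ℓ₀ hℓ₀ hℓ₀S hne A hA hAp ι _
    P Q c n₀ FF NH =>
    have F := H W hΔ p hp5 hss hmult hpeu hirr hord M' hpM' hmod hnot C hC ℓ₀ hℓ₀ hℓ₀S hne A hA hAp
      ι P Q c n₀ FF NH
    ⟨not_le_of_ordAt hΔ hp5 hord hpM' C A hA, F.trop_zero, F.end₁⟩

/-- **Frozen S44 from the two remaining concrete fields.** -/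
theorem s44_of_fieldsP (H : FieldsP) (P : FreyPackage) {N : ℕ}
    (hcond : P.IsConductorLevel N) (hpN : P.p ∣ N)
    (hirr : WeierstrassCurve.Affine.Point.GaloisRepIsIrreducible (K := AlgebraicClosure ℚ) ℚ
      P.freyCurve P.p)
    (hmod : P.ModularRepOfLevel N) :
    ∃ M : ℕ, M ∣ N ∧ ¬ P.p ∣ M ∧ P.ModularRepOfLevel M :=
  s44_of_fieldsOp (fieldsOp_of_fieldsP H) P hcond hpN hirr hmod

end Fermat.Agent.GF.Top.Provider44P
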