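/-
GATE-F / TOP, file 15 (helper61): **SHAPE (S1) in the binder vocabulary of the provider** —
`ShapeHyp` / `LineData` for EVERY copy `C` of `W[p]` in `Kum_p(F_{M' p})` at EVERY `A | p`, from
`hord : OrdAt W p` (E-side ordinary line), binder-free otherwise:

* (U)    `unip`   : `Shape/Plug.gal_sub_mem_M0Kum` (on main);
* [SS]   `not_le` : `Provider44P.not_le_of_ordAt` (helper69 GF-SS-ORD);
* `stab`, `finrank_eq`, `det_eq`, `chi_ne` : `Setup/ShapePlug.shapeHyp` (GF-SETUP).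

`shapeHyp_of_ordAt`, `exists_lineData_of_ordAt` : the `D : LineData …` binder of helper31's
`F2Asm/Y0.econst_Y0`, of `Setup/PeuY0K.peu_valuation_Y0'` and of helper69's `F2Asm/PeuQ`.
-/
import Mathlib
import Fermat.Agent.GF.Top.Provider44P
import Fermat.Agent.GF.Setup.ShapePlug

set_option autoImplicit false
set_option linter.unusedSectionVars false

noncomputable section

namespace Fermat.Agent.GF.Top.LineDataP

open AlgebraicCurve ModularCurve
open Fermat.Agent.GJ Fermat.Agent.GJ.KumGroup Fermat.Agent.GJ.Kum.KumType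
open Fermat.Agent.GJ.CycChar Fermat.Agent.GB.A.A6.ECDet
open Fermat.Agent.GK.AL
open Fermat.Agent.GF.Setup.Plane Fermat.Agent.GF.Setup.S0 Fermat.Agent.GF.Shape.Sub
open Fermat.Agent.GF.Shape.Plug Fermat.Agent.GF.Top.S44TopOrd

/-- **S1 (`ShapeHyp`) for every copy at every `A | p`, from the E-side ordinary line.** -/
theorem shapeHyp_of_ordAt (W : WeierstrassCurve ℤ) (hΔ : W.Δ ≠ 0) (p : ℕ) [Fact p.Prime]
    (hp5 : 5 ≤ p) (hirr : W.ModRepIsIrreducible p) (hord : OrdAt W p)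
    (M' : ℕ) [NeZero M'] (hpM' : ¬ p ∣ M') (C : Copy W p (M' * p))
    (A : ValuationSubring (AlgebraicClosure ℚ)) (hA : A.LiesOverPrime p) :
    ShapeHyp (gal (M' * p) p) (A.inertiaSubgroupIn ℚ) C.Y0
      (M0Kum (M' * p) A (exactDvd hpM') p) (fun σ => ((cyc p σ : (ZMod p)ˣ) : ZMod p)) :=
  Fermat.Agent.GF.Setup.ShapePlug.shapeHyp C hΔ (hcard_of W hΔ p) hirr (by omega) A hA _
    (fun _ hσ y _ => gal_sub_mem_M0Kum hA hσ y)
    (Fermat.Agent.GF.Top.Provider44P.not_le_of_ordAt hΔ hp5 hord hpM' C A hA)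

/-- **the line `L₀ = Y₀ ∩ M⁰ = 𝔽_p w₀` with `ω` on it and the cocycle `κ`.** -/
theorem exists_lineData_of_ordAt (W : WeierstrassCurve ℤ) (hΔ : W.Δ ≠ 0) (p : ℕ) [Fact p.Prime]
    (hp5 : 5 ≤ p) (hirr : W.ModRepIsIrreducible p) (hord : OrdAt W p)
    (M' : ℕ) [NeZero M'] (hpM' : ¬ p ∣ M') (C : Copy W p (M' * p))
    (A : ValuationSubring (AlgebraicClosure ℚ)) (hA : A.LiesOverPrime p) :
    Nonempty (LineData (gal (M' * p) p) (A.inertiaSubgroupIn ℚ) C.Y0
      (M0Kum (M' * p) A (exactDvd hpM') p) (fun σ => ((cyc p σ : (ZMod p)ˣ) : ZMod p))) :=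
  (shapeHyp_of_ordAt W hΔ p hp5 hirr hord M' hpM' C A hA).nonempty_lineData

end Fermat.Agent.GF.Top.LineDataP
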