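/-
GATE-F / TOP, file 13 (helper61; RULING-5 of helper13, board 6389): **the frozen S44 from the ONE
remaining field `trop_zero`**, with `not_le` (helper69 GF-SS-ORD) and `end₁` (helper96 GF-END-ASM)
discharged, the place `A = padicPlace p`, and the nodal frame RESTRICTED by an abstract clause
`Dcl` (to be instantiated by clause (d) of helper65's E4 `exists_nodalHyp_ss`: "the zeros of
`red₁ (etaQ)` off the cusps are exactly the nodes `P s`", which GF-EIS needs):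

* `FrameClause`   : the type of a clause on a frame `(ι, P, Q)` at `(p, M', A)`;
* `FrameExists Dcl` : for `5 ≤ p ∤ M'`, `A | p`: a nodal frame (`FrameFacts` + `NodalHyp`)
  satisfying `Dcl` exists  (`frameExists_true` : the trivial clause, from
  `exists_nodalHyp_of_exactDvd`);
* `TropZeroT Dcl`   : `∀ x ∈ C.Y0, trop1FN x = 0` for EVERY copy `C ⊆ eigQ`, at `A = padicPlace p`,
  and EVERY nodal frame satisfying `Dcl` — binder list of `Provider44P.FieldsP` + `(hd : Dcl …)`;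
* `s44_of_tropZeroT Dcl (hfr : FrameExists Dcl) (H : TropZeroT Dcl) : (frozen S44)`.
-/
import Mathlib
import Fermat.Agent.GF.Top.Provider44P
import Fermat.Agent.GF.End.Fields

set_option autoImplicit false
set_option linter.unusedSectionVars false

noncomputable section

namespace Fermat.Agent.GF.Top.Provider44T

open AlgebraicCurve IntermediateField Module IsLocalRing ModularCurve
open Fermat.Agent.S24 Fermat.Agent.S24_helper62 Fermat.Agent.RRh45 Fermat.Agent.RR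
open Fermat.Agent.GJ.J1 Fermat.Agent.GJ.J1.Val Fermat.Agent.GJ.J1.InstGen
open Fermat.Agent.GK.MultiVal Fermat.Agent.GK.BallTwo Fermat.Agent.GK.NodalGraded
open Fermat.Agent.GS.Nodal.LSR2 Fermat.Agent.GS.Nodal.Inst Fermat.Agent.GS.Nodal.ROfSurj2
open Fermat.Agent.GJ Fermat.Agent.GJ.KumGroup Fermat.Agent.GJ.Kum.KumType
open Fermat.Agent.GK.UQ Fermat.Agent.GK.New Fermat.Agent.GK.AL Fermat.Agent.GK.UqKronecker
open Fermat.Agent.GB.A.A6.ECDet Fermat.Agent.GB.A.A6.EigQ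
open Fermat.Agent.GF.Setup.Plane Fermat.Agent.GF.Setup.S0
open Fermat.Agent.GF.Shape.Plug Fermat.Agent.GF.Trop
open Fermat.Agent.GF.Top.SkeletonZ Fermat.Agent.GF.Top.S44Top Fermat.Agent.GF.Top.S44TopOrd
open Fermat.Agent.GF.Top.Provider44Z Fermat.Agent.GF.Top.CompW Fermat.Agent.GF.Top.Provider44O
open Fermat.Agent.GF.Top.Provider44Op Fermat.Agent.GF.Top.Provider44P

attribute [local instance] finiteResidues_FN hasPrincipalDivisors_FN nonempty_place_FN
  isAlgClosed_res finiteResidues_Fres hasPrincipalDivisors_Fres nonempty_place_Fres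

/-- a clause on a frame `(ι, P, Q)` of `F_{M' p}` at `A`. -/
abbrev FrameClause : Type 1 :=
  ∀ (p : ℕ) [Fact p.Prime] (M' : ℕ) [NeZero M'] (_ : ¬ p ∣ M') (A : ValuationSubring Kbar)
    (ι : Type) [Fintype ι] (_ _ : ι → Place (ResidueField A) (FresBar (M' * p) A)), Prop

/-- a nodal frame satisfying the clause exists (`5 ≤ p ∤ M'`, `A | p`). -/
def FrameExists (Dcl : FrameClause) : Prop :=
  ∀ (p : ℕ) [Fact p.Prime] (_ : 5 ≤ p) (M' : ℕ) [NeZero M'] (hpM' : ¬ p ∣ M')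
    (A : ValuationSubring Kbar) (_ : A.LiesOverPrime p),
    ∃ (ι : Type) (_ : Fintype ι) (P Q : ι → Place (ResidueField A) (FresBar (M' * p) A))
      (c : ℤ) (n₀ : ℕ), FrameFacts (M' * p) A (exactDvd hpM') P Q ∧
        NodalHyp (redCompatFN (M' * p) A (exactDvd hpM')) P Q (CS (M' * p) (exactDvd hpM'))
          (Dτ (M' * p) A p) (Dτ (M' * p) A p) (genusRR Kbar (FN (M' * p))) c n₀ ∧
        Dcl p M' hpM' A ι P Q

/-- the trivial clause -/
def trueClause : FrameClause := fun _ _ _ _ _ _ _ _ _ _ => True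

theorem frameExists_true : FrameExists trueClause := by
  intro p _ hp5 M' _ hpM' A hA
  obtain ⟨ι, i, P, Q, c, n₀, FF, NH⟩ :=
    exists_nodalHyp_of_exactDvd (M' * p) p A (exactDvd hpM') hA (by omega) (by omega)
  exact ⟨ι, i, P, Q, c, n₀, FF, NH, trivial⟩

/-- **the one remaining field**: `trop₁ = 0` on `Y₀`, for EVERY copy `C ⊆ eigQ`, at
`A = padicPlace p`, and EVERY nodal frame satisfying `Dcl`. -/
def TropZeroT (Dcl : FrameClause) : Prop :=
  ∀ (W : WeierstrassCurve ℤ) (_ : W.Δ ≠ 0) (p : ℕ) [Fact p.Prime] (_ : 5 ≤ p)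
    (_ : W.IsSemistableModel) (_ : (p : ℤ) ∣ W.Δ)
    (_ : (W.map (Int.castRingHom ℚ)).IsPeuRamifieeAt p p)
    (_ : W.ModRepIsIrreducible p)
    (_ : OrdAt W p)
    (M' : ℕ) [NeZero M'] (hpM' : ¬ p ∣ M')
    (_ : W.IsResiduallyModularOfLevel p (M' * p))
    (_ : ¬ W.IsResiduallyModularOfLevel p M')
    (C : Copy W p (M' * p))
    (_ : C.Y0 ≤ eigQ (M' * p) p (Sset W (M' * p) p) (hMS W (M' * p) p) (aW W))
    (ℓ₀ : ℕ) (_ : ℓ₀.Prime) (_ : ℓ₀ ∉ Sset W (M' * p) p)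
    (_ : ((aW W ℓ₀ : ℤ) : ZMod p) ≠ ((ℓ₀ : ℕ) : ZMod p) + 1)
    (A : ValuationSubring Kbar) (_ : A.LiesOverPrime p) (_ : A = padicPlace p)
    (ι : Type) [Fintype ι]
    (P Q : ι → Place (ResidueField A) (FresBar (M' * p) A)) (c : ℤ) (n₀ : ℕ)
    (_ : FrameFacts (M' * p) A (exactDvd hpM') P Q)
    (_ : NodalHyp (redCompatFN (M' * p) A (exactDvd hpM')) P Q (CS (M' * p) (exactDvd hpM'))
      (Dτ (M' * p) A p) (Dτ (M' * p) A p) (genusRR Kbar (FN (M' * p))) c n₀)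
    (_ : Dcl p M' hpM' A ι P Q),
    ∀ x ∈ C.Y0, trop1FN (q := p) (M' * p) A P x = 0

/-- **`Core44O` from `trop_zero` alone.** -/
theorem core44O_of_tropZeroT (Dcl : FrameClause) (hfr : FrameExists Dcl) (H : TropZeroT Dcl) :
    Core44O := by
  intro W hΔ p hp hp5 hss hmult hpeu hirr hord M hM hpM hp2M hmod
  have : Fact p.Prime := ⟨hp⟩
  have hp2 : p ≠ 2 := by omega
  by_contra hnot
  obtain ⟨M', rfl⟩ : ∃ M', M = M' * p := ⟨M / p, (Nat.div_mul_cancel hpM).symm⟩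
  have hM'0 : M' ≠ 0 := by
    rintro rfl
    simp at hM
  have : NeZero M' := ⟨hM'0⟩
  have hpM' : ¬ p ∣ M' := by
    intro h
    apply hp2M
    rw [pow_two]
    exact Nat.mul_dvd_mul h dvd_rfl
  rw [Nat.mul_div_cancel M' hp.pos] at hnot
  obtain ⟨C, hC⟩ := exists_setup W hΔ hp2 hirr hmod
  obtain ⟨ℓ₀, hℓ₀, hℓ₀S, hne⟩ := exists_nonEis W hΔ hp2 hirr (M' * p) (p := p)
  obtain ⟨A, hAp⟩ : ∃ A : ValuationSubring Kbar, A = padicPlace p := ⟨_, rfl⟩
  have hA : A.LiesOverPrime p := by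
    rw [hAp]
    exact Fermat.Agent.GP.Loc.PadicPlace.padicPlace_liesOverPrime p
  obtain ⟨ι, _, P, Q, c, n₀, FF, NH, hd⟩ := hfr p hp5 M' hpM' A hA
  have hpS' : ∀ r : ℕ, r.Prime → r ∣ p → r ∈ Sset W (M' * p) p := fun r hr hrp => by
    rw [(Nat.prime_dvd_prime_iff_eq hr hp).mp hrp]
    exact hpS W (M' * p) p
  have hC' := compW_le_eigQ C (exactDvd hpM') hpS' hC
  have F : FieldsAtO W p M' hpM' C A P :=
    ⟨not_le_of_ordAt hΔ hp5 hord hpM' C A hA,
     H W hΔ p hp5 hss hmult hpeu hirr hord M' hpM' hmod hnot C hC ℓ₀ hℓ₀ hℓ₀S hne A hA hAp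
      ι P Q c n₀ FF NH hd,
     Fermat.Agent.GF.End.Fields.end₁_of_frameO W hΔ p hp5 hss hmult hpeu hirr hord M' hpM' hmod
      hnot C hC ℓ₀ hℓ₀ hℓ₀S hne A hA ι P Q c n₀ FF NH⟩
  have F' : FieldsAtO W p M' hpM' (compW C (exactDvd hpM')) A P :=
    ⟨not_le_of_ordAt hΔ hp5 hord hpM' _ A hA,
     H W hΔ p hp5 hss hmult hpeu hirr hord M' hpM' hmod hnot (compW C (exactDvd hpM')) hC'
      ℓ₀ hℓ₀ hℓ₀S hne A hA hAp ι P Q c n₀ FF NH hd,
     Fermat.Agent.GF.End.Fields.end₁_of_frameO W hΔ p hp5 hss hmult hpeu hirr hord M' hpM' hmod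
      hnot (compW C (exactDvd hpM')) hC' ℓ₀ hℓ₀ hℓ₀S hne A hA ι P Q c n₀ FF NH⟩
  exact hnot (chainZ_of_fieldsAtZ W p M' hpM' C A hA P
    (fieldsAtZ_of_fieldsAtO W p M' hpM' C A P F F')).goal

/-- **Frozen S44 from `trop_zero` alone.** -/
theorem s44_of_tropZeroT (Dcl : FrameClause) (hfr : FrameExists Dcl) (H : TropZeroT Dcl)
    (P : FreyPackage) {N : ℕ}
    (hcond : P.IsConductorLevel N) (hpN : P.p ∣ N)
    (hirr : WeierstrassCurve.Affine.Point.GaloisRepIsIrreducible (K := AlgebraicClosure ℚ) ℚ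
      P.freyCurve P.p)
    (hmod : P.ModularRepOfLevel N) :
    ∃ M : ℕ, M ∣ N ∧ ¬ P.p ∣ M ∧ P.ModularRepOfLevel M :=
  s44_of_core44O (core44O_of_tropZeroT Dcl hfr H) P hcond hpN hirr hmod

/-- the same with no clause on the frame. -/
theorem s44_of_tropZero (H : TropZeroT trueClause) (P : FreyPackage) {N : ℕ}
    (hcond : P.IsConductorLevel N) (hpN : P.p ∣ N)
    (hirr : WeierstrassCurve.Affine.Point.GaloisRepIsIrreducible (K := AlgebraicClosure ℚ) ℚ
      P.freyCurve P.p)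
    (hmod : P.ModularRepOfLevel N) :
    ∃ M : ℕ, M ∣ N ∧ ¬ P.p ∣ M ∧ P.ModularRepOfLevel M :=
  s44_of_tropZeroT trueClause frameExists_true H P hcond hpN hirr hmod

end Fermat.Agent.GF.Top.Provider44T
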