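/-
GATE-F / TOP, file 14 (helper61; RULING-5 of helper13, board 6389): the abstract frame clause of
`Provider44T` INSTANTIATED by helper65's E4 (`GF/Eis/NodesSS.exists_nodalHyp_ss`):

`clauseD` := (d) `red₁ (Δ(z)/Δ(pz))` has no zero off the cusps other than the `P s`
           ∧ (e) every `P s` is a zero of `red₁ (Δ(z)/Δ(pz))`.

* `frameExists_ss : FrameExists clauseD`;
* `s44_of_tropZeroD (H : TropZeroT clauseD) : (frozen S44)`.

So the gate target is the ONE theorem `tropZeroD : TropZeroT clauseD`: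
`∀ x ∈ C.Y0, trop1FN x = 0` for every copy `C ⊆ eigQ`, at `A = padicPlace p`, for every nodal
frame with `FrameFacts`, `NodalHyp`, (d), (e).
-/
import Mathlib
import Fermat.Agent.GF.Top.Provider44T
import Fermat.Agent.GF.Eis.NodesSS

set_option autoImplicit false
set_option linter.unusedSectionVars false

noncomputable section

namespace Fermat.Agent.GF.Top.Provider44D

open AlgebraicCurve IntermediateField Module IsLocalRing ModularCurve
open Fermat.Agent.S24 Fermat.Agent.S24_helper62 Fermat.Agent.RRh45 Fermat.Agent.RR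
open Fermat.Agent.GJ.J1 Fermat.Agent.GJ.J1.Val Fermat.Agent.GJ.J1.InstGen
open Fermat.Agent.GK.MultiVal Fermat.Agent.GK.BallTwo Fermat.Agent.GK.NodalGraded
open Fermat.Agent.GS.Nodal.LSR2 Fermat.Agent.GS.Nodal.Inst Fermat.Agent.GS.Nodal.ROfSurj2
open Fermat.Agent.GJ Fermat.Agent.GJ.KumGroup Fermat.Agent.GJ.Kum.KumType
open Fermat.Agent.GK.UQ Fermat.Agent.GK.New Fermat.Agent.GK.AL Fermat.Agent.GK.UqKronecker
open Fermat.Agent.GL.Eta Fermat.Agent.GK.CuspSep
open Fermat.Agent.GF.Setup.Plane Fermat.Agent.GF.Setup.S0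
open Fermat.Agent.GF.Top.Provider44T

attribute [local instance] finiteResidues_FN hasPrincipalDivisors_FN nonempty_place_FN
  isAlgClosed_res finiteResidues_Fres hasPrincipalDivisors_Fres nonempty_place_Fres

/-- **clauses (d) + (e) of helper65's E4**: the node branches `P s` are exactly the zeros off the
cusps of `red₁ (Δ(z)/Δ(pz))`. -/
def clauseD : FrameClause := fun p _ M' _ hpM' A _ _ P _ =>
  (∀ Q' : Place (ResidueField A) (FresBar (M' * p) A), 0 ≤ Q'.ord (tauF (M' * p) A) →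
    (∀ s, Q' ≠ P s) →
    Q'.ord ((redDataBar (M' * p) A).red
      ⟨etaQ (M' * p) p (exactDvd hpM').dvd, etaQ_mem_Rw1 (M' * p) A p (exactDvd hpM').dvd⟩) = 0) ∧
  (∀ s, 0 < (P s).ord ((redDataBar (M' * p) A).red
      ⟨etaQ (M' * p) p (exactDvd hpM').dvd, etaQ_mem_Rw1 (M' * p) A p (exactDvd hpM').dvd⟩))

theorem frameExists_ss : FrameExists clauseD := by
  intro p _ hp5 M' _ hpM' A hA
  have : NeZero p := ⟨(Fact.out : p.Prime).ne_zero⟩
  obtain ⟨ι, i, P, Q, c, n₀, FF, NH, hd, he⟩ :=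
    Fermat.Agent.GF.Eis.NodesSS.exists_nodalHyp_ss (M' * p) p A (exactDvd hpM') hA
      (by omega) (by omega)
  exact ⟨ι, i, P, Q, c, n₀, FF, NH, hd, he⟩

/-- **Frozen S44 from `trop_zero` on the supersingular nodal frames.** -/
theorem s44_of_tropZeroD (H : TropZeroT clauseD) (P : FreyPackage) {N : ℕ}
    (hcond : P.IsConductorLevel N) (hpN : P.p ∣ N)
    (hirr : WeierstrassCurve.Affine.Point.GaloisRepIsIrreducible (K := AlgebraicClosure ℚ) ℚ
      P.freyCurve P.p)
    (hmod : P.ModularRepOfLevel N) :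
    ∃ M : ℕ, M ∣ N ∧ ¬ P.p ∣ M ∧ P.ModularRepOfLevel M :=
  s44_of_tropZeroT clauseD frameExists_ss H P hcond hpN hirr hmod

end Fermat.Agent.GF.Top.Provider44D
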