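/-
GATE-F / GF-INTEGRATOR (helper61; asked by helper13, board 6456): **ONE Lean statement whose
hypotheses are EXACTLY the open work of S44.**

Everything on main is plugged in:
* `not_le`    : helper69 GF-SS-ORD (`Provider44P.not_le_of_ordAt`);
* `end₁`      : helper96 GF-END-ASM (`End.Fields.end₁_of_frameO`);
* `end₂`      : through the copy `W_p ∘ C` (`CompW`);
* the frame   : helper65 E4 (`Provider44D.clauseD`, `frameExists_ss`), `A := padicPlace p`;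
* EIS         : helper77 `Eis/Final.trop_zero_mul` (its `hd` = clause (d), `hoff` from `FrameFacts`);
* SHAPE       : `LineDataP.exists_lineData_of_ordAt`;
* the tame datum `T` : helper31 `TameInst.exists_tameDatum_of_lineData` (helper2 `G0Inst`), `a = −1`;
* (F2) on `Y₀` : helper31 `NRAsm.econst_Y0_of_nodes` (E-PEU seam `hQ` inside, helper69/helper90).

LAYER 1 `trop_zero_of_econst` : in the binder context of the provider, from
`E : ι → ZMod p`, `κ₀ ≠ 0`, `E s · ordRed_{P s}(etaQ) = κ₀`, `∀ x ∈ Y₀, EConst E (trop₁ x)`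
⟹ `∀ x ∈ Y₀, trop₁ x = 0`.

LAYER 2 the two suppliers, as explicit hypotheses:
* `SupplyKU`    (S-a)  GF-ETATE: `∃ ζ` primitive, `KummerUnit W p (padicPlace p) ζ`;
* `SupplyCover` (S-c)+(S-d)  GF-KCOVER-INST: for every tame datum `T` of the SHAPE line
  (`[T.g] = −w₀`, `lc_q = 1`): a `CoverSupply` = `Wd : T.WData` + `hvK` + the per-node data
  `(as, bs, E, n, θ, Tt, N0)` with `NL`, `hn` (against `trop1FN`) of `econst_Y0_of_nodes`
  + (L-d): `Tt s = T0` for all `s`, `T0 ≢ 0 (p)`, `ordRed_{P s}(etaQ) ≡ N0 s (p)`.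

`tropZeroD_of_suppliers : SupplyKU → SupplyCover → TropZeroT clauseD`,
`s44_of_suppliers : SupplyKU → SupplyCover → (frozen S44)`.
-/
import Mathlib
import Fermat.Agent.GF.Top.Provider44D
import Fermat.Agent.GF.Top.LineDataP
import Fermat.Agent.GF.Eis.Final
import Fermat.Agent.GF.F2Asm.NRAsm
import Fermat.Agent.GF.F2Asm.TameInst

set_option autoImplicit false
set_option linter.unusedSectionVars false

noncomputable section

namespace Fermat.Agent.GF.Top.Integrate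

open AlgebraicCurve IntermediateField Module IsLocalRing ModularCurve
open Fermat.Agent.Common_helper32
open Fermat.Agent.S24 Fermat.Agent.S24_helper62 Fermat.Agent.RRh45 Fermat.Agent.RR
open Fermat.Agent.GJ.J1 Fermat.Agent.GJ.J1.Val Fermat.Agent.GJ.J1.InstGen
open Fermat.Agent.GK.MultiVal Fermat.Agent.GK.BallTwo Fermat.Agent.GK.NodalGraded
open Fermat.Agent.GS.Nodal.LSR2 Fermat.Agent.GS.Nodal.Inst Fermat.Agent.GS.Nodal.ROfSurj2
open Fermat.Agent.GJ Fermat.Agent.GJ.KumGroup Fermat.Agent.GJ.Kum.KumType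
open Fermat.Agent.GJ.CycChar
open Fermat.Agent.GK.UQ Fermat.Agent.GK.New Fermat.Agent.GK.AL Fermat.Agent.GK.UqKronecker
open Fermat.Agent.GK.CuspSep Fermat.Agent.GL.Eta
open Fermat.Agent.GB.A.A6.ECDet Fermat.Agent.GB.A.A6.EigQ
open Fermat.Agent.GF.Setup.Plane Fermat.Agent.GF.Setup.S0
open Fermat.Agent.GF.Shape.Sub Fermat.Agent.GF.Shape.Plug Fermat.Agent.GF.Trop
open Fermat.Agent.GF.Peu Fermat.Agent.GF.ETate
open Fermat.Agent.GF.KCover Fermat.Agent.GF.F2Asm.Inst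
open Fermat.Agent.GF.Top.Skeleton Fermat.Agent.GF.Top.S44TopOrd
open Fermat.Agent.GF.Top.Provider44T Fermat.Agent.GF.Top.Provider44D

attribute [local instance] finiteResidues_FN hasPrincipalDivisors_FN nonempty_place_FN
  isAlgClosed_res finiteResidues_Fres hasPrincipalDivisors_Fres nonempty_place_Fres

/-- the tropical vector of the eta quotient `Δ(z)/Δ(pz)` at the nodes `P s` -/
def etaTrop {p : ℕ} [Fact p.Prime] (N : ℕ) [NeZero N] (A : ValuationSubring Kbar) {ι : Type}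
    [Fintype ι] (P : ι → Place (ResidueField A) (FresBar N A)) (h : ExactDvd p N) : ι → ZMod p :=
  fun s => ((ordRed (redDataBar N A) (Fermat.Agent.GS.F.unram_redDataBar N A) (P s)
    (etaQ N p h.dvd) : ℤ) : ZMod p)

/-! ### Layer 1 -/

/-- **`trop_zero` from (F2)** (EIS = helper77 plugged in): in the binder context of the provider,
an `E`-constancy of the tropical vectors of `Y₀` with `E s · ordRed_{P s}(etaQ) = κ₀ ≠ 0` forces
`trop₁ = 0` on `Y₀`. -/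
theorem trop_zero_of_econst (W : WeierstrassCurve ℤ) (hΔ : W.Δ ≠ 0) (p : ℕ) [Fact p.Prime]
    (hp5 : 5 ≤ p) (M' : ℕ) [NeZero M'] (hpM' : ¬ p ∣ M')
    (C : Copy W p (M' * p))
    (hC : C.Y0 ≤ eigQ (M' * p) p (Sset W (M' * p) p) (hMS W (M' * p) p) (aW W))
    (ℓ₀ : ℕ) (hℓ₀ : ℓ₀.Prime) (hℓ₀S : ℓ₀ ∉ Sset W (M' * p) p)
    (hne : ((aW W ℓ₀ : ℤ) : ZMod p) ≠ ((ℓ₀ : ℕ) : ZMod p) + 1)
    (A : ValuationSubring Kbar) (hA : A.LiesOverPrime p)
    (ι : Type) [Fintype ι]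
    (P Q : ι → Place (ResidueField A) (FresBar (M' * p) A)) (c : ℤ) (n₀ : ℕ)
    (FF : FrameFacts (M' * p) A (exactDvd hpM') P Q)
    (NH : NodalHyp (redCompatFN (M' * p) A (exactDvd hpM')) P Q (CS (M' * p) (exactDvd hpM'))
      (Dτ (M' * p) A p) (Dτ (M' * p) A p) (genusRR Kbar (FN (M' * p))) c n₀)
    (hd : clauseD p M' hpM' A ι P Q)
    (E : ι → ZMod p) (κ₀ : ZMod p) (hκ₀ : κ₀ ≠ 0)
    (hE : ∀ s, E s * etaTrop (M' * p) A P (exactDvd hpM') s = κ₀)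
    (hec : ∀ x ∈ C.Y0, EConst E (trop1FN (q := p) (M' * p) A P x)) :
    ∀ x ∈ C.Y0, trop1FN (q := p) (M' * p) A P x = 0 := by
  intro x hx
  have : NeZero p := ⟨(Fact.out : p.Prime).ne_zero⟩
  have hℓ₀M : ¬ ℓ₀ ∣ M' * p := (good_of_notMem hΔ hℓ₀ hℓ₀S).2.1
  obtain ⟨κ, hκ⟩ := hec x hx
  refine Fermat.Agent.GF.Eis.Final.trop_zero_mul M' A (exactDvd hpM') NH hpM' hp5 hA
    (Fermat.Agent.GF.Eis.Final.hoff_of_frameFacts M' A (exactDvd hpM') FF) hd.1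
    (fun s => 12 * κ₀⁻¹ * E s) ?_ hℓ₀ hℓ₀M x ((aW W ℓ₀ : ℤ) : ZMod p)
    (C.kumTl_eq hC hx hℓ₀ hℓ₀S hℓ₀M) hne ⟨12 * κ₀⁻¹ * κ, fun s => ?_⟩
  · intro s
    have h1 := hE s
    unfold etaTrop at h1
    rw [mul_assoc, h1, mul_assoc, inv_mul_cancel₀ hκ₀, mul_one]
  · rw [mul_assoc, hκ s]

/-! ### Layer 2: the suppliers -/

/-- **(S-a) GF-ETATE**: the Kummer unit of the E-side at `padicPlace p`, for ONE primitive `ζ`. -/
def SupplyKU : Prop :=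
  ∀ (W : WeierstrassCurve ℤ) (_ : W.Δ ≠ 0) (p : ℕ) [Fact p.Prime] (_ : 5 ≤ p)
    (_ : W.IsSemistableModel) (_ : (p : ℤ) ∣ W.Δ)
    (_ : (W.map (Int.castRingHom ℚ)).IsPeuRamifieeAt p p),
    ∃ ζ : Qb, IsPrimitiveRoot ζ p ∧ KummerUnit W p (padicPlace p) ζ

/-- **(S-c) + (S-d) GF-KCOVER-INST, per context**: the valuation data of the cover `T.Fp` and the
per-node data of `NRAsm.econst_Y0_of_nodes`, with (L-d) for the eta quotient. -/
structure CoverSupply {W : WeierstrassCurve ℤ} {p : ℕ} [hpF : Fact p.Prime] {N : ℕ} [NeZero N]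
    (h : ExactDvd p N) (C : Copy W p N) {A : ValuationSubring Kbar} {ζ : Kb}
    (T : TameDatum N p A ζ) {ι : Type} [Fintype ι]
    (P : ι → Place (ResidueField A) (FresBar N A)) : Type where
  /-- (S-c) FIELD-MOD -/
  Wd : T.WData
  hvK : ∀ (c : fixedUnits (tameGroup A ζ) T.Fp) (c₀ : Kb),
    ((c : T.Fpˣ) : T.Fp) = algebraMap Kb T.Fp c₀ →
      A.valuation c₀ = A.valuation (1 - ζ) ^ Wd.vK c
  /-- (S-d) the per-node data -/
  as : ι → ZMod p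
  bs : ι → ZMod p
  E : ι → ℤ
  n : ι → ZMod p → fixedUnits (tameGroup A ζ) T.Fp → ℤ
  hn_mul : ∀ s j y z, n s j (y * z) = n s j y + n s j z
  hn_const : ∀ s j (c : fixedUnits (tameGroup A ζ) T.Fp),
    ((c : T.Fpˣ) : T.Fp) ∈ T.C → n s j c = 0
  θ : fixedUnits (tameGroup A ζ) T.Fp
  Tt : ι → ℤ
  N0 : ι → ℤ
  hθ1 : ∀ s j, Wd.w₁ (j + as s) θ = 0
  hθ2 : ∀ s j, Wd.w₂ (j + bs s) θ = Tt s
  hθn : ∀ s j, n s j θ = N0 s
  hT : ∀ s, Tt s = E s * N0 s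
  hN0 : ∀ s, IsCoprime (p : ℤ) (N0 s)
  NL : ∀ s j (u : fixedUnits (tameGroup A ζ) T.Fp),
    Wd.w₁ (j + as s) u = 0 → Wd.w₂ (j + bs s) u = 0 → (p : ℤ) ∣ n s j u
  hn : ∀ u : pDivUnits Kb (FK N) p,
    (Additive.ofMul (Kum.mk u) : Additive (Kum Kb (FK N) p)) ∈ C.Y0 →
    ∀ f : fixedUnits (tameGroup A ζ) T.Fp,
    (∃ g : T.Fp, g ≠ 0 ∧ ((f : T.Fpˣ) : T.Fp) =
      1 * algebraMap (FK N) T.Fp (((u : (FK N)ˣ) : FK N)) * g ^ p) →
    ∀ s j, ((n s j f : ℤ) : ZMod p) = trop1FN (q := p) N A P (Additive.ofMul (Kum.mk u)) s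
  /-- (L-d) for the eta quotient -/
  T0 : ℤ
  hT0 : ∀ s, Tt s = T0
  hT0p : ((T0 : ℤ) : ZMod p) ≠ 0
  hη : ∀ s, etaTrop N A P h s = ((N0 s : ℤ) : ZMod p)

/-- **(S-c) + (S-d) GF-KCOVER-INST**: a `CoverSupply` for EVERY tame datum of the SHAPE line, in the
binder context of `TropZeroT clauseD`. -/
def SupplyCover : Prop :=
  ∀ (W : WeierstrassCurve ℤ) (_ : W.Δ ≠ 0) (p : ℕ) [Fact p.Prime] (_ : 5 ≤ p)
    (_ : W.IsSemistableModel) (_ : (p : ℤ) ∣ W.Δ)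
    (_ : (W.map (Int.castRingHom ℚ)).IsPeuRamifieeAt p p)
    (_ : W.ModRepIsIrreducible p)
    (_ : OrdAt W p)
    (M' : ℕ) [NeZero M'] (hpM' : ¬ p ∣ M')
    (_ : W.IsResiduallyModularOfLevel p (M' * p))
    (_ : ¬ W.IsResiduallyModularOfLevel p M')
    (C : Copy W p (M' * p))
    (_ : C.Y0 ≤ eigQ (M' * p) p (Sset W (M' * p) p) (hMS W (M' * p) p) (aW W))
    (ℓ₀ : ℕ) (_ : ℓ₀.Prime) (_ : ℓ₀ ∉ Sset W (M' * p) p)
    (_ : ((aW W ℓ₀ : ℤ) : ZMod p) ≠ ((ℓ₀ : ℕ) : ZMod p) + 1)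
    (A : ValuationSubring Kbar) (_ : A.LiesOverPrime p) (_ : A = padicPlace p)
    (ι : Type) [Fintype ι]
    (P Q : ι → Place (ResidueField A) (FresBar (M' * p) A)) (c : ℤ) (n₀ : ℕ)
    (_ : FrameFacts (M' * p) A (exactDvd hpM') P Q)
    (_ : NodalHyp (redCompatFN (M' * p) A (exactDvd hpM')) P Q (CS (M' * p) (exactDvd hpM'))
      (Dτ (M' * p) A p) (Dτ (M' * p) A p) (genusRR Kbar (FN (M' * p))) c n₀)
    (_ : clauseD p M' hpM' A ι P Q)
    (ζ : Kb) (_ : IsPrimitiveRoot ζ p) (_ : KummerUnit W p A ζ)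
    (D : LineData (gal (M' * p) p) (A.inertiaSubgroupIn ℚ) C.Y0
      (M0Kum (M' * p) A (exactDvd hpM') p) (fun σ => ((cyc p σ : (ZMod p)ˣ) : ZMod p)))
    (T : TameDatum (M' * p) p A ζ)
    (_ : (Additive.ofMul (Kum.mk T.g) : Additive (Kum Kb (FK (M' * p)) p)) =
      (-1 : ZMod p) • D.w₀)
    (_ : (qEmb (M' * p) T.g₀).leadingCoeff = 1),
    Nonempty (CoverSupply (exactDvd hpM') C T P)

/-- **THE INTEGRATION: `trop_zero` from the two suppliers.** -/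
theorem tropZeroD_of_suppliers (hKU : SupplyKU) (hCov : SupplyCover) : TropZeroT clauseD := by
  intro W hΔ p _ hp5 hss hmult hpeu hirr hord M' _ hpM' hmod hnot C hC ℓ₀ hℓ₀ hℓ₀S hne A hA hAp
    ι _ P Q c n₀ FF NH hd
  obtain ⟨ζ, hζ, hKUζ⟩ := hKU W hΔ p hp5 hss hmult hpeu
  rw [← hAp] at hKUζ
  obtain ⟨D⟩ := Fermat.Agent.GF.Top.LineDataP.exists_lineData_of_ordAt W hΔ p hp5 hirr hord M'
    hpM' C A hA
  obtain ⟨T, ha, hg, hlc⟩ :=
    Fermat.Agent.GF.F2Asm.TameInst.exists_tameDatum_of_lineData (ζ := ζ) hA hζ D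
  obtain ⟨S⟩ := hCov W hΔ p hp5 hss hmult hpeu hirr hord M' hpM' hmod hnot C hC ℓ₀ hℓ₀ hℓ₀S hne
    A hA hAp ι P Q c n₀ FF NH hd ζ hζ hKUζ D T hg hlc
  have hec := Fermat.Agent.GF.F2Asm.NRAsm.econst_Y0_of_nodes T S.Wd C hA hKUζ D (-1) ha hg hlc
    S.hvK S.as S.bs S.E S.n S.hn_mul S.hn_const S.θ S.Tt S.N0 S.hθ1 S.hθ2 S.hθn S.hT S.hN0 S.NL
    (fun x => trop1FN (q := p) (M' * p) A P x) S.hn
  refine trop_zero_of_econst W hΔ p hp5 M' hpM' C hC ℓ₀ hℓ₀ hℓ₀S hne A hA ι P Q c n₀ FF NH hd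
    (fun s => ((S.E s : ℤ) : ZMod p)) ((S.T0 : ℤ) : ZMod p) S.hT0p ?_ hec
  exact Fermat.Agent.GF.F2Asm.NRAsm.eta_clause S.E S.Tt S.N0 S.hT S.T0 S.hT0 _ S.hη

/-- **Frozen S44 from the two suppliers.** -/
theorem s44_of_suppliers (hKU : SupplyKU) (hCov : SupplyCover) (P : FreyPackage) {N : ℕ}
    (hcond : P.IsConductorLevel N) (hpN : P.p ∣ N)
    (hirr : WeierstrassCurve.Affine.Point.GaloisRepIsIrreducible (K := AlgebraicClosure ℚ) ℚ
      P.freyCurve P.p)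
    (hmod : P.ModularRepOfLevel N) :
    ∃ M : ℕ, M ∣ N ∧ ¬ P.p ∣ M ∧ P.ModularRepOfLevel M :=
  s44_of_tropZeroD (tropZeroD_of_suppliers hKU hCov) P hcond hpN hirr hmod

end Fermat.Agent.GF.Top.Integrate
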