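/-
GATE-F / TOP, file 8 (helper61; SEAM end₂ of helper13, board 6204): **the copy `W_q ∘ C`**.

`C.Y0` is ANY copy of `W[p]` in `eigQ`; it need not be stable under the Atkin–Lehner involution
`W_q` of `Kum_p(F_N)` (`= autEnd (wAut h) p`).  But `W_q ∘ C` is again a copy
(`W_q` is injective and commutes with `G_ℚ`), it lies again in `eigQ`
(`EigQ.end_mem_eigQ`: every endomorphism commuting with Galois preserves `eigQ`), and
`x ∉ kerRed₂ ⟺ W_q x ∉ kerRed` (`mem_kerRed₂_iff`).  Hence the second-component end-game `end₂`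
for `C` is the first-component end-game `end₁` for `W_q ∘ C`: node theorems are stated over
ARBITRARY copies, and nobody has to prove `end₂` (nor `trop₂ = − trop₁`).

* `compW C h : Copy W p N`, `compW_e`, `mem_compW_Y0`;
* `compW_le_eigQ`;
* `notMem_kerRed_compW : x ∉ kerRed₂ h A p → autEnd (wAut h) p x ∉ kerRed N A p`.
-/
import Mathlib
import Fermat.Agent.GF.Setup.Plane
import Fermat.Agent.GK.UqKroneckerU

set_option autoImplicit false
set_option linter.unusedSectionVars false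

noncomputable section

namespace Fermat.Agent.GF.Top.CompW

open AlgebraicCurve
open Fermat.Agent.GJ Fermat.Agent.GJ.KumGroup Fermat.Agent.GJ.Kum.KumType
open Fermat.Agent.GK.UQ Fermat.Agent.GK.New Fermat.Agent.GK.AL Fermat.Agent.GK.UqKronecker
open Fermat.Agent.GB.A.A6.ECDet Fermat.Agent.GB.A.A6.EigQ
open Fermat.Agent.GF.Setup.Plane

local notation "GQ'" => (AlgebraicClosure ℚ ≃ₐ[ℚ] AlgebraicClosure ℚ)

variable {W : WeierstrassCurve ℤ} {p : ℕ} [Fact p.Prime] {N : ℕ} [NeZero N] {q : ℕ}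

/-- `W_q` on `Kum_p(F_N)` commutes with Galois. -/
theorem autEnd_wAut_gal (h : ExactDvd q N) (σ : GQ') (x : Additive (Kum Kb (FK N) p)) :
    autEnd (wAut h : FK N ≃ₐ[Kb] FK N) p (gal N p σ x) =
      gal N p σ (autEnd (wAut h : FK N ≃ₐ[Kb] FK N) p x) :=
  autEnd_comm_gal (wAut h : FK N ≃ₐ[Kb] FK N) (fun y => wAut_comm_gal h σ y) p x

/-- `W_q` on `Kum_p(F_N)` is injective. -/
theorem autEnd_wAut_injective (h : ExactDvd q N) :
    Function.Injective (autEnd (wAut h : FK N ≃ₐ[Kb] FK N) p) := by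
  intro x y hxy
  have := congrArg (autEnd (wAut h : FK N ≃ₐ[Kb] FK N) p) hxy
  rwa [autEnd_wAut_autEnd_wAut, autEnd_wAut_autEnd_wAut] at this

/-- **the copy `W_q ∘ C`.** -/
def compW (C : Copy W p N) (h : ExactDvd q N) : Copy W p N where
  e := (autEnd (wAut h : FK N ≃ₐ[Kb] FK N) p).comp C.e
  inj := (autEnd_wAut_injective h).comp C.inj
  equivariant := fun g x => by
    rw [LinearMap.comp_apply, LinearMap.comp_apply, C.equivariant, autEnd_wAut_gal]

theorem compW_e (C : Copy W p N) (h : ExactDvd q N) (x : Tp W p) :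
    (compW C h).e x = autEnd (wAut h : FK N ≃ₐ[Kb] FK N) p (C.e x) := rfl

/-- `W_q x ∈ (W_q ∘ C).Y0` for `x ∈ C.Y0`. -/
theorem mem_compW_Y0 (C : Copy W p N) (h : ExactDvd q N) {x : Additive (Kum Kb (FK N) p)}
    (hx : x ∈ C.Y0) : autEnd (wAut h : FK N ≃ₐ[Kb] FK N) p x ∈ (compW C h).Y0 := by
  obtain ⟨v, rfl⟩ := C.exists_of_mem hx
  exact ⟨v, rfl⟩

/-- `(W_q ∘ C).Y0 ≤ eigQ` when `C.Y0 ≤ eigQ`. -/
theorem compW_le_eigQ (C : Copy W p N) (h : ExactDvd q N) {S : Finset ℕ}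
    {hNS : ∀ r : ℕ, r.Prime → r ∣ N → r ∈ S} {a : ℕ → ℤ}
    (hpS : ∀ r : ℕ, r.Prime → r ∣ p → r ∈ S)
    (hC : C.Y0 ≤ eigQ N p S hNS a) : (compW C h).Y0 ≤ eigQ N p S hNS a := by
  rintro y ⟨v, rfl⟩
  rw [compW_e]
  exact end_mem_eigQ hpS _ (fun σ x => autEnd_wAut_gal h σ x) (hC (C.e_mem v))

/-- `x ∉ ker r₂ ⟹ W_q x ∉ ker r₁`. -/
theorem notMem_kerRed_compW (h : ExactDvd q N) (A : ValuationSubring Kb)
    {x : Additive (Kum Kb (FK N) p)} (hx : x ∉ kerRed₂ h A p) :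
    autEnd (wAut h : FK N ≃ₐ[Kb] FK N) p x ∉ kerRed N A p :=
  fun h' => hx ((mem_kerRed₂_iff h p x).mpr h')

end Fermat.Agent.GF.Top.CompW
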