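/-
GATE-F / GF-INTEGRATOR, file 2 (helper61): **(S-a) DISCHARGED** (helper70 GF-ETATE,
`ETate/Plug.kummerUnit_of_semistable`) and the cover supplier restated in helper31's FINAL form
(`F2Asm/NRAsmSub.f2_of_nodes_sub`: thickness-free, node lemma `NL` only on the subgroups `Us s j` —
helper84's correction, board 6584: `NL` is FALSE on all of `fixedUnits`, so `Integrate.CoverSupply`
is not satisfiable as stated; use THIS file).

* `supplyKU : Integrate.SupplyKU`                                       (theorem);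
* `SupplyF2` : **the ONE open Prop of S44** = in the binder context of `TropZeroT clauseD`,
  the body of helper34's `F2Hyp`:
  `∃ E κ₀, κ₀ ≠ 0 ∧ (∀ s, E s * etaTrop s = κ₀) ∧ ∀ y ∈ C.Y0, EConst E (trop1FN y)`;
* `tropZeroD_of_f2`, **`s44_of_f2 : SupplyF2 → (frozen S44)`**;
* `CoverSupplySub` : the binder list of `f2_of_nodes_sub` as a structure, `SupplyCoverSub`
  (for SOME tame datum `T` of the SHAPE line, with `ζ`, `KummerUnit`, `D : LineData` provided),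
  `supplyF2_of_coverSub : SupplyCoverSub → SupplyF2`, `s44_of_coverSub`.
-/
import Mathlib
import Fermat.Agent.GF.Top.Integrate
import Fermat.Agent.GF.ETate.Plug
import Fermat.Agent.GF.F2Asm.NRAsmSub

set_option autoImplicit false
set_option linter.unusedSectionVars false

noncomputable section

namespace Fermat.Agent.GF.Top.Integrate2

open AlgebraicCurve IntermediateField Module IsLocalRing ModularCurve
open Fermat.Agent.Common_helper32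
open Fermat.Agent.S24 Fermat.Agent.S24_helper62 Fermat.Agent.RRh45 Fermat.Agent.RR
open Fermat.Agent.GJ.J1 Fermat.Agent.GJ.J1.Val Fermat.Agent.GJ.J1.InstGen
open Fermat.Agent.GK.MultiVal Fermat.Agent.GK.BallTwo Fermat.Agent.GK.NodalGraded
open Fermat.Agent.GS.Nodal.LSR2 Fermat.Agent.GS.Nodal.Inst Fermat.Agent.GS.Nodal.ROfSurj2
open Fermat.Agent.GJ Fermat.Agent.GJ.KumGroup Fermat.Agent.GJ.Kum.KumType
open Fermat.Agent.GJ.CycChar
open Fermat.Agent.GK.UQ Fermat.Agent.GK.New Fermat.Agent.GK.AL Fermat.Agent.GK.UqKronecker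
open Fermat.Agent.GK.CuspSep Fermat.Agent.GL.Eta
open Fermat.Agent.GB.A.A6.ECDet Fermat.Agent.GB.A.A6.EigQ
open Fermat.Agent.GF.Setup.Plane Fermat.Agent.GF.Setup.S0
open Fermat.Agent.GF.Shape.Sub Fermat.Agent.GF.Shape.Plug Fermat.Agent.GF.Trop
open Fermat.Agent.GF.Peu Fermat.Agent.GF.ETate
open Fermat.Agent.GF.KCover Fermat.Agent.GF.F2Asm.Inst Fermat.Agent.GF.F2Asm.NRAsm
open Fermat.Agent.GF.Top.Skeleton Fermat.Agent.GF.Top.S44TopOrd
open Fermat.Agent.GF.Top.Provider44T Fermat.Agent.GF.Top.Provider44D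
open Fermat.Agent.GF.Top.Integrate

attribute [local instance] finiteResidues_FN hasPrincipalDivisors_FN nonempty_place_FN
  isAlgClosed_res finiteResidues_Fres hasPrincipalDivisors_Fres nonempty_place_Fres

/-- **(S-a) is a theorem** (helper70 GF-ETATE). -/
theorem supplyKU : SupplyKU := by
  intro W hΔ p _ hp5 hss hmult hpeu
  obtain ⟨ζ, hζ⟩ := exists_primitiveRoot p
  exact ⟨ζ, hζ, Fermat.Agent.GF.ETate.Plug.kummerUnit_of_semistable W hΔ p hp5 hss hmult hpeu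
    rfl hζ⟩

/-- **THE ONE OPEN PROP OF S44**: (F2) on `Y₀` with the eta-quotient normalisation, in the binder
context of `TropZeroT clauseD` (= the body of helper34's `F2Hyp`). -/
def SupplyF2 : Prop :=
  ∀ (W : WeierstrassCurve ℤ) (_ : W.Δ ≠ 0) (p : ℕ) [Fact p.Prime] (_ : 5 ≤ p)
    (_ : W.IsSemistableModel) (_ : (p : ℤ) ∣ W.Δ)
    (_ : (W.map (Int.castRingHom ℚ)).IsPeuRamifieeAt p p)
    (_ : W.ModRepIsIrreducible p)
    (_ : OrdAt W p)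
    (M' : ℕ) [NeZero M'] (hpM' : ¬ p ∣ M')
    (_ : W.IsResiduallyModularOfLevel p (M' * p))
    (_ : ¬ W.IsResiduallyModularOfLevel p M')
    (C : Copy W p (M' * p))
    (_ : C.Y0 ≤ eigQ (M' * p) p (Sset W (M' * p) p) (hMS W (M' * p) p) (aW W))
    (ℓ₀ : ℕ) (_ : ℓ₀.Prime) (_ : ℓ₀ ∉ Sset W (M' * p) p)
    (_ : ((aW W ℓ₀ : ℤ) : ZMod p) ≠ ((ℓ₀ : ℕ) : ZMod p) + 1)
    (A : ValuationSubring Kbar) (_ : A.LiesOverPrime p) (_ : A = padicPlace p)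
    (ι : Type) [Fintype ι]
    (P Q : ι → Place (ResidueField A) (FresBar (M' * p) A)) (c : ℤ) (n₀ : ℕ)
    (_ : FrameFacts (M' * p) A (exactDvd hpM') P Q)
    (_ : NodalHyp (redCompatFN (M' * p) A (exactDvd hpM')) P Q (CS (M' * p) (exactDvd hpM'))
      (Dτ (M' * p) A p) (Dτ (M' * p) A p) (genusRR Kbar (FN (M' * p))) c n₀)
    (_ : clauseD p M' hpM' A ι P Q),
    ∃ (E : ι → ZMod p) (κ₀ : ZMod p), κ₀ ≠ 0 ∧
      (∀ s, E s * etaTrop (M' * p) A P (exactDvd hpM') s = κ₀) ∧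
      ∀ y ∈ C.Y0, EConst E (trop1FN (q := p) (M' * p) A P y)

/-- **`trop_zero` from (F2).** -/
theorem tropZeroD_of_f2 (H : SupplyF2) : TropZeroT clauseD := by
  intro W hΔ p _ hp5 hss hmult hpeu hirr hord M' _ hpM' hmod hnot C hC ℓ₀ hℓ₀ hℓ₀S hne A hA hAp
    ι _ P Q c n₀ FF NH hd
  obtain ⟨E, κ₀, hκ₀, hE, hec⟩ := H W hΔ p hp5 hss hmult hpeu hirr hord M' hpM' hmod hnot C hC
    ℓ₀ hℓ₀ hℓ₀S hne A hA hAp ι P Q c n₀ FF NH hd
  exact trop_zero_of_econst W hΔ p hp5 M' hpM' C hC ℓ₀ hℓ₀ hℓ₀S hne A hA ι P Q c n₀ FF NH hd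
    E κ₀ hκ₀ hE hec

/-- **Frozen S44 from (F2).** -/
theorem s44_of_f2 (H : SupplyF2) (P : FreyPackage) {N : ℕ}
    (hcond : P.IsConductorLevel N) (hpN : P.p ∣ N)
    (hirr : WeierstrassCurve.Affine.Point.GaloisRepIsIrreducible (K := AlgebraicClosure ℚ) ℚ
      P.freyCurve P.p)
    (hmod : P.ModularRepOfLevel N) :
    ∃ M : ℕ, M ∣ N ∧ ¬ P.p ∣ M ∧ P.ModularRepOfLevel M :=
  s44_of_tropZeroD (tropZeroD_of_f2 H) P hcond hpN hirr hmod

/-! ### the per-node form of the supplier (helper31 `NRAsmSub.f2_of_nodes_sub`) -/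

/-- the binder list of `NRAsmSub.f2_of_nodes_sub` (with `trop := trop1FN`, `η := etaTrop`). -/
structure CoverSupplySub {W : WeierstrassCurve ℤ} {p : ℕ} [hpF : Fact p.Prime] {N : ℕ} [NeZero N]
    (h : ExactDvd p N) (C : Copy W p N) {A : ValuationSubring Kbar} {ζ : Kb}
    (T : TameDatum N p A ζ) {ι : Type} [Fintype ι]
    (P : ι → Place (ResidueField A) (FresBar N A)) : Type where
  /-- FIELD-MOD -/
  Wd : T.WData
  hvK : ∀ (c : fixedUnits (tameGroup A ζ) T.Fp) (c₀ : Kb),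
    ((c : T.Fpˣ) : T.Fp) = algebraMap Kb T.Fp c₀ →
      A.valuation c₀ = A.valuation (1 - ζ) ^ Wd.vK c
  /-- the per-node data -/
  as : ι → ZMod p
  bs : ι → ZMod p
  Us : ι → ZMod p → Subgroup (fixedUnits (tameGroup A ζ) T.Fp)
  hϖU : ∀ s j, piUnit T ∈ Us s j
  hUf : ∀ u : pDivUnits Kb (FK N) p,
    (Additive.ofMul (Kum.mk u) : Additive (Kum Kb (FK N) p)) ∈ C.Y0 →
    ∀ f : fixedUnits (tameGroup A ζ) T.Fp,
    (∃ g : T.Fp, g ≠ 0 ∧ ((f : T.Fpˣ) : T.Fp) =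
      1 * algebraMap (FK N) T.Fp (((u : (FK N)ˣ) : FK N)) * g ^ p) → ∀ s j, f ∈ Us s j
  n : ι → ZMod p → fixedUnits (tameGroup A ζ) T.Fp → ℤ
  hn_mul : ∀ s j y z, n s j (y * z) = n s j y + n s j z
  hn_const : ∀ s j (c : fixedUnits (tameGroup A ζ) T.Fp),
    ((c : T.Fpˣ) : T.Fp) ∈ T.C → n s j c = 0
  θ : fixedUnits (tameGroup A ζ) T.Fp
  hθU : ∀ s j, θ ∈ Us s j
  Tt : ℤ
  N0 : ι → ℤ
  hθ1 : ∀ s j, Wd.w₁ (j + as s) θ = 0
  hθ2 : ∀ s j, Wd.w₂ (j + bs s) θ = Tt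
  hθn : ∀ s j, n s j θ = N0 s
  hN0 : ∀ s, ((N0 s : ℤ) : ZMod p) ≠ 0
  hTt : ((Tt : ℤ) : ZMod p) ≠ 0
  NL : ∀ s j, ∀ u ∈ Us s j,
    Wd.w₁ (j + as s) u = 0 → Wd.w₂ (j + bs s) u = 0 → (p : ℤ) ∣ n s j u
  hn : ∀ u : pDivUnits Kb (FK N) p,
    (Additive.ofMul (Kum.mk u) : Additive (Kum Kb (FK N) p)) ∈ C.Y0 →
    ∀ f : fixedUnits (tameGroup A ζ) T.Fp,
    (∃ g : T.Fp, g ≠ 0 ∧ ((f : T.Fpˣ) : T.Fp) =
      1 * algebraMap (FK N) T.Fp (((u : (FK N)ˣ) : FK N)) * g ^ p) →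
    ∀ s j, ((n s j f : ℤ) : ZMod p) = trop1FN (q := p) N A P (Additive.ofMul (Kum.mk u)) s
  hη : ∀ s, etaTrop N A P h s = ((N0 s : ℤ) : ZMod p)

/-- **GF-KCOVER-INST in per-node form**: for SOME tame datum `T` of the SHAPE line (`ζ`, the Kummer
unit of the E-side and the `LineData` are provided), a `CoverSupplySub`. -/
def SupplyCoverSub : Prop :=
  ∀ (W : WeierstrassCurve ℤ) (_ : W.Δ ≠ 0) (p : ℕ) [Fact p.Prime] (_ : 5 ≤ p)
    (_ : W.IsSemistableModel) (_ : (p : ℤ) ∣ W.Δ)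
    (_ : (W.map (Int.castRingHom ℚ)).IsPeuRamifieeAt p p)
    (_ : W.ModRepIsIrreducible p)
    (_ : OrdAt W p)
    (M' : ℕ) [NeZero M'] (hpM' : ¬ p ∣ M')
    (_ : W.IsResiduallyModularOfLevel p (M' * p))
    (_ : ¬ W.IsResiduallyModularOfLevel p M')
    (C : Copy W p (M' * p))
    (_ : C.Y0 ≤ eigQ (M' * p) p (Sset W (M' * p) p) (hMS W (M' * p) p) (aW W))
    (ℓ₀ : ℕ) (_ : ℓ₀.Prime) (_ : ℓ₀ ∉ Sset W (M' * p) p)
    (_ : ((aW W ℓ₀ : ℤ) : ZMod p) ≠ ((ℓ₀ : ℕ) : ZMod p) + 1)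
    (A : ValuationSubring Kbar) (_ : A.LiesOverPrime p) (_ : A = padicPlace p)
    (ι : Type) [Fintype ι]
    (P Q : ι → Place (ResidueField A) (FresBar (M' * p) A)) (c : ℤ) (n₀ : ℕ)
    (_ : FrameFacts (M' * p) A (exactDvd hpM') P Q)
    (_ : NodalHyp (redCompatFN (M' * p) A (exactDvd hpM')) P Q (CS (M' * p) (exactDvd hpM'))
      (Dτ (M' * p) A p) (Dτ (M' * p) A p) (genusRR Kbar (FN (M' * p))) c n₀)
    (_ : clauseD p M' hpM' A ι P Q)
    (ζ : Kb) (_ : IsPrimitiveRoot ζ p) (_ : KummerUnit W p A ζ)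
    (D : LineData (gal (M' * p) p) (A.inertiaSubgroupIn ℚ) C.Y0
      (M0Kum (M' * p) A (exactDvd hpM') p) (fun σ => ((cyc p σ : (ZMod p)ˣ) : ZMod p))),
    ∃ (T : TameDatum (M' * p) p A ζ) (a : ZMod p), a ≠ 0 ∧
      (Additive.ofMul (Kum.mk T.g) : Additive (Kum Kb (FK (M' * p)) p)) = a • D.w₀ ∧
      (qEmb (M' * p) T.g₀).leadingCoeff = 1 ∧
      Nonempty (CoverSupplySub (exactDvd hpM') C T P)

/-- **(F2) from the per-node supplier.** -/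
theorem supplyF2_of_coverSub (H : SupplyCoverSub) : SupplyF2 := by
  intro W hΔ p _ hp5 hss hmult hpeu hirr hord M' _ hpM' hmod hnot C hC ℓ₀ hℓ₀ hℓ₀S hne A hA hAp
    ι _ P Q c n₀ FF NH hd
  obtain ⟨ζ, hζ⟩ := exists_primitiveRoot p
  have hKU : KummerUnit W p A ζ :=
    Fermat.Agent.GF.ETate.Plug.kummerUnit_of_semistable W hΔ p hp5 hss hmult hpeu hAp hζ
  obtain ⟨D⟩ := Fermat.Agent.GF.Top.LineDataP.exists_lineData_of_ordAt W hΔ p hp5 hirr hord M'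
    hpM' C A hA
  obtain ⟨T, a, ha, hg, hlc, ⟨S⟩⟩ := H W hΔ p hp5 hss hmult hpeu hirr hord M' hpM' hmod hnot C hC
    ℓ₀ hℓ₀ hℓ₀S hne A hA hAp ι P Q c n₀ FF NH hd ζ hζ hKU D
  exact Fermat.Agent.GF.F2Asm.NRAsmSub.f2_of_nodes_sub T S.Wd C hA hKU D a ha hg hlc S.hvK
    S.as S.bs S.Us S.hϖU S.hUf S.n S.hn_mul S.hn_const S.θ S.hθU S.Tt S.N0 S.hθ1 S.hθ2 S.hθn
    S.hN0 S.hTt S.NL (fun x => trop1FN (q := p) (M' * p) A P x) S.hn
    (etaTrop (M' * p) A P (exactDvd hpM')) S.hη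

/-- **Frozen S44 from the per-node supplier.** -/
theorem s44_of_coverSub (H : SupplyCoverSub) (P : FreyPackage) {N : ℕ}
    (hcond : P.IsConductorLevel N) (hpN : P.p ∣ N)
    (hirr : WeierstrassCurve.Affine.Point.GaloisRepIsIrreducible (K := AlgebraicClosure ℚ) ℚ
      P.freyCurve P.p)
    (hmod : P.ModularRepOfLevel N) :
    ∃ M : ℕ, M ∣ N ∧ ¬ P.p ∣ M ∧ P.ModularRepOfLevel M :=
  s44_of_f2 (supplyF2_of_coverSub H) P hcond hpN hirr hmod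

end Fermat.Agent.GF.Top.Integrate2
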