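/-
GATE-F / GF-INTEGRATOR, file 3 (helper61): the integration on helper77's frame clause
`GF/Eis/ClauseF.clauseF` = (d) + (e) + (f) `p ∤ ord_{P s} red₁(etaQ)` + (g) `≤ 12`
(`NodesOrd.exists_nodalHyp_ss_f`, binder-free for `5 ≤ p`): the (L-d) DOWNSTAIRS fields `N0`,
`hN0`, `hη` of the per-node supplier are DISCHARGED (`N0 s := ord_{P s} red₁(etaQ)`).

* `SupplyF2F` : **the ONE open Prop of S44** on the `clauseF` frames (body of `F2Hyp`);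
  `supplyF2F_of_supplyF2` (a proof on the `clauseD` frames plugs in);
* `tropZeroF_of_f2F`, **`s44_of_f2F : SupplyF2F → (frozen S44)`**;
* `CoverSupplyF` : the per-node supplier = binder list of helper31's `NRAsmSub.f2_of_nodes_sub`
  minus `N0 hN0 hη` (`hθn : n s j θ = ord_{P s} (Gred)`), `SupplyCoverF`,
  `supplyF2F_of_coverF`, **`s44_of_coverF : SupplyCoverF → (frozen S44)`**.
-/
import Mathlib
import Fermat.Agent.GF.Top.Integrate2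
import Fermat.Agent.GF.Eis.ClauseF

set_option autoImplicit false
set_option linter.unusedSectionVars false

noncomputable section

namespace Fermat.Agent.GF.Top.Integrate3

open AlgebraicCurve IntermediateField Module IsLocalRing ModularCurve
open Fermat.Agent.Common_helper32
open Fermat.Agent.S24 Fermat.Agent.S24_helper62 Fermat.Agent.RRh45 Fermat.Agent.RR
open Fermat.Agent.GJ.J1 Fermat.Agent.GJ.J1.Val Fermat.Agent.GJ.J1.InstGen
open Fermat.Agent.GK.MultiVal Fermat.Agent.GK.BallTwo Fermat.Agent.GK.NodalGraded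
open Fermat.Agent.GS.Nodal.LSR2 Fermat.Agent.GS.Nodal.Inst Fermat.Agent.GS.Nodal.ROfSurj2
open Fermat.Agent.GJ Fermat.Agent.GJ.KumGroup Fermat.Agent.GJ.Kum.KumType
open Fermat.Agent.GJ.CycChar
open Fermat.Agent.GK.UQ Fermat.Agent.GK.New Fermat.Agent.GK.AL Fermat.Agent.GK.UqKronecker
open Fermat.Agent.GK.CuspSep Fermat.Agent.GL.Eta
open Fermat.Agent.GB.A.A6.ECDet Fermat.Agent.GB.A.A6.EigQ
open Fermat.Agent.GF.Setup.Plane Fermat.Agent.GF.Setup.S0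
open Fermat.Agent.GF.Shape.Sub Fermat.Agent.GF.Shape.Plug Fermat.Agent.GF.Trop
open Fermat.Agent.GF.Peu Fermat.Agent.GF.ETate
open Fermat.Agent.GF.KCover Fermat.Agent.GF.F2Asm.Inst Fermat.Agent.GF.F2Asm.NRAsm
open Fermat.Agent.GF.Eis.Main Fermat.Agent.GF.Eis.ClauseF
open Fermat.Agent.GF.Top.Skeleton Fermat.Agent.GF.Top.S44TopOrd
open Fermat.Agent.GF.Top.Provider44T Fermat.Agent.GF.Top.Provider44D
open Fermat.Agent.GF.Top.Integrate Fermat.Agent.GF.Top.Integrate2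

attribute [local instance] finiteResidues_FN hasPrincipalDivisors_FN nonempty_place_FN
  isAlgClosed_res finiteResidues_Fres hasPrincipalDivisors_Fres nonempty_place_Fres

/-- **THE ONE OPEN PROP OF S44**, on helper77's `clauseF` frames. -/
def SupplyF2F : Prop :=
  ∀ (W : WeierstrassCurve ℤ) (_ : W.Δ ≠ 0) (p : ℕ) [Fact p.Prime] (_ : 5 ≤ p)
    (_ : W.IsSemistableModel) (_ : (p : ℤ) ∣ W.Δ)
    (_ : (W.map (Int.castRingHom ℚ)).IsPeuRamifieeAt p p)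
    (_ : W.ModRepIsIrreducible p)
    (_ : OrdAt W p)
    (M' : ℕ) [NeZero M'] (hpM' : ¬ p ∣ M')
    (_ : W.IsResiduallyModularOfLevel p (M' * p))
    (_ : ¬ W.IsResiduallyModularOfLevel p M')
    (C : Copy W p (M' * p))
    (_ : C.Y0 ≤ eigQ (M' * p) p (Sset W (M' * p) p) (hMS W (M' * p) p) (aW W))
    (ℓ₀ : ℕ) (_ : ℓ₀.Prime) (_ : ℓ₀ ∉ Sset W (M' * p) p)
    (_ : ((aW W ℓ₀ : ℤ) : ZMod p) ≠ ((ℓ₀ : ℕ) : ZMod p) + 1)
    (A : ValuationSubring Kbar) (_ : A.LiesOverPrime p) (_ : A = padicPlace p)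
    (ι : Type) [Fintype ι]
    (P Q : ι → Place (ResidueField A) (FresBar (M' * p) A)) (c : ℤ) (n₀ : ℕ)
    (_ : FrameFacts (M' * p) A (exactDvd hpM') P Q)
    (_ : NodalHyp (redCompatFN (M' * p) A (exactDvd hpM')) P Q (CS (M' * p) (exactDvd hpM'))
      (Dτ (M' * p) A p) (Dτ (M' * p) A p) (genusRR Kbar (FN (M' * p))) c n₀)
    (_ : clauseF p M' hpM' A ι P Q),
    ∃ (E : ι → ZMod p) (κ₀ : ZMod p), κ₀ ≠ 0 ∧
      (∀ s, E s * etaTrop (M' * p) A P (exactDvd hpM') s = κ₀) ∧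
      ∀ y ∈ C.Y0, EConst E (trop1FN (q := p) (M' * p) A P y)

theorem supplyF2F_of_supplyF2 (H : SupplyF2) : SupplyF2F :=
  fun W hΔ p _ hp5 hss hmult hpeu hirr hord M' _ hpM' hmod hnot C hC ℓ₀ hℓ₀ hℓ₀S hne A hA hAp
    ι _ P Q c n₀ FF NH hcl =>
    H W hΔ p hp5 hss hmult hpeu hirr hord M' hpM' hmod hnot C hC ℓ₀ hℓ₀ hℓ₀S hne A hA hAp
      ι P Q c n₀ FF NH hcl.1

/-- **`trop_zero` on the `clauseF` frames from (F2).** -/
theorem tropZeroF_of_f2F (H : SupplyF2F) : TropZeroT clauseF := by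
  intro W hΔ p _ hp5 hss hmult hpeu hirr hord M' _ hpM' hmod hnot C hC ℓ₀ hℓ₀ hℓ₀S hne A hA hAp
    ι _ P Q c n₀ FF NH hcl
  obtain ⟨E, κ₀, hκ₀, hE, hec⟩ := H W hΔ p hp5 hss hmult hpeu hirr hord M' hpM' hmod hnot C hC
    ℓ₀ hℓ₀ hℓ₀S hne A hA hAp ι P Q c n₀ FF NH hcl
  exact trop_zero_of_econst W hΔ p hp5 M' hpM' C hC ℓ₀ hℓ₀ hℓ₀S hne A hA ι P Q c n₀ FF NH hcl.1
    E κ₀ hκ₀ hE hec

/-- **Frozen S44 from (F2) on the `clauseF` frames.** -/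
theorem s44_of_f2F (H : SupplyF2F) (P : FreyPackage) {N : ℕ}
    (hcond : P.IsConductorLevel N) (hpN : P.p ∣ N)
    (hirr : WeierstrassCurve.Affine.Point.GaloisRepIsIrreducible (K := AlgebraicClosure ℚ) ℚ
      P.freyCurve P.p)
    (hmod : P.ModularRepOfLevel N) :
    ∃ M : ℕ, M ∣ N ∧ ¬ P.p ∣ M ∧ P.ModularRepOfLevel M :=
  s44_of_tropZeroF (tropZeroF_of_f2F H) P hcond hpN hirr hmod

/-! ### the per-node supplier with (L-d) downstairs discharged -/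

/-- `etaTrop s = ord_{P s} (red₁ etaQ) mod p` -/
theorem etaTrop_eq {p : ℕ} [Fact p.Prime] [NeZero p] (N : ℕ) [NeZero N]
    (A : ValuationSubring Kbar) {ι : Type} [Fintype ι]
    (P : ι → Place (ResidueField A) (FresBar N A)) (h : ExactDvd p N) (s : ι) :
    etaTrop N A P h s = (((P s).ord (Gred N A h) : ℤ) : ZMod p) := by
  unfold etaTrop
  rw [ordRed_etaQ N A h (P s)]

/-- the binder list of `NRAsmSub.f2_of_nodes_sub` with `N0 s := ord_{P s} (red₁ etaQ)`. -/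
structure CoverSupplyF {W : WeierstrassCurve ℤ} {p : ℕ} [hpF : Fact p.Prime] [NeZero p] {N : ℕ}
    [NeZero N] (h : ExactDvd p N) (C : Copy W p N) {A : ValuationSubring Kbar} {ζ : Kb}
    (T : TameDatum N p A ζ) {ι : Type} [Fintype ι]
    (P : ι → Place (ResidueField A) (FresBar N A)) : Type where
  /-- FIELD-MOD -/
  Wd : T.WData
  hvK : ∀ (c : fixedUnits (tameGroup A ζ) T.Fp) (c₀ : Kb),
    ((c : T.Fpˣ) : T.Fp) = algebraMap Kb T.Fp c₀ →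
      A.valuation c₀ = A.valuation (1 - ζ) ^ Wd.vK c
  /-- the per-node data -/
  as : ι → ZMod p
  bs : ι → ZMod p
  Us : ι → ZMod p → Subgroup (fixedUnits (tameGroup A ζ) T.Fp)
  hϖU : ∀ s j, piUnit T ∈ Us s j
  hUf : ∀ u : pDivUnits Kb (FK N) p,
    (Additive.ofMul (Kum.mk u) : Additive (Kum Kb (FK N) p)) ∈ C.Y0 →
    ∀ f : fixedUnits (tameGroup A ζ) T.Fp,
    (∃ g : T.Fp, g ≠ 0 ∧ ((f : T.Fpˣ) : T.Fp) =
      1 * algebraMap (FK N) T.Fp (((u : (FK N)ˣ) : FK N)) * g ^ p) → ∀ s j, f ∈ Us s j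
  n : ι → ZMod p → fixedUnits (tameGroup A ζ) T.Fp → ℤ
  hn_mul : ∀ s j y z, n s j (y * z) = n s j y + n s j z
  hn_const : ∀ s j (c : fixedUnits (tameGroup A ζ) T.Fp),
    ((c : T.Fpˣ) : T.Fp) ∈ T.C → n s j c = 0
  θ : fixedUnits (tameGroup A ζ) T.Fp
  hθU : ∀ s j, θ ∈ Us s j
  Tt : ℤ
  hθ1 : ∀ s j, Wd.w₁ (j + as s) θ = 0
  hθ2 : ∀ s j, Wd.w₂ (j + bs s) θ = Tt
  hθn : ∀ s j, n s j θ = (P s).ord (Gred N A h)
  hTt : ((Tt : ℤ) : ZMod p) ≠ 0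
  NL : ∀ s j, ∀ u ∈ Us s j,
    Wd.w₁ (j + as s) u = 0 → Wd.w₂ (j + bs s) u = 0 → (p : ℤ) ∣ n s j u
  hn : ∀ u : pDivUnits Kb (FK N) p,
    (Additive.ofMul (Kum.mk u) : Additive (Kum Kb (FK N) p)) ∈ C.Y0 →
    ∀ f : fixedUnits (tameGroup A ζ) T.Fp,
    (∃ g : T.Fp, g ≠ 0 ∧ ((f : T.Fpˣ) : T.Fp) =
      1 * algebraMap (FK N) T.Fp (((u : (FK N)ˣ) : FK N)) * g ^ p) →
    ∀ s j, ((n s j f : ℤ) : ZMod p) = trop1FN (q := p) N A P (Additive.ofMul (Kum.mk u)) s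

/-- **GF-KCOVER-INST in per-node form on the `clauseF` frames**: for SOME tame datum `T` of the
SHAPE line (`ζ`, the Kummer unit of the E-side and the `LineData` are provided), a
`CoverSupplyF`. -/
def SupplyCoverF : Prop :=
  ∀ (W : WeierstrassCurve ℤ) (_ : W.Δ ≠ 0) (p : ℕ) [Fact p.Prime] [NeZero p] (_ : 5 ≤ p)
    (_ : W.IsSemistableModel) (_ : (p : ℤ) ∣ W.Δ)
    (_ : (W.map (Int.castRingHom ℚ)).IsPeuRamifieeAt p p)
    (_ : W.ModRepIsIrreducible p)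
    (_ : OrdAt W p)
    (M' : ℕ) [NeZero M'] (hpM' : ¬ p ∣ M')
    (_ : W.IsResiduallyModularOfLevel p (M' * p))
    (_ : ¬ W.IsResiduallyModularOfLevel p M')
    (C : Copy W p (M' * p))
    (_ : C.Y0 ≤ eigQ (M' * p) p (Sset W (M' * p) p) (hMS W (M' * p) p) (aW W))
    (ℓ₀ : ℕ) (_ : ℓ₀.Prime) (_ : ℓ₀ ∉ Sset W (M' * p) p)
    (_ : ((aW W ℓ₀ : ℤ) : ZMod p) ≠ ((ℓ₀ : ℕ) : ZMod p) + 1)
    (A : ValuationSubring Kbar) (_ : A.LiesOverPrime p) (_ : A = padicPlace p)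
    (ι : Type) [Fintype ι]
    (P Q : ι → Place (ResidueField A) (FresBar (M' * p) A)) (c : ℤ) (n₀ : ℕ)
    (_ : FrameFacts (M' * p) A (exactDvd hpM') P Q)
    (_ : NodalHyp (redCompatFN (M' * p) A (exactDvd hpM')) P Q (CS (M' * p) (exactDvd hpM'))
      (Dτ (M' * p) A p) (Dτ (M' * p) A p) (genusRR Kbar (FN (M' * p))) c n₀)
    (_ : clauseF p M' hpM' A ι P Q)
    (ζ : Kb) (_ : IsPrimitiveRoot ζ p) (_ : KummerUnit W p A ζ)
    (D : LineData (gal (M' * p) p) (A.inertiaSubgroupIn ℚ) C.Y0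
      (M0Kum (M' * p) A (exactDvd hpM') p) (fun σ => ((cyc p σ : (ZMod p)ˣ) : ZMod p))),
    ∃ (T : TameDatum (M' * p) p A ζ) (a : ZMod p), a ≠ 0 ∧
      (Additive.ofMul (Kum.mk T.g) : Additive (Kum Kb (FK (M' * p)) p)) = a • D.w₀ ∧
      (qEmb (M' * p) T.g₀).leadingCoeff = 1 ∧
      Nonempty (CoverSupplyF (exactDvd hpM') C T P)

/-- **(F2) on the `clauseF` frames from the per-node supplier.** -/
theorem supplyF2F_of_coverF (H : SupplyCoverF) : SupplyF2F := by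
  intro W hΔ p _ hp5 hss hmult hpeu hirr hord M' _ hpM' hmod hnot C hC ℓ₀ hℓ₀ hℓ₀S hne A hA hAp
    ι _ P Q c n₀ FF NH hcl
  have : NeZero p := ⟨(Fact.out : p.Prime).ne_zero⟩
  obtain ⟨ζ, hζ⟩ := exists_primitiveRoot p
  have hKU : KummerUnit W p A ζ :=
    Fermat.Agent.GF.ETate.Plug.kummerUnit_of_semistable W hΔ p hp5 hss hmult hpeu hAp hζ
  obtain ⟨D⟩ := Fermat.Agent.GF.Top.LineDataP.exists_lineData_of_ordAt W hΔ p hp5 hirr hord M'
    hpM' C A hA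
  obtain ⟨T, a, ha, hg, hlc, ⟨S⟩⟩ := H W hΔ p hp5 hss hmult hpeu hirr hord M' hpM' hmod hnot C hC
    ℓ₀ hℓ₀ hℓ₀S hne A hA hAp ι P Q c n₀ FF NH hcl ζ hζ hKU D
  refine Fermat.Agent.GF.F2Asm.NRAsmSub.f2_of_nodes_sub T S.Wd C hA hKU D a ha hg hlc S.hvK
    S.as S.bs S.Us S.hϖU S.hUf S.n S.hn_mul S.hn_const S.θ S.hθU S.Tt
    (fun s => (P s).ord (Gred (M' * p) A (exactDvd hpM'))) S.hθ1 S.hθ2 S.hθn
    (fun s => ?_) S.hTt S.NL (fun x => trop1FN (q := p) (M' * p) A P x) S.hn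
    (etaTrop (M' * p) A P (exactDvd hpM')) (fun s => etaTrop_eq (M' * p) A P (exactDvd hpM') s)
  rw [Ne, ZMod.intCast_zmod_eq_zero_iff_dvd]
  exact hcl.2.1 s

/-- **Frozen S44 from the per-node supplier on the `clauseF` frames.** -/
theorem s44_of_coverF (H : SupplyCoverF) (P : FreyPackage) {N : ℕ}
    (hcond : P.IsConductorLevel N) (hpN : P.p ∣ N)
    (hirr : WeierstrassCurve.Affine.Point.GaloisRepIsIrreducible (K := AlgebraicClosure ℚ) ℚ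
      P.freyCurve P.p)
    (hmod : P.ModularRepOfLevel N) :
    ∃ M : ℕ, M ∣ N ∧ ¬ P.p ∣ M ∧ P.ModularRepOfLevel M :=
  s44_of_f2F (supplyF2F_of_coverF H) P hcond hpN hirr hmod

end Fermat.Agent.GF.Top.Integrate3
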