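/-
GATE-F / GF-INTEGRATOR, file 4 (helper61): **frozen S44 from helper62's ONE remaining supplier
`F2PlugK.NLSupplyK`** (RULING-8 target of record), on helper77's frame clause `ClauseF.clauseF`
(= (d) + (e) + (f) + (g)) and on helper65's `Provider44D.clauseD` (= (d) + (e), with (f) supplied
as a hypothesis).

* `hDd_clauseF`, `hDf_clauseF` : the two clause consequences `hDd hDf` of
  `F2PlugK.tropZeroT_of_partsK` for `Dcl := clauseF`;
* `tropZeroF_of_nlSupplyK : NLSupplyK clauseF → TropZeroT clauseF`;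
* **`s44_of_nlSupplyK : NLSupplyK clauseF → (frozen S44)`**;
* **`s44_of_nodeSupplyK : NodeSupplyK clauseF → (frozen S44)`** (if the assembler lands the
  un-split supplier instead).

So `Fermat/Agent/S44.lean` is `s44_of_nlSupplyK <the NL supplier theorem>` verbatim.
-/
import Mathlib
import Fermat.Agent.GF.F2Asm.F2PlugK
import Fermat.Agent.GF.Eis.ClauseF

set_option autoImplicit false
set_option linter.unusedSectionVars false
set_option linter.unusedVariables false

noncomputable section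

namespace Fermat.Agent.GF.Top.Integrate4

open AlgebraicCurve IntermediateField Module IsLocalRing ModularCurve
open Fermat.Agent.Common_helper32
open Fermat.Agent.S24 Fermat.Agent.S24_helper62 Fermat.Agent.RRh45 Fermat.Agent.RR
open Fermat.Agent.GJ.J1 Fermat.Agent.GJ.J1.Val Fermat.Agent.GJ.J1.InstGen
open Fermat.Agent.GK.MultiVal Fermat.Agent.GK.BallTwo Fermat.Agent.GK.NodalGraded
open Fermat.Agent.GS.Nodal.LSR2 Fermat.Agent.GS.Nodal.Inst Fermat.Agent.GS.Nodal.ROfSurj2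
open Fermat.Agent.GJ Fermat.Agent.GJ.KumGroup Fermat.Agent.GJ.Kum.KumType
open Fermat.Agent.GJ.CycChar
open Fermat.Agent.GK.UQ Fermat.Agent.GK.New Fermat.Agent.GK.AL Fermat.Agent.GK.UqKronecker
open Fermat.Agent.GK.CuspSep Fermat.Agent.GL.Eta
open Fermat.Agent.GB.A.A6.ECDet Fermat.Agent.GB.A.A6.EigQ
open Fermat.Agent.GF.Setup.Plane Fermat.Agent.GF.Setup.S0
open Fermat.Agent.GF.Shape.Sub Fermat.Agent.GF.Shape.Plug Fermat.Agent.GF.Trop
open Fermat.Agent.GF.Peu Fermat.Agent.GF.ETate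
open Fermat.Agent.GF.KCover Fermat.Agent.GF.F2Asm.Inst Fermat.Agent.GF.F2Asm.NRAsm
open Fermat.Agent.GF.Eis.ClauseF
open Fermat.Agent.GF.Top.S44TopOrd
open Fermat.Agent.GF.Top.Provider44T Fermat.Agent.GF.Top.Provider44D
open Fermat.Agent.GF.F2Asm.F2PlugK

attribute [local instance] finiteResidues_FN hasPrincipalDivisors_FN nonempty_place_FN
  isAlgClosed_res finiteResidues_Fres hasPrincipalDivisors_Fres nonempty_place_Fres

/-- clause (d) of `clauseF` in the shape of the `hDd` binder of `tropZeroT_of_partsK`. -/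
theorem hDd_clauseF (p : ℕ) [Fact p.Prime] (M' : ℕ) [NeZero M'] (hpM' : ¬ p ∣ M')
    (A : ValuationSubring Kbar) (ι : Type) [Fintype ι]
    (P Q : ι → Place (ResidueField A) (FresBar (M' * p) A))
    (hcl : clauseF p M' hpM' A ι P Q)
    (Q' : Place (ResidueField A) (FresBar (M' * p) A)) (h0 : 0 ≤ Q'.ord (tauF (M' * p) A))
    (hne : ∀ s, Q' ≠ P s) :
    Q'.ord ((redDataBar (M' * p) A).red
      ⟨etaQ (M' * p) p (exactDvd hpM').dvd,
        etaQ_mem_Rw1 (M' * p) A p (exactDvd hpM').dvd⟩) = 0 :=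
  hcl.1.1 Q' h0 hne

/-- clause (f) of `clauseF` in the shape of the `hDf` binder of `tropZeroT_of_partsK`. -/
theorem hDf_clauseF (p : ℕ) [Fact p.Prime] (M' : ℕ) [NeZero M'] (hpM' : ¬ p ∣ M')
    (A : ValuationSubring Kbar) (ι : Type) [Fintype ι]
    (P Q : ι → Place (ResidueField A) (FresBar (M' * p) A))
    (hcl : clauseF p M' hpM' A ι P Q) (s : ι) :
    ¬ (p : ℤ) ∣ (P s).ord ((redDataBar (M' * p) A).red
      ⟨etaQ (M' * p) p (exactDvd hpM').dvd,
        etaQ_mem_Rw1 (M' * p) A p (exactDvd hpM').dvd⟩) :=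
  hcl.2.1 s

/-- `trop_zero` on the `clauseF` frames from helper62's un-split supplier `NodeSupplyK`. -/
theorem tropZeroF_of_nodeSupplyK (H : NodeSupplyK clauseF) : TropZeroT clauseF :=
  tropZeroT_of_nodeSupplyK clauseF
    (fun p _ M' _ hpM' A ι _ P Q hcl => hDd_clauseF p M' hpM' A ι P Q hcl)
    (fun p _ _ M' _ hpM' A _ ι _ P Q _ _ _ _ hcl => hDf_clauseF p M' hpM' A ι P Q hcl) H

/-- `trop_zero` on the `clauseF` frames from the ONE remaining supplier `NLSupplyK`. -/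
theorem tropZeroF_of_nlSupplyK (H : NLSupplyK clauseF) : TropZeroT clauseF :=
  tropZeroT_of_partsK clauseF
    (fun p _ M' _ hpM' A ι _ P Q hcl => hDd_clauseF p M' hpM' A ι P Q hcl)
    (fun p _ _ M' _ hpM' A _ ι _ P Q _ _ _ _ hcl => hDf_clauseF p M' hpM' A ι P Q hcl) H

/-- **Frozen S44 from `NodeSupplyK clauseF`.** -/
theorem s44_of_nodeSupplyK (H : NodeSupplyK clauseF) (P : FreyPackage) {N : ℕ}
    (hcond : P.IsConductorLevel N) (hpN : P.p ∣ N)
    (hirr : WeierstrassCurve.Affine.Point.GaloisRepIsIrreducible (K := AlgebraicClosure ℚ) ℚ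
      P.freyCurve P.p)
    (hmod : P.ModularRepOfLevel N) :
    ∃ M : ℕ, M ∣ N ∧ ¬ P.p ∣ M ∧ P.ModularRepOfLevel M :=
  s44_of_tropZeroF (tropZeroF_of_nodeSupplyK H) P hcond hpN hirr hmod

/-- **Frozen S44 from `NLSupplyK clauseF`** — the ONE remaining supplier of GATE-F. -/
theorem s44_of_nlSupplyK (H : NLSupplyK clauseF) (P : FreyPackage) {N : ℕ}
    (hcond : P.IsConductorLevel N) (hpN : P.p ∣ N)
    (hirr : WeierstrassCurve.Affine.Point.GaloisRepIsIrreducible (K := AlgebraicClosure ℚ) ℚ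
      P.freyCurve P.p)
    (hmod : P.ModularRepOfLevel N) :
    ∃ M : ℕ, M ∣ N ∧ ¬ P.p ∣ M ∧ P.ModularRepOfLevel M :=
  s44_of_tropZeroF (tropZeroF_of_nlSupplyK H) P hcond hpN hirr hmod

/-- an `NLSupplyK` on the `clauseD` frames is one on the `clauseF` frames. -/
theorem nlSupplyK_F_of_D (H : NLSupplyK clauseD) : NLSupplyK clauseF := by
  intro W hΔ p _ hp5 hss hmult hpeu hirr hord M' _ hpM' hnot C hC A hA hAp ι _ P Q c n₀ FF NH hd
  exact H W hΔ p hp5 hss hmult hpeu hirr hord M' hpM' hnot C hC A hA hAp ι P Q c n₀ FF NH hd.1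

/-- **Frozen S44 from `NLSupplyK clauseD`.** -/
theorem s44_of_nlSupplyK_D (H : NLSupplyK clauseD) (P : FreyPackage) {N : ℕ}
    (hcond : P.IsConductorLevel N) (hpN : P.p ∣ N)
    (hirr : WeierstrassCurve.Affine.Point.GaloisRepIsIrreducible (K := AlgebraicClosure ℚ) ℚ
      P.freyCurve P.p)
    (hmod : P.ModularRepOfLevel N) :
    ∃ M : ℕ, M ∣ N ∧ ¬ P.p ∣ M ∧ P.ModularRepOfLevel M :=
  s44_of_nlSupplyK (nlSupplyK_F_of_D H) P hcond hpN hirr hmod

end Fermat.Agent.GF.Top.Integrate4
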