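/-
GATE-F / GF-INTEGRATOR, file 5 (helper61): **helper62's `F2PlugK.NLSupplyK` from helper47's
`AuxTop.NLAll`** — the ONE remaining supplier of S44 in the shape produced by the AUX-4N descent.

* `NLAllSupplyK Dcl`     : `∀ [ctx of F2PlugK.DeepSupplyK], NLAll T (exactDvd hpM')`
  (the node lemma at ALL finite places of level `M' * p` for the datum `T` of the context);
* `NLAllFourSupplyK Dcl` : `∀ [ctx], NLAll (upFour T hp5) _` (the same at the level `M' * p * 2 * 2`,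
  where every node ring has thickness one);
* `nlSupplyK_of_nlAll : NLAllSupplyK Dcl → NLSupplyK Dcl`
  (`R1 i := sheetT T (redDataBar _ A) _ hD₁ (harch₁ T hA) hγ₁ i`, `hun1 := unram_sheetK`,
  `hext := redExt_sheetK`, the nodes `P s` are finite places by `Eis/Final.hoff_of_frameFacts`);
* `nlAllSupplyK_of_four : NLAllFourSupplyK Dcl → NLAllSupplyK Dcl`
  (`AuxTop.nlAll_of_four_of_deepRep` + `F2PlugK.deepSupplyK`);
* **`s44_of_nlAll`, `s44_of_nlAllFour`** : frozen S44 from either, on `ClauseF.clauseF`.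
-/
import Mathlib
import Fermat.Agent.GF.Top.Integrate4
import Fermat.Agent.GF.KCover.AuxLevel.AuxTop

set_option autoImplicit false
set_option linter.unusedSectionVars false
set_option linter.unusedVariables false

noncomputable section

namespace Fermat.Agent.GF.Top.Integrate5

open AlgebraicCurve IntermediateField Module IsLocalRing ModularCurve
open Fermat.Agent.Common_helper32
open Fermat.Agent.S24 Fermat.Agent.S24_helper62 Fermat.Agent.RRh45 Fermat.Agent.RR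
open Fermat.Agent.GJ.J1 Fermat.Agent.GJ.J1.Val Fermat.Agent.GJ.J1.InstGen
open Fermat.Agent.GK.MultiVal Fermat.Agent.GK.BallTwo Fermat.Agent.GK.NodalGraded
open Fermat.Agent.GS.Nodal.LSR2 Fermat.Agent.GS.Nodal.Inst Fermat.Agent.GS.Nodal.ROfSurj2
open Fermat.Agent.GJ Fermat.Agent.GJ.KumGroup Fermat.Agent.GJ.Kum.KumType
open Fermat.Agent.GJ.CycChar Fermat.Agent.GB.A.A6.ECDet
open Fermat.Agent.GK.UQ Fermat.Agent.GK.New Fermat.Agent.GK.AL Fermat.Agent.GK.UqKronecker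
open Fermat.Agent.GK.SS
open Fermat.Agent.GL.Eta Fermat.Agent.GK.CuspSep
open Fermat.Agent.GB.A.A6.EigQ
open Fermat.Agent.GF.Setup.Plane Fermat.Agent.GF.Setup.S0 Fermat.Agent.GF.Shape.Sub
open Fermat.Agent.GF.Shape.Plug Fermat.Agent.GF.Trop Fermat.Agent.GF.Peu Fermat.Agent.GF.ETate
open Fermat.Agent.GF.Top.S44TopOrd
open Fermat.Agent.GF.Top.Provider44T Fermat.Agent.GF.Top.Provider44D
open Fermat.Agent.GF.KCover Fermat.Agent.GF.F2Asm.Inst Fermat.Agent.GF.F2Asm.NRAsm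
open Fermat.Agent.GF.F2Asm.OmegaProj
open Fermat.Agent.GF.F2Asm.UsInst Fermat.Agent.GF.F2Asm.EtaUnit Fermat.Agent.GF.F2Asm.EtaUnitW
open Fermat.Agent.GF.KCover.Field Fermat.Agent.GF.KCover.Field.Disc
open Fermat.Agent.GF.KCover.Field.WDataOf Fermat.Agent.GF.KCover.Node.OrdRedExt
open Fermat.Agent.GF.KCover.Field.WDataFinal Fermat.Agent.GF.F2Asm.F2Plug
open Fermat.Agent.GF.F2Asm.F2PlugK Fermat.Agent.GF.Eis.ClauseF
open Fermat.Agent.GF.KCover.Compl Fermat.Agent.GF.KCover.Compl.RedCompl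
open Fermat.Agent.GF.KCover.Compl.Bridge
open Fermat.Agent.GF.KCover.AuxLevel Fermat.Agent.GF.KCover.AuxLevel.TameUp
open Fermat.Agent.GB.A.Desc Fermat.Agent.GB.A.FP

attribute [local instance] finiteResidues_FN hasPrincipalDivisors_FN nonempty_place_FN
  isAlgClosed_res finiteResidues_Fres hasPrincipalDivisors_Fres nonempty_place_Fres

/-- **the ONE remaining supplier, in helper47's `NLAll` shape at the level `M' * p`.** -/
def NLAllSupplyK (Dcl : FrameClause) : Prop :=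
  ∀ (W : WeierstrassCurve ℤ) (_ : W.Δ ≠ 0) (p : ℕ) [Fact p.Prime] (_ : 5 ≤ p)
    (_ : W.IsSemistableModel) (_ : (p : ℤ) ∣ W.Δ)
    (_ : (W.map (Int.castRingHom ℚ)).IsPeuRamifieeAt p p)
    (_ : W.ModRepIsIrreducible p)
    (_ : OrdAt W p)
    (M' : ℕ) [NeZero M'] (hpM' : ¬ p ∣ M')
    (_ : ¬ W.IsResiduallyModularOfLevel p M')
    (C : Copy W p (M' * p))
    (_ : C.Y0 ≤ eigQ (M' * p) p (Sset W (M' * p) p) (hMS W (M' * p) p) (aW W))
    (A : ValuationSubring Kbar) (hA : A.LiesOverPrime p) (_ : A = padicPlace p)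
    (ι : Type) [Fintype ι]
    (P Q : ι → Place (ResidueField A) (FresBar (M' * p) A)) (c : ℤ) (n₀ : ℕ)
    (_ : FrameFacts (M' * p) A (exactDvd hpM') P Q)
    (_ : NodalHyp (redCompatFN (M' * p) A (exactDvd hpM')) P Q (CS (M' * p) (exactDvd hpM'))
      (Dτ (M' * p) A p) (Dτ (M' * p) A p) (genusRR Kbar (FN (M' * p))) c n₀)
    (_ : Dcl p M' hpM' A ι P Q)
    (ζ : Kb) (_ : KummerUnit W p A ζ)
    (D : LineData (gal (M' * p) p) (A.inertiaSubgroupIn ℚ) C.Y0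
      (M0Kum (M' * p) A (exactDvd hpM') p) (fun σ => ((cyc p σ : (ZMod p)ˣ) : ZMod p)))
    (T : TameDatum (M' * p) p A ζ)
    (_ : (Additive.ofMul (Kum.mk T.g) : Additive (Kum Kb (FK (M' * p)) p)) =
      (-1 : ZMod p) • D.w₀)
    (_ : (qEmb (M' * p) T.g₀).leadingCoeff = 1)
    (_ : ∀ σ ∈ A.inertiaSubgroupIn ℚ, ∃ h : FK (M' * p), h ≠ 0 ∧
        (∀ τ ∈ A.inertiaSubgroupIn ℚ, cyc p τ = 1 →
          arithmeticRingAut (modularFunctionFieldFull (M' * p)) τ h = h) ∧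
        arithmeticRingAut (modularFunctionFieldFull (M' * p)) σ T.g₀ =
          T.g₀ ^ rep (cyc p σ) * h ^ p),
    NLAll T (exactDvd hpM')

/-- `p ≠ 2` from `5 ≤ p`. -/
theorem ne_two_of_five_le {p : ℕ} (hp5 : 5 ≤ p) : p ≠ 2 := by omega

/-- **the ONE remaining supplier at the level `M' * p * 2 * 2`** (`nuTwo = nuThree = 0`: every
node ring has thickness one). -/
def NLAllFourSupplyK (Dcl : FrameClause) : Prop :=
  ∀ (W : WeierstrassCurve ℤ) (_ : W.Δ ≠ 0) (p : ℕ) [Fact p.Prime] (hp5 : 5 ≤ p)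
    (_ : W.IsSemistableModel) (_ : (p : ℤ) ∣ W.Δ)
    (_ : (W.map (Int.castRingHom ℚ)).IsPeuRamifieeAt p p)
    (_ : W.ModRepIsIrreducible p)
    (_ : OrdAt W p)
    (M' : ℕ) [NeZero M'] (hpM' : ¬ p ∣ M')
    (_ : ¬ W.IsResiduallyModularOfLevel p M')
    (C : Copy W p (M' * p))
    (_ : C.Y0 ≤ eigQ (M' * p) p (Sset W (M' * p) p) (hMS W (M' * p) p) (aW W))
    (A : ValuationSubring Kbar) (hA : A.LiesOverPrime p) (_ : A = padicPlace p)
    (ι : Type) [Fintype ι]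
    (P Q : ι → Place (ResidueField A) (FresBar (M' * p) A)) (c : ℤ) (n₀ : ℕ)
    (_ : FrameFacts (M' * p) A (exactDvd hpM') P Q)
    (_ : NodalHyp (redCompatFN (M' * p) A (exactDvd hpM')) P Q (CS (M' * p) (exactDvd hpM'))
      (Dτ (M' * p) A p) (Dτ (M' * p) A p) (genusRR Kbar (FN (M' * p))) c n₀)
    (_ : Dcl p M' hpM' A ι P Q)
    (ζ : Kb) (_ : KummerUnit W p A ζ)
    (D : LineData (gal (M' * p) p) (A.inertiaSubgroupIn ℚ) C.Y0
      (M0Kum (M' * p) A (exactDvd hpM') p) (fun σ => ((cyc p σ : (ZMod p)ˣ) : ZMod p)))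
    (T : TameDatum (M' * p) p A ζ)
    (_ : (Additive.ofMul (Kum.mk T.g) : Additive (Kum Kb (FK (M' * p)) p)) =
      (-1 : ZMod p) • D.w₀)
    (_ : (qEmb (M' * p) T.g₀).leadingCoeff = 1)
    (_ : ∀ σ ∈ A.inertiaSubgroupIn ℚ, ∃ h : FK (M' * p), h ≠ 0 ∧
        (∀ τ ∈ A.inertiaSubgroupIn ℚ, cyc p τ = 1 →
          arithmeticRingAut (modularFunctionFieldFull (M' * p)) τ h = h) ∧
        arithmeticRingAut (modularFunctionFieldFull (M' * p)) σ T.g₀ =
          T.g₀ ^ rep (cyc p σ) * h ^ p),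
    NLAll (upFour T hp5)
      (exactDvd_mul_two (exactDvd_mul_two (exactDvd hpM') (ne_two_of_five_le hp5))
        (ne_two_of_five_le hp5))

/-- **`NLSupplyK` from `NLAll` at the level `M' * p`.** -/
theorem nlSupplyK_of_nlAll (Dcl : FrameClause) (H : NLAllSupplyK Dcl) : NLSupplyK Dcl := by
  intro W hΔ p _ hp5 hss hmult hpeu hirr hord M' _ hpM' hnot C hC A hA hAp ι _ P Q c n₀ FF NH hd ζ
    hKU D T hg hlc hσ hD₁ hD₂ γ₁ γ₂ hγ₁ hγ₂
  have hpP : p.Prime := Fact.out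
  have : NeZero p := ⟨hpP.ne_zero⟩
  have hall := H W hΔ p hp5 hss hmult hpeu hirr hord M' hpM' hnot C hC A hA hAp ι P Q c n₀ FF NH hd
    ζ hKU D T hg hlc hσ
  have hunB : Unram (redDataBar (M' * p) A) := (galVal1 (M' * p) A).unram
  refine ⟨fun i => TameUpData.sheetT T (redDataBar (M' * p) A) (fun _ => rfl) hD₁ (harch₁ T hA) hγ₁
      i, fun i => unram_sheetK _ _ _ _ _ _ _ _ hunB i, fun i => redExt_sheetK _ _ _ _ _ _ _ _ i,
    fun s => ?_⟩
  have hPs : Fermat.Agent.GK.QS.jt (M' * p) A ∈ (P s).toValuationSubring :=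
    (Fermat.Agent.GJ.J1.PlaceLattice.ord_nonneg_iff_mem (P s) _).1
      (Fermat.Agent.GF.Eis.Final.hoff_of_frameFacts M' A (exactDvd hpM') FF s)
  obtain ⟨a, b, Hab⟩ := hall hD₁ hD₂ (harch₁ T hA) γ₁ hγ₁ γ₂ hγ₂ (P s) hPs
  exact ⟨a, b, fun j y hy h1 h2 => Hab j _ y hy h1 h2⟩

/-- **`NLAll` at the level `M' * p` from `NLAll` at the level `M' * p * 2 * 2`.** -/
theorem nlAllSupplyK_of_four (Dcl : FrameClause) (H : NLAllFourSupplyK Dcl) :
    NLAllSupplyK Dcl := by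
  intro W hΔ p _ hp5 hss hmult hpeu hirr hord M' _ hpM' hnot C hC A hA hAp ι _ P Q c n₀ FF NH hd ζ
    hKU D T hg hlc hσ
  obtain ⟨h1, h2⟩ := deepSupplyK Dcl W hΔ p hp5 hss hmult hpeu hirr hord M' hpM' hnot C hC A hA hAp
    ι P Q c n₀ FF NH hd ζ hKU D T hg hlc hσ
  exact nlAll_of_four_of_deepRep T hp5 (exactDvd hpM') hA hA h1 h2
    (H W hΔ p hp5 hss hmult hpeu hirr hord M' hpM' hnot C hC A hA hAp ι P Q c n₀ FF NH hd ζ hKU D T
      hg hlc hσ)

/-- `NLSupplyK` from `NLAll` at the level `M' * p * 2 * 2`. -/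
theorem nlSupplyK_of_nlAllFour (Dcl : FrameClause) (H : NLAllFourSupplyK Dcl) : NLSupplyK Dcl :=
  nlSupplyK_of_nlAll Dcl (nlAllSupplyK_of_four Dcl H)

/-- **Frozen S44 from `NLAll` at the level `M' * p`** (on helper77's `clauseF` frames). -/
theorem s44_of_nlAll (H : NLAllSupplyK clauseF) (P : FreyPackage) {N : ℕ}
    (hcond : P.IsConductorLevel N) (hpN : P.p ∣ N)
    (hirr : WeierstrassCurve.Affine.Point.GaloisRepIsIrreducible (K := AlgebraicClosure ℚ) ℚ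
      P.freyCurve P.p)
    (hmod : P.ModularRepOfLevel N) :
    ∃ M : ℕ, M ∣ N ∧ ¬ P.p ∣ M ∧ P.ModularRepOfLevel M :=
  Fermat.Agent.GF.Top.Integrate4.s44_of_nlSupplyK (nlSupplyK_of_nlAll clauseF H) P hcond hpN hirr
    hmod

/-- **Frozen S44 from `NLAll` at the level `M' * p * 2 * 2`** (on helper77's `clauseF` frames). -/
theorem s44_of_nlAllFour (H : NLAllFourSupplyK clauseF) (P : FreyPackage) {N : ℕ}
    (hcond : P.IsConductorLevel N) (hpN : P.p ∣ N)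
    (hirr : WeierstrassCurve.Affine.Point.GaloisRepIsIrreducible (K := AlgebraicClosure ℚ) ℚ
      P.freyCurve P.p)
    (hmod : P.ModularRepOfLevel N) :
    ∃ M : ℕ, M ∣ N ∧ ¬ P.p ∣ M ∧ P.ModularRepOfLevel M :=
  s44_of_nlAll (nlAllSupplyK_of_four clauseF H) P hcond hpN hirr hmod

end Fermat.Agent.GF.Top.Integrate5
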