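/-
GATE-F / GF-INTEGRATOR, file 6 (helper61): **frozen S44 from helper31's per-node targets of record**
`NodeSupplyAsmK.NLNodeK` (sheets `SheetT.R1T`) and `NodeSupplyAsmS.NLNodeS` (sheets
`SheetsMod.sheet₁`), on the frame clause `clauseD` (= (d) + (e)) AND on `clauseF`
(= (d) + (e) + (f) + (g)).

* `s44_of_nlNodeK_D`, `s44_of_nlNodeS_D` : from `NLNodeK clauseD` / `NLNodeS clauseD`;
* `s44_of_nlNodeK_F`, `s44_of_nlNodeS_F` : from `NLNodeK clauseF` / `NLNodeS clauseF`.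

`Fermat/Agent/S44.lean` is ONE of these four applied to the assembler's theorem.
-/
import Mathlib
import Fermat.Agent.GF.Top.Integrate4
import Fermat.Agent.GF.F2Asm.NodeSupplyAsmS

set_option autoImplicit false
set_option linter.unusedSectionVars false
set_option linter.unusedVariables false

noncomputable section

namespace Fermat.Agent.GF.Top.Integrate6

open Fermat.Agent.GF.Top.Provider44T Fermat.Agent.GF.Top.Provider44D
open Fermat.Agent.GF.Eis.ClauseF Fermat.Agent.GF.F2Asm.F2PlugK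
open Fermat.Agent.GF.F2Asm.NodeSupplyAsmK Fermat.Agent.GF.F2Asm.NodeSupplyAsmS
open Fermat.Agent.GF.Top.Integrate4

/-- **Frozen S44 from `NLNodeK clauseD`.** -/
theorem s44_of_nlNodeK_D (H : NLNodeK clauseD) (P : FreyPackage) {N : ℕ}
    (hcond : P.IsConductorLevel N) (hpN : P.p ∣ N)
    (hirr : WeierstrassCurve.Affine.Point.GaloisRepIsIrreducible (K := AlgebraicClosure ℚ) ℚ
      P.freyCurve P.p)
    (hmod : P.ModularRepOfLevel N) :
    ∃ M : ℕ, M ∣ N ∧ ¬ P.p ∣ M ∧ P.ModularRepOfLevel M :=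
  s44_of_nlSupplyK_D (nlSupplyK_of_nlNodeK clauseD H) P hcond hpN hirr hmod

/-- **Frozen S44 from `NLNodeS clauseD`.** -/
theorem s44_of_nlNodeS_D (H : NLNodeS clauseD) (P : FreyPackage) {N : ℕ}
    (hcond : P.IsConductorLevel N) (hpN : P.p ∣ N)
    (hirr : WeierstrassCurve.Affine.Point.GaloisRepIsIrreducible (K := AlgebraicClosure ℚ) ℚ
      P.freyCurve P.p)
    (hmod : P.ModularRepOfLevel N) :
    ∃ M : ℕ, M ∣ N ∧ ¬ P.p ∣ M ∧ P.ModularRepOfLevel M :=
  s44_of_nlNodeK_D (nlNodeK_of_nlNodeS clauseD H) P hcond hpN hirr hmod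

/-- **Frozen S44 from `NLNodeK clauseF`.** -/
theorem s44_of_nlNodeK_F (H : NLNodeK clauseF) (P : FreyPackage) {N : ℕ}
    (hcond : P.IsConductorLevel N) (hpN : P.p ∣ N)
    (hirr : WeierstrassCurve.Affine.Point.GaloisRepIsIrreducible (K := AlgebraicClosure ℚ) ℚ
      P.freyCurve P.p)
    (hmod : P.ModularRepOfLevel N) :
    ∃ M : ℕ, M ∣ N ∧ ¬ P.p ∣ M ∧ P.ModularRepOfLevel M :=
  s44_of_nlSupplyK (nlSupplyK_of_nlNodeK clauseF H) P hcond hpN hirr hmod

/-- **Frozen S44 from `NLNodeS clauseF`.** -/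
theorem s44_of_nlNodeS_F (H : NLNodeS clauseF) (P : FreyPackage) {N : ℕ}
    (hcond : P.IsConductorLevel N) (hpN : P.p ∣ N)
    (hirr : WeierstrassCurve.Affine.Point.GaloisRepIsIrreducible (K := AlgebraicClosure ℚ) ℚ
      P.freyCurve P.p)
    (hmod : P.ModularRepOfLevel N) :
    ∃ M : ℕ, M ∣ N ∧ ¬ P.p ∣ M ∧ P.ModularRepOfLevel M :=
  s44_of_nlNodeK_F (nlNodeK_of_nlNodeS clauseF H) P hcond hpN hirr hmod

end Fermat.Agent.GF.Top.Integrate6
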