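/-
GATE-F / TOP, file 5 (helper61): `S44Top.Core44` (hence the frozen S44) from the SAME concrete
fields `ProviderInst.FieldsAt` as S40 — only the curve-side hypotheses handed to the field-provider
change: `5 ≤ p`, `W` semistable, `p ∣ Δ` (multiplicative at `p`), `p ∣ v_p(Δ)` (peu ramifiée)
instead of `W.IsGoodPrimeFor p`.  S0 (`GF/Setup/S0.lean`) never uses the reduction type at `p`.

`s44_of_fields : (∀ inputs + S0 data, ∃ A ι P e, FieldsAt …) → (frozen S44)`.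
-/
import Mathlib
import Fermat.Agent.GF.Top.ProviderInst
import Fermat.Agent.GF.Top.S44Top

set_option autoImplicit false
set_option linter.unusedSectionVars false

noncomputable section

namespace Fermat.Agent.GF.Top.Provider44

open AlgebraicCurve ModularCurve IsLocalRing
open Fermat.Agent.S24 Fermat.Agent.S24_helper62 Fermat.Agent.RRh45 Fermat.Agent.RR
open Fermat.Agent.GJ.J1 Fermat.Agent.GJ.J1.Val
open Fermat.Agent.GK.MultiVal Fermat.Agent.GK.BallTwo Fermat.Agent.GK.NodalGraded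
open Fermat.Agent.GS.Nodal.LSR2 Fermat.Agent.GS.Nodal.Inst Fermat.Agent.GS.Nodal.ROfSurj2
open Fermat.Agent.GJ Fermat.Agent.GJ.KumGroup Fermat.Agent.GJ.Kum.KumType
open Fermat.Agent.GK.UQ Fermat.Agent.GK.New Fermat.Agent.GK.AL Fermat.Agent.GK.UqKronecker
open Fermat.Agent.GB.A.A6.ECDet Fermat.Agent.GB.A.A6.EigQ
open Fermat.Agent.GF.Setup.Plane Fermat.Agent.GF.Setup.S0
open Fermat.Agent.GF.Shape.Plug Fermat.Agent.GF.Trop
open Fermat.Agent.GF.Top.Skeleton Fermat.Agent.GF.Top.ProviderInst Fermat.Agent.GF.Top.S44Top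

attribute [local instance] finiteResidues_FN hasPrincipalDivisors_FN nonempty_place_FN
  isAlgClosed_res finiteResidues_Fres hasPrincipalDivisors_Fres nonempty_place_Fres

/-- **`Core44` from the concrete fields.** -/
theorem core44_of_fields
    (H : ∀ (W : WeierstrassCurve ℤ) (hΔ : W.Δ ≠ 0) (p : ℕ) [Fact p.Prime] (_ : 5 ≤ p)
      (_ : W.IsSemistableModel) (_ : (p : ℤ) ∣ W.Δ)
      (_ : (W.map (Int.castRingHom ℚ)).IsPeuRamifieeAt p p)
      (_ : W.ModRepIsIrreducible p)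
      (M' : ℕ) [NeZero M'] (hpM' : ¬ p ∣ M')
      (_ : W.IsResiduallyModularOfLevel p (M' * p))
      (_ : ¬ W.IsResiduallyModularOfLevel p M')
      (C : Copy W p (M' * p))
      (_ : C.Y0 ≤ eigQ (M' * p) p (Sset W (M' * p) p) (hMS W (M' * p) p) (aW W))
      (ℓ₀ : ℕ) (hℓ₀ : ℓ₀.Prime) (hℓ₀S : ℓ₀ ∉ Sset W (M' * p) p)
      (_ : ((aW W ℓ₀ : ℤ) : ZMod p) ≠ ((ℓ₀ : ℕ) : ZMod p) + 1),
      ∃ (A : ValuationSubring Kbar) (_ : A.LiesOverPrime p) (ι : Type) (_ : Fintype ι)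
        (P : ι → Place (ResidueField A) (FresBar (M' * p) A)) (e : ι → ZMod p),
        FieldsAt W p M' hpM' C hℓ₀ (good_of_notMem hΔ hℓ₀ hℓ₀S).2.1 A P e) :
    Core44 := by
  intro W hΔ p hp hp5 hss hmult hpeu hirr M hM hpM hp2M hmod
  have : Fact p.Prime := ⟨hp⟩
  have hp2 : p ≠ 2 := by omega
  by_contra hnot
  obtain ⟨M', rfl⟩ : ∃ M', M = M' * p := ⟨M / p, (Nat.div_mul_cancel hpM).symm⟩
  have hM'0 : M' ≠ 0 := by
    rintro rfl
    simp at hM
  have : NeZero M' := ⟨hM'0⟩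
  have hpM' : ¬ p ∣ M' := by
    intro h
    apply hp2M
    rw [pow_two]
    exact Nat.mul_dvd_mul h dvd_rfl
  rw [Nat.mul_div_cancel M' hp.pos] at hnot
  obtain ⟨C, hC⟩ := exists_setup W hΔ hp2 hirr hmod
  obtain ⟨ℓ₀, hℓ₀, hℓ₀S, hne⟩ := exists_nonEis W hΔ hp2 hirr (M' * p) (p := p)
  obtain ⟨A, hA, ι, _, P, e, F⟩ :=
    H W hΔ p hp5 hss hmult hpeu hirr M' hpM' hmod hnot C hC ℓ₀ hℓ₀ hℓ₀S hne
  exact hnot (chain_of_fieldsAt W hΔ p M' hpM' C hC hℓ₀ hℓ₀S hne A hA P e F).goal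

end Fermat.Agent.GF.Top.Provider44
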